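import Fermat.Agent.S55.G3.ClassMod

/-!
# S55, chapter G3 (abstract part), leaf (CM8): transfer of a class module `C → C/W → Ct`
-/

set_option autoImplicit false
set_option linter.unusedSectionVars false
set_option linter.unusedVariables false

namespace Fermat.Agent.S55Lib

open groupCohomology

/-- the action on a stable subgroup -/
@[reducible] def CM8_act {G : Type} [Group G] {Ct : Type} [AddCommGroup Ct] [DistribMulAction G Ct]
    (S : AddSubgroup Ct) (hS : ∀ (g : G) (x : Ct), x ∈ S → g • x ∈ S) : DistribMulAction G S where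
  smul g a := ⟨g • (a : Ct), hS g a a.2⟩
  one_smul a := Subtype.ext (one_smul G (a : Ct))
  mul_smul g h a := Subtype.ext (mul_smul g h (a : Ct))
  smul_zero g := Subtype.ext (smul_zero g)
  smul_add g a b := Subtype.ext (smul_add g (a : Ct) (b : Ct))

/-- (CM8) S55/G3/CmTransfer.lean : abstract transfer `C → C/W → Ct` (`W` cohomologically trivial in
`p`-layers, `Ct / (C/W)` is `p'`-torsion). -/
theorem cm_transfer (p : ℕ) [Fact p.Prime] {G : Type} [Group G] [Finite G] {W C Ct : Type}
    [AddCommGroup W] [DistribMulAction G W] [AddCommGroup C] [DistribMulAction G C]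
    [AddCommGroup Ct] [DistribMulAction G Ct] (ιW : W →+ C) (τ : C →+ Ct)
    (eι : ∀ (g : G) w, ιW (g • w) = g • ιW w) (eτ : ∀ (g : G) c, τ (g • c) = g • τ c)
    (hι : Function.Injective ιW) (hex : ∀ c, τ c = 0 ↔ ∃ w, ιW w = c)
    (htor : ∀ x : Ct, ∃ m : ℕ, m.Coprime p ∧ ∃ c, τ c = m • x)
    (hC : HLayer p G C) (hW : HLayer0 p G W) (u : G × G → C) (hu : IsCocycle₂ u)
    (hord : ∀ H : Subgroup G, IsPGroup p H → ∀ k : ℤ,
      IsCoboundary₂ (k • fun x : H × H => u ((x.1 : G), (x.2 : G))) → (Nat.card H : ℤ) ∣ k) :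
    IsClassModule p G Ct (fun x => τ (u x)) := by
  let _ : DistribMulAction G τ.range := CM8_act τ.range (by
    rintro g _ ⟨c, rfl⟩
    exact ⟨g • c, eτ g c⟩)
  have eπ : ∀ (g : G) c, τ.rangeRestrict (g • c) = g • τ.rangeRestrict c :=
    fun g c => Subtype.ext (eτ g c)
  have hπ : Function.Surjective τ.rangeRestrict := τ.rangeRestrict_surjective
  have hex' : ∀ c, τ.rangeRestrict c = 0 ↔ ∃ w, ιW w = c := by
    intro c
    rw [← hex c]
    exact Subtype.ext_iff
  have hCb : HLayer p G τ.range := hlayer_transfer ιW τ.rangeRestrict eι eπ hι hπ hex' p hC hW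
  have hdev : DevOut p G τ.range := pgroup_devissage p hCb
  have hord' := h2ord_transfer ιW τ.rangeRestrict eι eπ hι hπ hex' p hW u hu hord
  have hcoc : IsCocycle₂ (fun x : G × G => τ.rangeRestrict (u x)) := by
    intro a b c
    show τ.rangeRestrict (u (a * b, c)) + τ.rangeRestrict (u (a, b)) =
      a • τ.rangeRestrict (u (b, c)) + τ.rangeRestrict (u (a, b * c))
    rw [← eπ, ← map_add, ← map_add, hu a b c]
  have hcm : IsClassModule p G τ.range (fun x => τ.rangeRestrict (u x)) :=
    cm_of_ord p hdev _ hcoc hord'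
  exact cm_of_ptors_coker p τ.range.subtype (fun _ _ => rfl) Subtype.val_injective
    (fun x => by
      obtain ⟨m, hm, c, hc⟩ := htor x
      exact ⟨m, hm, ⟨τ c, c, rfl⟩, hc⟩) _ hcm

end Fermat.Agent.S55Lib
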