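import Fermat.Agent.S55.RootDefs

/-!
# S55, chapter G3 (abstract part): relative norms `N_{H/K} : A^K → A^H`

`nrm K H a = ∑_{x ∈ H/K} x • a` (well defined for `a ∈ A^K`; we use `Quotient.out` representatives).
All lemmas are elementary finite-sum manipulations.
-/

set_option autoImplicit false

namespace Fermat.Agent.S55Lib

variable {G : Type} [Group G] {A : Type} [AddCommGroup A] [DistribMulAction G A]

/-- relative norm `∑_{x ∈ H/K} x • a` -/
noncomputable def nrm (K H : Subgroup G) (a : A) : A :=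
  ∑ᶠ x : H ⧸ K.subgroupOf H, ((Quotient.out x : H) : G) • a

theorem NR_smul_eq (K H : Subgroup G) {a : A} (ha : a ∈ inv K A) {h h' : H}
    (e : (QuotientGroup.mk h : H ⧸ K.subgroupOf H) = QuotientGroup.mk h') :
    (h : G) • a = (h' : G) • a := by
  have h1 : h⁻¹ * h' ∈ K.subgroupOf H := QuotientGroup.eq.mp e
  rw [Subgroup.mem_subgroupOf] at h1
  have h2 := ha _ h1
  have h3 : (h' : G) = (h : G) * ((h⁻¹ * h' : H) : G) := by
    simp
  rw [h3, mul_smul, h2]

theorem NR_out_smul (K H : Subgroup G) {a : A} (ha : a ∈ inv K A) (h : H) :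
    ((Quotient.out (QuotientGroup.mk h : H ⧸ K.subgroupOf H) : H) : G) • a = (h : G) • a :=
  NR_smul_eq K H ha (QuotientGroup.out_eq' _)

theorem NR_finite {K H : Subgroup G} (hfin : K.relIndex H ≠ 0) :
    Finite (H ⧸ K.subgroupOf H) :=
  Nat.finite_of_card_ne_zero hfin

/-- the norm computed on a system of representatives indexed by a finite type -/
theorem NR_sum_bij (K H : Subgroup G) {a : A} (ha : a ∈ inv K A) {ι : Type} [Fintype ι]
    (r : ι → H)
    (hr : Function.Bijective (fun i => (QuotientGroup.mk (r i) : H ⧸ K.subgroupOf H))) :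
    nrm K H a = ∑ i, ((r i : H) : G) • a := by
  unfold nrm
  rw [← finsum_comp_equiv (Equiv.ofBijective _ hr), finsum_eq_sum_of_fintype]
  apply Finset.sum_congr rfl
  intro i _
  exact NR_out_smul K H ha (r i)

/-- (N0) any system of representatives computes the norm of a `K`-invariant element -/
theorem nrm_eq_finsum (K H : Subgroup G) {a : A} (ha : a ∈ inv K A)
    (s : H ⧸ K.subgroupOf H → H) (hs : ∀ x, (QuotientGroup.mk (s x) : H ⧸ K.subgroupOf H) = x) :
    nrm K H a = ∑ᶠ x : H ⧸ K.subgroupOf H, ((s x : H) : G) • a := by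
  unfold nrm
  apply finsum_congr
  intro x
  apply NR_smul_eq K H ha
  rw [hs x]
  exact QuotientGroup.out_eq' x

/-- (N1) -/
theorem nrm_add (K H : Subgroup G) (hfin : K.relIndex H ≠ 0) (a b : A) :
    nrm K H (a + b) = nrm K H a + nrm K H b := by
  have := NR_finite hfin
  unfold nrm
  rw [← finsum_add_distrib (Set.toFinite _) (Set.toFinite _)]
  apply finsum_congr
  intro x
  exact smul_add _ _ _

/-- (N1') -/
theorem nrm_zsmul (K H : Subgroup G) (hfin : K.relIndex H ≠ 0) (k : ℤ) (a : A) :
    nrm K H (k • a) = k • nrm K H a :=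
  map_zsmul (AddMonoidHom.mk' (nrm K H) (nrm_add K H hfin)) k a

/-- (N2) -/
theorem nrm_mem_inv {K H : Subgroup G} (hfin : K.relIndex H ≠ 0) {a : A}
    (ha : a ∈ inv K A) : nrm K H a ∈ inv H A := by
  have := NR_finite hfin
  intro h hh
  unfold nrm
  have e1 := AddMonoidHom.map_finsum (DistribSMul.toAddMonoidHom A h)
    (f := fun x : H ⧸ K.subgroupOf H => ((Quotient.out x : H) : G) • a) (Set.toFinite _)
  have e2 : h • (∑ᶠ x : H ⧸ K.subgroupOf H, ((Quotient.out x : H) : G) • a)
      = ∑ᶠ x : H ⧸ K.subgroupOf H, h • ((Quotient.out x : H) : G) • a := e1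
  have e3 := finsum_comp_equiv (MulAction.toPerm (⟨h, hh⟩ : H))
    (f := fun x : H ⧸ K.subgroupOf H => ((Quotient.out x : H) : G) • a)
  rw [e2, ← e3]
  apply finsum_congr
  intro x
  induction x using QuotientGroup.induction_on with
  | H g =>
    show h • ((Quotient.out (QuotientGroup.mk g : H ⧸ K.subgroupOf H) : H) : G) • a
      = ((Quotient.out (QuotientGroup.mk ((⟨h, hh⟩ : H) * g) : H ⧸ K.subgroupOf H) : H) : G) • a
    rw [NR_out_smul K H ha, NR_out_smul K H ha, Subgroup.coe_mul, mul_smul]

/-- (N3) transitivity -/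
theorem nrm_trans {K H L : Subgroup G} (hKH : K ≤ H) (hHL : H ≤ L) (h1 : K.relIndex H ≠ 0)
    (h2 : H.relIndex L ≠ 0) {a : A} (ha : a ∈ inv K A) :
    nrm H L (nrm K H a) = nrm K L a := by
  have f1 := NR_finite h1
  have f2 := NR_finite h2
  let _ : Fintype (H ⧸ K.subgroupOf H) := Fintype.ofFinite _
  let _ : Fintype (L ⧸ H.subgroupOf L) := Fintype.ofFinite _
  let r : (L ⧸ H.subgroupOf L) × (H ⧸ K.subgroupOf H) → L := fun yx =>
    Quotient.out yx.1 * ⟨((Quotient.out yx.2 : H) : G), hHL (Quotient.out yx.2 : H).2⟩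
  have hr : Function.Bijective (fun i => (QuotientGroup.mk (r i) : L ⧸ K.subgroupOf L)) := by
    constructor
    · rintro ⟨y, x⟩ ⟨y', x'⟩ hxy
      have e1 : (r (y, x))⁻¹ * r (y', x') ∈ K.subgroupOf L := QuotientGroup.eq.mp hxy
      rw [Subgroup.mem_subgroupOf] at e1
      have e1' : ((Quotient.out x : H) : G)⁻¹ * ((Quotient.out y : L) : G)⁻¹ *
          (((Quotient.out y' : L) : G) * ((Quotient.out x' : H) : G)) ∈ K := by
        simpa [r, mul_assoc] using e1
      have hy : y = y' := by
        rw [← QuotientGroup.out_eq' y, ← QuotientGroup.out_eq' y', QuotientGroup.eq,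
          Subgroup.mem_subgroupOf]
        have e2 := H.mul_mem (H.mul_mem (Quotient.out x : H).2 (hKH e1'))
          (H.inv_mem (Quotient.out x' : H).2)
        have e3 : ((Quotient.out x : H) : G) * (((Quotient.out x : H) : G)⁻¹ *
          ((Quotient.out y : L) : G)⁻¹ * (((Quotient.out y' : L) : G) *
          ((Quotient.out x' : H) : G))) * ((Quotient.out x' : H) : G)⁻¹
          = ((Quotient.out y : L) : G)⁻¹ * ((Quotient.out y' : L) : G) := by group
        rw [e3] at e2
        simpa using e2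
      subst hy
      have hx : x = x' := by
        rw [← QuotientGroup.out_eq' x, ← QuotientGroup.out_eq' x', QuotientGroup.eq,
          Subgroup.mem_subgroupOf]
        have e3 : ((Quotient.out x : H) : G)⁻¹ * ((Quotient.out y : L) : G)⁻¹ *
          (((Quotient.out y : L) : G) * ((Quotient.out x' : H) : G))
          = ((Quotient.out x : H) : G)⁻¹ * ((Quotient.out x' : H) : G) := by group
        rw [e3] at e1'
        simpa using e1'
      rw [hx]
    · intro z
      induction z using QuotientGroup.induction_on with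
      | H l =>
        set y : L ⧸ H.subgroupOf L := QuotientGroup.mk l with hy
        have e1 : (Quotient.out y : L)⁻¹ * l ∈ H.subgroupOf L := by
          rw [← QuotientGroup.eq, QuotientGroup.out_eq']
        rw [Subgroup.mem_subgroupOf] at e1
        set h : H := ⟨_, e1⟩ with hh
        set x : H ⧸ K.subgroupOf H := QuotientGroup.mk h with hx
        have e2 : (Quotient.out x : H)⁻¹ * h ∈ K.subgroupOf H := by
          rw [← QuotientGroup.eq, QuotientGroup.out_eq']
        rw [Subgroup.mem_subgroupOf] at e2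
        refine ⟨(y, x), ?_⟩
        show (QuotientGroup.mk (r (y, x)) : L ⧸ K.subgroupOf L) = QuotientGroup.mk l
        rw [QuotientGroup.eq, Subgroup.mem_subgroupOf]
        have e3 : (((r (y, x))⁻¹ * l : L) : G) = (((Quotient.out x : H)⁻¹ * h : H) : G) := by
          simp only [r, hh, Subgroup.coe_mul, Subgroup.coe_inv, mul_inv_rev]
          group
        rw [e3]
        exact e2
  rw [NR_sum_bij K L ha r hr, Fintype.sum_prod_type]
  unfold nrm
  rw [finsum_eq_sum_of_fintype]
  apply Finset.sum_congr rfl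
  intro y _
  rw [finsum_eq_sum_of_fintype, Finset.smul_sum]
  apply Finset.sum_congr rfl
  intro x _
  rw [smul_smul]
  rfl

/-- (N4) -/
theorem nrm_of_mem_inv (K H : Subgroup G) {a : A} (ha : a ∈ inv H A) :
    nrm K H a = K.relIndex H • a := by
  have e : nrm K H a = ∑ᶠ _x : H ⧸ K.subgroupOf H, a := by
    unfold nrm
    apply finsum_congr
    intro x
    exact ha _ (Quotient.out x : H).2
  rw [e]
  by_cases hfin : Finite (H ⧸ K.subgroupOf H)
  · let _ : Fintype (H ⧸ K.subgroupOf H) := Fintype.ofFinite _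
    rw [finsum_eq_sum_of_fintype, Finset.sum_const, Finset.card_univ, Subgroup.relIndex,
      Subgroup.index, Nat.card_eq_fintype_card]
  · rw [not_finite_iff_infinite] at hfin
    have h0 : K.relIndex H = 0 := by
      rw [Subgroup.relIndex, Subgroup.index]
      exact Nat.card_eq_zero_of_infinite
    rw [h0, zero_smul]
    by_cases ha0 : a = 0
    · rw [ha0]; exact finsum_zero
    · apply finsum_of_infinite_support
      have : Function.support (fun _x : H ⧸ K.subgroupOf H => a) = Set.univ := by
        ext x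
        simp [ha0]
      rw [this]
      exact Set.infinite_univ

/-- (N5) -/
theorem nrm_bot [Finite G] (H : Subgroup G) (a : A) : nrm ⊥ H a = normG H A a := by
  let _ : Fintype H := Fintype.ofFinite _
  have ha : a ∈ inv (⊥ : Subgroup G) A := by
    intro n hn
    rw [Subgroup.mem_bot.mp hn, one_smul]
  have hr : Function.Bijective
      (fun i : H => (QuotientGroup.mk i : H ⧸ (⊥ : Subgroup G).subgroupOf H)) := by
    constructor
    · intro x y hxy
      have e1 : x⁻¹ * y ∈ (⊥ : Subgroup G).subgroupOf H := QuotientGroup.eq.mp hxy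
      rw [Subgroup.mem_subgroupOf, Subgroup.mem_bot] at e1
      have e2 : x⁻¹ * y = 1 := Subtype.ext e1
      exact (inv_mul_eq_one.mp e2)
    · exact QuotientGroup.mk_surjective
  rw [NR_sum_bij ⊥ H ha (fun i : H => i) hr]
  unfold normG
  rw [AddMonoidHom.finsetSum_apply]
  apply Finset.sum_congr
  · ext; simp
  · intro x _; rfl

/-- (N6) cyclic quotient: `H = ⋃_{i<e} t^i K`, disjoint -/
theorem nrm_cyclic {K H : Subgroup G} (hKH : K ≤ H) {t : G} (ht : t ∈ H) {e : ℕ}
    (he : K.relIndex H = e) (hgen : ∀ h ∈ H, ∃ i : ℕ, (t ^ i)⁻¹ * h ∈ K) {a : A}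
    (ha : a ∈ inv K A) :
    nrm K H a = ∑ i ∈ Finset.range e, t ^ i • a := by
  rcases Nat.eq_zero_or_pos e with rfl | hepos
  · rw [Finset.range_zero, Finset.sum_empty]
    have hinf : Infinite (H ⧸ K.subgroupOf H) := by
      by_contra hcon
      rw [not_infinite_iff_finite] at hcon
      have : Nat.card (H ⧸ K.subgroupOf H) ≠ 0 := Nat.card_pos.ne'
      exact this he
    unfold nrm
    by_cases ha0 : a = 0
    · simp [ha0]
    · apply finsum_of_infinite_support
      have : Function.support (fun x : H ⧸ K.subgroupOf H => ((Quotient.out x : H) : G) • a)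
          = Set.univ := by
        ext x
        simp only [Function.mem_support, ne_eq, Set.mem_univ, iff_true]
        rw [smul_eq_zero_iff_eq]
        exact ha0
      rw [this]
      exact Set.infinite_univ
  have hfin : Finite (H ⧸ K.subgroupOf H) := NR_finite (by rw [he]; exact hepos.ne')
  let _ : Fintype (H ⧸ K.subgroupOf H) := Fintype.ofFinite _
  have hcard : Fintype.card (H ⧸ K.subgroupOf H) = e := by
    rw [← Nat.card_eq_fintype_card]; exact he
  set T : H := ⟨t, ht⟩ with hT
  -- a period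
  obtain ⟨d, hd0, hde, hdK⟩ : ∃ d : ℕ, 0 < d ∧ d ≤ e ∧ T ^ d ∈ K.subgroupOf H := by
    obtain ⟨i, j, hij, hf⟩ := Fintype.exists_ne_map_eq_of_card_lt
      (fun i : Fin (e + 1) => (QuotientGroup.mk (T ^ (i : ℕ)) : H ⧸ K.subgroupOf H))
      (by rw [hcard, Fintype.card_fin]; omega)
    have key : ∀ i j : Fin (e + 1), (i : ℕ) < j →
        (QuotientGroup.mk (T ^ (i : ℕ)) : H ⧸ K.subgroupOf H) = QuotientGroup.mk (T ^ (j : ℕ)) →
        ∃ d : ℕ, 0 < d ∧ d ≤ e ∧ T ^ d ∈ K.subgroupOf H := by
      intro i j hlt hf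
      refine ⟨j - i, by omega, by have := j.2; omega, ?_⟩
      have h1 := QuotientGroup.eq.mp hf
      have h2 : (T ^ (i : ℕ))⁻¹ * T ^ (j : ℕ) = T ^ ((j : ℕ) - i) := by
        rw [pow_sub T hlt.le]
        exact ((Commute.pow_pow_self T _ _).inv_right.eq).symm
      rwa [h2] at h1
    rcases lt_or_gt_of_ne (fun h => hij (Fin.ext h) : (i : ℕ) ≠ j) with h | h
    · exact key i j h hf
    · exact key j i h hf.symm
  have hr : Function.Bijective
      (fun i : Fin e => (QuotientGroup.mk (T ^ (i : ℕ)) : H ⧸ K.subgroupOf H)) := by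
    rw [Fintype.bijective_iff_surjective_and_card]
    refine ⟨?_, by rw [hcard, Fintype.card_fin]⟩
    intro x
    induction x using QuotientGroup.induction_on with
    | H h =>
      obtain ⟨i, hi⟩ := hgen h h.2
      refine ⟨⟨i % d, lt_of_lt_of_le (Nat.mod_lt _ hd0) hde⟩, ?_⟩
      show (QuotientGroup.mk (T ^ (i % d)) : H ⧸ K.subgroupOf H) = QuotientGroup.mk h
      rw [QuotientGroup.eq]
      have h1 : (T ^ i)⁻¹ * h ∈ K.subgroupOf H := by
        rw [Subgroup.mem_subgroupOf]
        simpa [hT] using hi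
      have h2 : (T ^ (i % d))⁻¹ * h = (T ^ d) ^ (i / d) * ((T ^ i)⁻¹ * h) := by
        have h3 : T ^ i = T ^ (i % d) * (T ^ d) ^ (i / d) := by
          rw [← pow_mul, ← pow_add, Nat.mod_add_div]
        rw [h3, mul_inv_rev, ← mul_assoc, ← mul_assoc, mul_inv_cancel, one_mul]
      rw [h2]
      exact Subgroup.mul_mem _ (Subgroup.pow_mem _ hdK _) h1
  rw [NR_sum_bij K H ha (fun i : Fin e => T ^ (i : ℕ)) hr, Finset.sum_range]
  rfl

/-- (N7) functoriality -/
theorem nrm_map {B : Type} [AddCommGroup B] [DistribMulAction G B] (φ : A →+ B)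
    (hφ : ∀ (g : G) (a : A), φ (g • a) = g • φ a) (K H : Subgroup G) (hfin : K.relIndex H ≠ 0)
    (a : A) : φ (nrm K H a) = nrm K H (φ a) := by
  have := NR_finite hfin
  unfold nrm
  rw [AddMonoidHom.map_finsum φ (Set.toFinite _)]
  apply finsum_congr
  intro x
  exact hφ _ _

/-- (N9) invariants in `G ⧸ N` acting on `A^N` -/
theorem mem_inv_map_iff (N : Subgroup G) [N.Normal] (K : Subgroup G) (a : inv N A) :
    a ∈ inv (K.map (QuotientGroup.mk' N)) (inv N A) ↔ (a : A) ∈ inv K A := by
  constructor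
  · intro h k hk
    have h1 := h (QuotientGroup.mk' N k) (Subgroup.mem_map_of_mem _ hk)
    exact congrArg Subtype.val h1
  · intro h n hn
    obtain ⟨k, hk, rfl⟩ := Subgroup.mem_map.mp hn
    apply Subtype.ext
    exact h k hk

/-- (N8) norms in `G ⧸ N` acting on `A^N` are the norms in `G` -/
theorem nrm_quot (N : Subgroup G) [N.Normal] {K H : Subgroup G} (hNK : N ≤ K) (hKH : K ≤ H)
    (hfin : K.relIndex H ≠ 0) (a : inv N A) (ha : (a : A) ∈ inv K A) :
    ((nrm (K.map (QuotientGroup.mk' N)) (H.map (QuotientGroup.mk' N)) a : inv N A) : A)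
      = nrm K H (a : A) := by
  have hf := NR_finite hfin
  let _ : Fintype (H ⧸ K.subgroupOf H) := Fintype.ofFinite _
  have ha' := (mem_inv_map_iff N K a).mpr ha
  let r : H ⧸ K.subgroupOf H → H.map (QuotientGroup.mk' N) := fun x =>
    ⟨QuotientGroup.mk' N ((Quotient.out x : H) : G), Subgroup.mem_map_of_mem _ (Quotient.out x : H).2⟩
  have hmemK : ∀ g : G, QuotientGroup.mk' N g ∈ K.map (QuotientGroup.mk' N) → g ∈ K := by
    intro g hg
    obtain ⟨k, hk, hkg⟩ := Subgroup.mem_map.mp hg
    have h1 : k⁻¹ * g ∈ N := QuotientGroup.eq.mp hkg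
    have h2 := K.mul_mem hk (hNK h1)
    rwa [mul_inv_cancel_left] at h2
  have hr : Function.Bijective (fun x => (QuotientGroup.mk (r x) :
      H.map (QuotientGroup.mk' N) ⧸
        (K.map (QuotientGroup.mk' N)).subgroupOf (H.map (QuotientGroup.mk' N)))) := by
    constructor
    · intro x x' hxx
      have h1 := QuotientGroup.eq.mp hxx
      rw [Subgroup.mem_subgroupOf] at h1
      have h2 : QuotientGroup.mk' N (((Quotient.out x : H) : G)⁻¹ * ((Quotient.out x' : H) : G))
          ∈ K.map (QuotientGroup.mk' N) := by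
        simpa [r] using h1
      have h3 := hmemK _ h2
      rw [← QuotientGroup.out_eq' x, ← QuotientGroup.out_eq' x', QuotientGroup.eq,
        Subgroup.mem_subgroupOf]
      simpa using h3
    · intro z
      induction z using QuotientGroup.induction_on with
      | H gb =>
        obtain ⟨gb, hgb⟩ := gb
        obtain ⟨h, hh, rfl⟩ := Subgroup.mem_map.mp hgb
        set x : H ⧸ K.subgroupOf H := QuotientGroup.mk (⟨h, hh⟩ : H) with hx
        have e2 : (Quotient.out x : H)⁻¹ * ⟨h, hh⟩ ∈ K.subgroupOf H := by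
          rw [← QuotientGroup.eq, QuotientGroup.out_eq']
        rw [Subgroup.mem_subgroupOf] at e2
        refine ⟨x, ?_⟩
        show (QuotientGroup.mk (r x) : H.map (QuotientGroup.mk' N) ⧸
          (K.map (QuotientGroup.mk' N)).subgroupOf (H.map (QuotientGroup.mk' N))) =
          QuotientGroup.mk ⟨QuotientGroup.mk' N h, hgb⟩
        rw [QuotientGroup.eq, Subgroup.mem_subgroupOf]
        have e3 := Subgroup.mem_map_of_mem (QuotientGroup.mk' N) e2
        simpa [r] using e3
  rw [NR_sum_bij _ _ ha' r hr]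
  unfold nrm
  rw [finsum_eq_sum_of_fintype, AddSubgroup.val_finsetSum]
  rfl

end Fermat.Agent.S55Lib
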