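import Fermat.Agent.S55.G2.Defs
import Fermat.Agent.S55.G3.Nrm

/-!
# S55, chapter G3: the explicit reciprocity map of the `p`-part of `ℚ(ζ_l)` — definitions
-/

set_option autoImplicit false
set_option linter.unusedSectionVars false
set_option linter.unusedVariables false

namespace Fermat.Agent.S55Lib

noncomputable section

/-- the idele class module, additively -/
abbrev AC : Type := Additive CC

/-- the class of an idele, additively -/
def acMk (x : JJ) : AC := Additive.ofMul (CC.mk x)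

/-- `z ∈ Ω_l` has residue `t ∈ (ℤ/l)^×` -/
def HasRes (l : Nat.Primes) (z : Om l) (t : (ZMod (l : ℕ))ˣ) : Prop :=
  ∃ j : ℕ, ‖z - (j : Om l)‖ < 1 ∧ ((j : ℕ) : ZMod (l : ℕ)) = (t : ZMod (l : ℕ))

/-- `g` acts on the `l`-th roots of unity through `t` -/
def ActsMu (l : Nat.Primes) (g : GQ) (t : (ZMod (l : ℕ))ˣ) : Prop :=
  ∀ ζ : Qbar, ζ ^ (l : ℕ) = 1 → g ζ = ζ ^ (t : ZMod (l : ℕ)).val

/-- the fixing subgroup of `ℚ(ζ_l)` -/
def Ucyc (l : Nat.Primes) : Subgroup GQ where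
  carrier := {g | ∀ ζ : Qbar, ζ ^ (l : ℕ) = 1 → g ζ = ζ}
  one_mem' := fun _ _ => rfl
  mul_mem' := fun {a b} ha hb ζ hζ => by
    show a (b ζ) = ζ
    rw [hb ζ hζ, ha ζ hζ]
  inv_mem' := fun {a} ha ζ hζ => by
    have h := ha ζ hζ
    calc a⁻¹ ζ = a⁻¹ (a ζ) := by rw [h]
      _ = ζ := a.symm_apply_apply ζ

/-- `χ = lam ∘ (cyclotomic character mod l)`, `lam` onto `ℤ/n` with kernel of order prime to `p` -/
structure IsArt (p n : ℕ) (l : Nat.Primes) (lam : (ZMod (l : ℕ))ˣ →* Multiplicative (ZMod n))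
    (χ : GQ →* Multiplicative (ZMod n)) : Prop where
  ne : (l : ℕ) ≠ p
  surj : Function.Surjective lam
  cop : (Nat.card lam.ker).Coprime p
  cyc : ∀ g t, ActsMu l g t → χ g = lam t

/-- unit ideles -/
def IsUnitId (u : JJ) : Prop := ∀ q g, ‖((cmp u q g : (Om q)ˣ) : Om q)‖ = 1

/-- the idele norm `N_{K/ℚ}`, `U_K = W` -/
def NQ (W : Subgroup GQ) (y : JJ) : JJ :=
  Additive.toMul (nrm W ⊤ (Additive.ofMul y : Additive JJ))

/-- `x` is the idele of `ℚ` with component `r` at `r` and `1` elsewhere -/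
def IsPrimeId (r : Nat.Primes) (x : JJ) : Prop :=
  (∀ g, ((cmp x r g : (Om r)ˣ) : Om r) = ((r : ℕ) : Om r)) ∧ ∀ q' ≠ r, ∀ g, cmp x q' g = 1

/-- the value group of `F` at all places above `q` is `q^ℤ` -/
def ValZ (q : Nat.Primes) (F : IntermediateField ℚ Qbar) : Prop :=
  ∀ x ∈ F, x ≠ 0 → ∀ g : GQ, ∃ k : ℤ, ‖iq q (g x)‖ = ((q : ℕ) : ℝ) ^ k

end

end Fermat.Agent.S55Lib
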