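import Fermat.Agent.S55.G2.TRLayer
import Fermat.Agent.S55.G2.PlaceNormal
import Fermat.Agent.S55.T.Devissage
import Fermat.Agent.S55.G3.ArtDefs
import Fermat.Agent.S55.P.Defs

/-! # S55 G3 (FC4): dévissage for `CC` -/

set_option autoImplicit false
set_option linter.unusedSectionVars false
set_option linter.unusedVariables false
set_option linter.style.haveILetI false

namespace Fermat.Agent.S55Lib

noncomputable section

open groupCohomology

variable (p : ℕ) [Fact p.Prime]

/-- (FC4) S55/G3/FcDev.lean : dévissage for `CC`. -/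
theorem devOut_CC (hp2 : p ≠ 2) (U : Subgroup GQ) [U.Normal] (hU : U ∈ levAll.mem)
    (hμ : FixesMu p U) : DevOut p (GQ ⧸ U) (inv U AC) := by
  have hfinU := levAll.finiteIndex U hU
  obtain ⟨M, hMfd, hMst, -, rfl⟩ := hU
  have hμM : HasMu p M := fun z hz => mem_of_fixed_Q M z (fun s hs => hμ s hs z hz)
  haveI : Finite (GQ ⧸ M.fixingSubgroup) := Subgroup.finite_quotient_of_finiteIndex
  exact pgroup_devissage p (hlayer_CC p M hp2 hμM)

end

end Fermat.Agent.S55Lib
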