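import Fermat.Agent.S55.G3.CyChar

/-!
# S55, chapter G3, (CY3): the character `χ` of order `p ^ b` of `ℚ(ζ_l)`
-/

set_option autoImplicit false
set_option linter.unusedSectionVars false
set_option linter.unusedVariables false

namespace Fermat.Agent.S55Lib

noncomputable section

section CY

variable (l : Nat.Primes)

lemma CY3_actsMu {ζ₀ : Qbar} (hζ₀ : IsPrimitiveRoot ζ₀ (l : ℕ)) (g : GQ) :
    ActsMu l g (hζ₀.autToPow ℚ g) := by
  intro ζ hζ
  obtain ⟨k, -, rfl⟩ := hζ₀.eq_pow_of_pow_eq_one hζ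
  rw [map_pow, ← hζ₀.autToPow_spec ℚ g, ← pow_mul, ← pow_mul, mul_comm]

/-- a cyclic group of order divisible by `n` maps onto `ℤ/n` -/
lemma CY3_exists_hom {G : Type} [CommGroup G] [IsCyclic G] (n : ℕ) (hn : n ∣ Nat.card G) :
    ∃ lam : G →* Multiplicative (ZMod n), Function.Surjective lam := by
  refine ⟨(AddMonoidHom.toMultiplicative (ZMod.castHom hn (ZMod n)).toAddMonoidHom).comp
    (zmodCyclicMulEquiv (inferInstance : IsCyclic G)).symm.toMonoidHom, ?_⟩
  intro y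
  obtain ⟨x, hx⟩ := ZMod.castHom_surjective hn (Multiplicative.toAdd y)
  exact ⟨zmodCyclicMulEquiv (inferInstance : IsCyclic G) (Multiplicative.ofAdd x), by
    simp only [MonoidHom.comp_apply, MulEquiv.coe_toMonoidHom, MulEquiv.symm_apply_apply]
    exact congrArg Multiplicative.ofAdd hx⟩

/-- (CY3) S55/G3/CyArt.lean -/
theorem exists_isArt (p : ℕ) [Fact p.Prime] (hl : (l : ℕ) ≠ p) (b : ℕ)
    (hb : p ^ b ∣ (l : ℕ) - 1) (hb' : ¬ p ^ (b + 1) ∣ (l : ℕ) - 1) :
    ∃ (lam : (ZMod (l : ℕ))ˣ →* Multiplicative (ZMod (p ^ b)))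
      (χ : GQ →* Multiplicative (ZMod (p ^ b))), IsArt p (p ^ b) l lam χ := by
  have hp : p.Prime := Fact.out
  have hcard : Nat.card (ZMod (l : ℕ))ˣ = (l : ℕ) - 1 := by
    rw [Nat.card_eq_fintype_card, ZMod.card_units]
  obtain ⟨lam, hlam⟩ := CY3_exists_hom (G := (ZMod (l : ℕ))ˣ) (p ^ b) (by rw [hcard]; exact hb)
  obtain ⟨ζ₀, hζ₀⟩ := CY1_exists_prim l
  refine ⟨lam, lam.comp (hζ₀.autToPow ℚ), hl, hlam, ?_, ?_⟩
  · have h1 : Nat.card lam.ker * lam.ker.index = Nat.card (ZMod (l : ℕ))ˣ :=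
      Subgroup.card_mul_index _
    have h2 : lam.ker.index = p ^ b := by
      rw [Subgroup.index_ker, MonoidHom.range_eq_top.2 hlam, Subgroup.card_top,
        Nat.card_congr Multiplicative.toAdd, Nat.card_zmod]
    rw [h2, hcard] at h1
    rw [Nat.coprime_comm, Nat.Prime.coprime_iff_not_dvd hp]
    rintro ⟨c, hc⟩
    apply hb'
    rw [← h1, hc]
    exact ⟨c, by ring⟩
  · intro g t ht
    rw [MonoidHom.comp_apply, (CY3_actsMu l hζ₀ g).unique ht]

end CY

end

end Fermat.Agent.S55Lib
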