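import Fermat.Agent.S55.G3.ArtDefs

/-!
# S55, chapter G3, (CY1): the cyclotomic character mod `l`
-/

set_option autoImplicit false
set_option linter.unusedSectionVars false
set_option linter.unusedVariables false

namespace Fermat.Agent.S55Lib

noncomputable section

section CY

variable (l : Nat.Primes)

instance CY1_neZero : NeZero (l : ℕ) := ⟨l.2.ne_zero⟩

lemma CY1_exists_prim : ∃ ζ₀ : Qbar, IsPrimitiveRoot ζ₀ (l : ℕ) := by
  have : NeZero (((l : ℕ) : ℕ) : Qbar) := ⟨by exact_mod_cast l.2.ne_zero⟩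
  exact HasEnoughRootsOfUnity.exists_primitiveRoot Qbar (l : ℕ)

/-- (CY1) S55/G3/CyChar.lean -/
theorem exists_actsMu (g : GQ) : ∃ t, ActsMu l g t := by
  obtain ⟨ζ₀, hζ₀⟩ := CY1_exists_prim l
  refine ⟨hζ₀.autToPow ℚ g, fun ζ hζ => ?_⟩
  obtain ⟨k, -, rfl⟩ := hζ₀.eq_pow_of_pow_eq_one hζ
  rw [map_pow, ← hζ₀.autToPow_spec ℚ g, ← pow_mul, ← pow_mul, mul_comm]

variable {l}

/-- (CY1) -/
theorem ActsMu.unique {g : GQ} {t t' : (ZMod (l : ℕ))ˣ} (h : ActsMu l g t) (h' : ActsMu l g t') :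
    t = t' := by
  obtain ⟨ζ₀, hζ₀⟩ := CY1_exists_prim l
  have h1 := (h ζ₀ hζ₀.pow_eq_one).symm.trans (h' ζ₀ hζ₀.pow_eq_one)
  have h2 := hζ₀.pow_inj (ZMod.val_lt _) (ZMod.val_lt _) h1
  exact Units.ext (ZMod.val_injective _ h2)

/-- (CY1) -/
theorem ActsMu.mul {g g' : GQ} {t t' : (ZMod (l : ℕ))ˣ} (h : ActsMu l g t) (h' : ActsMu l g' t') :
    ActsMu l (g * g') (t * t') := by
  intro ζ hζ
  show g (g' ζ) = _
  rw [h' ζ hζ, map_pow, h ζ hζ, ← pow_mul, Units.val_mul, ZMod.val_mul, ← pow_eq_pow_mod _ hζ]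

/-- (CY1) -/
theorem actsMu_one_iff {g : GQ} : ActsMu l g 1 ↔ g ∈ Ucyc l := by
  have : Fact (1 < (l : ℕ)) := ⟨l.2.one_lt⟩
  have h1 : ((1 : (ZMod (l : ℕ))ˣ) : ZMod (l : ℕ)).val = 1 := by
    rw [Units.val_one, ZMod.val_one]
  constructor
  · intro h ζ hζ
    have := h ζ hζ
    rwa [h1, pow_one] at this
  · intro h ζ hζ
    rw [h1, pow_one]
    exact h ζ hζ

end CY

end

end Fermat.Agent.S55Lib
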