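import Fermat.Agent.S55.G3.LlPi
import Fermat.Agent.S55.G3.CyChar
import Fermat.Agent.S55.L.Unif

/-!
# S55, chapter G3, (LL2): the decomposition group of `l` in `ℚ(ζ_l)` is everything
-/

set_option autoImplicit false
set_option linter.unusedSectionVars false
set_option linter.unusedVariables false

namespace Fermat.Agent.S55Lib

noncomputable section

open Polynomial IntermediateField

section LL

variable (l : Nat.Primes)

/-- `[ℚ_l(ω) : ℚ_l] ≥ l - 1` -/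
lemma LL2_le_finrank (ω : Om l) (hω : ω ^ (l : ℕ) = 1) (hω1 : ω ≠ 1) :
    (l : ℕ) - 1 ≤ Module.finrank ℚ_[(l : ℕ)] ℚ_[(l : ℕ)]⟮ω⟯ := by
  have hint : IsIntegral ℚ_[(l : ℕ)] ω := Algebra.IsIntegral.isIntegral ω
  have hfd : FiniteDimensional ℚ_[(l : ℕ)] ℚ_[(l : ℕ)]⟮ω⟯ := adjoin.finiteDimensional hint
  set n := Module.finrank ℚ_[(l : ℕ)] ℚ_[(l : ℕ)]⟮ω⟯ with hn
  have hn0 : 0 < n := Module.finrank_pos
  let x : ℚ_[(l : ℕ)]⟮ω⟯ := ⟨1 - ω, sub_mem (one_mem _) (mem_adjoin_simple_self _ ω)⟩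
  have hx0 : x ≠ 0 := by
    intro h0
    have : (1 : Om l) - ω = 0 := congrArg Subtype.val h0
    exact hω1 (sub_eq_zero.1 this).symm
  obtain ⟨k, hk⟩ := exists_zpow_of_nm_pow (l : ℕ) x hx0
  have hnm : nm (l : ℕ) x = ‖1 - ω‖ := (nm_algHom (l : ℕ) (ℚ_[(l : ℕ)]⟮ω⟯).val x).symm
  rw [hnm, ← hn] at hk
  have h1 := norm_one_sub_zeta_l l ω hω hω1
  have hl1 : (1 : ℝ) < ((l : ℕ) : ℝ) := by exact_mod_cast l.2.one_lt
  have hl0 : (0 : ℝ) < ((l : ℕ) : ℝ) := by linarith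
  have h2 : (((l : ℕ) : ℝ)) ^ (-(n : ℤ)) = (((l : ℕ) : ℝ)) ^ (k * (((l : ℕ) - 1 : ℕ) : ℤ)) := by
    rw [zpow_mul, ← hk, zpow_natCast, ← pow_mul, mul_comm, pow_mul, h1, zpow_neg, zpow_natCast,
      inv_pow]
  have h3 := zpow_right_injective₀ hl0 hl1.ne' h2
  have h4 : (((l : ℕ) - 1 : ℕ) : ℤ) ∣ (n : ℤ) := ⟨-k, by linarith⟩
  exact Nat.le_of_dvd hn0 (Int.natCast_dvd_natCast.1 h4)

/-- the minimal polynomial of `ω` over `ℚ_l` is `1 + X + ... + X^(l-1)` -/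
lemma LL2_minpoly (ω : Om l) (hω : ω ^ (l : ℕ) = 1) (hω1 : ω ≠ 1) :
    minpoly ℚ_[(l : ℕ)] ω = ∑ i ∈ Finset.range (l : ℕ), (X : ℚ_[(l : ℕ)][X]) ^ i := by
  have hint : IsIntegral ℚ_[(l : ℕ)] ω := Algebra.IsIntegral.isIntegral ω
  have hroot : aeval ω (∑ i ∈ Finset.range (l : ℕ), (X : ℚ_[(l : ℕ)][X]) ^ i) = 0 := by
    have h1 : (ω - 1) * ∑ i ∈ Finset.range (l : ℕ), ω ^ i = 0 := by
      rw [mul_geom_sum, hω, sub_self]
    have h2 := (mul_eq_zero.1 h1).resolve_left (sub_ne_zero.2 hω1)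
    simpa using h2
  have hdvd := minpoly.dvd ℚ_[(l : ℕ)] ω hroot
  have hmonic : (∑ i ∈ Finset.range (l : ℕ), (X : ℚ_[(l : ℕ)][X]) ^ i).Monic :=
    Polynomial.monic_geom_sum_X l.2.ne_zero
  have hdeg : (∑ i ∈ Finset.range (l : ℕ), (X : ℚ_[(l : ℕ)][X]) ^ i).natDegree ≤ (l : ℕ) - 1 := by
    apply Polynomial.natDegree_sum_le_of_forall_le
    intro i hi
    have := Finset.mem_range.1 hi
    exact (Polynomial.natDegree_X_pow_le i).trans (by omega)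
  refine (Polynomial.eq_of_monic_of_dvd_of_natDegree_le (minpoly.monic hint) hmonic hdvd ?_).symm
  rw [← IntermediateField.adjoin.finrank hint]
  exact hdeg.trans (LL2_le_finrank l ω hω hω1)

/-- (LL2) S55/G3/LlTrans.lean : the decomposition group of `l` in `ℚ(ζ_l)` is everything. -/
theorem exists_local_pow (ω : Om l) (hω : ω ^ (l : ℕ) = 1) (t : (ZMod (l : ℕ))ˣ) :
    ∃ h : Gq l, h ω = ω ^ (t : ZMod (l : ℕ)).val := by
  by_cases hω1 : ω = 1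
  · exact ⟨1, by rw [hω1, one_pow]; rfl⟩
  have hprim := LL1_prim hω hω1
  have hne : ω ^ (t : ZMod (l : ℕ)).val ≠ 1 := by
    intro h1
    have h2 := hprim.dvd_of_pow_eq_one _ h1
    have h3 : (t : ZMod (l : ℕ)).val = 0 := Nat.eq_zero_of_dvd_of_lt h2 (ZMod.val_lt _)
    rw [ZMod.val_eq_zero] at h3
    exact t.ne_zero h3
  have hpow : (ω ^ (t : ZMod (l : ℕ)).val) ^ (l : ℕ) = 1 := by
    rw [← pow_mul, mul_comm, pow_mul, hω, one_pow]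
  apply minpoly.exists_algEquiv_of_root
    (Algebra.IsAlgebraic.isAlgebraic (ω ^ (t : ZMod (l : ℕ)).val))
  rw [LL2_minpoly l _ hpow hne, ← LL2_minpoly l ω hω hω1]
  exact minpoly.aeval _ _

/-- (LL2) -/
theorem exists_local_actsMu (t : (ZMod (l : ℕ))ˣ) : ∃ h : Gq l, ActsMu l (rq l h) t := by
  obtain ⟨ζ₀, hζ₀⟩ := CY1_exists_prim l
  obtain ⟨h, hh⟩ := exists_local_pow l (iq l ζ₀) (by rw [← map_pow, hζ₀.pow_eq_one, map_one]) t
  refine ⟨h, fun ζ hζ => ?_⟩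
  have h0 : rq l h ζ₀ = ζ₀ ^ (t : ZMod (l : ℕ)).val := by
    apply (iq l).injective
    show iq l (rq l h ζ₀) = iq l (ζ₀ ^ (t : ZMod (l : ℕ)).val)
    rw [iq_rq, hh, map_pow]
  obtain ⟨k, -, rfl⟩ := hζ₀.eq_pow_of_pow_eq_one hζ
  rw [map_pow, h0, ← pow_mul, ← pow_mul, mul_comm]

end LL

end

end Fermat.Agent.S55Lib
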