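import Fermat.Agent.S55.G3.CyLevel
import Fermat.Agent.S55.G3.CyArt
import Fermat.Agent.S55.G3.LlTrans

/-!
# S55, chapter G3, (CY4): the kernel of `χ`
-/

set_option autoImplicit false
set_option linter.unusedSectionVars false
set_option linter.unusedVariables false

namespace Fermat.Agent.S55Lib

noncomputable section

section CY

variable {l : Nat.Primes}

/-- (CY4) S55/G3/CyKer.lean -/
theorem IsArt.Ucyc_le {p n : ℕ} {lam : (ZMod (l : ℕ))ˣ →* Multiplicative (ZMod n)}
    {χ : GQ →* Multiplicative (ZMod n)} (h : IsArt p n l lam χ) : Ucyc l ≤ χ.ker := by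
  intro g hg
  rw [MonoidHom.mem_ker, h.cyc g 1 (actsMu_one_iff.2 hg), map_one]

/-- (CY4) -/
theorem IsArt.ker_mem_levAll {p n : ℕ} {lam : (ZMod (l : ℕ))ˣ →* Multiplicative (ZMod n)}
    {χ : GQ →* Multiplicative (ZMod n)} (h : IsArt p n l lam χ) : χ.ker ∈ levAll.mem :=
  mem_levAll_of_le χ.ker (Ucyc l) (Ucyc_mem_levAll l) h.Ucyc_le

/-- (CY4) uses (LL2): the cyclotomic character is onto. -/
theorem IsArt.relIndex {p n : ℕ} {lam : (ZMod (l : ℕ))ˣ →* Multiplicative (ZMod n)}
    {χ : GQ →* Multiplicative (ZMod n)} (h : IsArt p n l lam χ) :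
    (Ucyc l).relIndex χ.ker = Nat.card lam.ker := by
  obtain ⟨ζ₀, hζ₀⟩ := CY1_exists_prim l
  set c : GQ →* (ZMod (l : ℕ))ˣ := hζ₀.autToPow ℚ with hc
  have hact : ∀ g, ActsMu l g (c g) := CY3_actsMu l hζ₀
  have hsurj : Function.Surjective c := by
    intro t
    obtain ⟨hh, ht⟩ := exists_local_actsMu l t
    exact ⟨rq l hh, (hact _).unique ht⟩
  have h1 : Ucyc l = (⊥ : Subgroup (ZMod (l : ℕ))ˣ).comap c := by
    ext g
    rw [Subgroup.mem_comap, Subgroup.mem_bot, ← actsMu_one_iff]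
    constructor
    · intro hg
      exact (hact g).unique hg
    · intro hg
      rw [← hg]
      exact hact g
  have h2 : χ.ker = lam.ker.comap c := by
    ext g
    rw [Subgroup.mem_comap, MonoidHom.mem_ker, MonoidHom.mem_ker, h.cyc g _ (hact g)]
  rw [h1, h2, Subgroup.relIndex_comap, Subgroup.map_comap_eq_self_of_surjective hsurj,
    Subgroup.relIndex_bot_left]

end CY

end

end Fermat.Agent.S55Lib
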