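import Fermat.Agent.S55.G3.CyChar

/-!
# S55, chapter G3, (CY2): levels
-/

set_option autoImplicit false
set_option linter.unusedSectionVars false
set_option linter.unusedVariables false

namespace Fermat.Agent.S55Lib

noncomputable section

section CY

variable (l : Nat.Primes)

/-- (CY2) S55/G3/CyLevel.lean -/
theorem mem_levAll_of_le (H : Subgroup GQ) [H.Normal] (U : Subgroup GQ) (hU : U ∈ levAll.mem)
    (hUH : U ≤ H) : H ∈ levAll.mem := by
  obtain ⟨F, hF, -, -, rfl⟩ := hU
  have hn : H.Normal := inferInstance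
  have hopen : IsOpen (H : Set GQ) := Subgroup.isOpen_mono hUH F.fixingSubgroup_isOpen
  have hclosed : IsClosed (H : Set GQ) := Subgroup.isClosed_of_isOpen H hopen
  have hH : (IntermediateField.fixedField H).fixingSubgroup = H :=
    InfiniteGalois.fixingSubgroup_fixedField (⟨H, hclosed⟩ : ClosedSubgroup GQ)
  have hle : IntermediateField.fixedField H ≤ F := by
    have h1 : IntermediateField.fixedField H ≤ IntermediateField.fixedField F.fixingSubgroup :=
      IntermediateField.fixedField_antitone hUH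
    rwa [InfiniteGalois.fixedField_fixingSubgroup] at h1
  have hfd : FiniteDimensional ℚ (IntermediateField.fixedField H) :=
    FiniteDimensional.of_injective (IntermediateField.inclusion hle).toLinearMap
      (IntermediateField.inclusion_injective hle)
  refine ⟨IntermediateField.fixedField H, hfd, ?_, trivial, hH.symm⟩
  intro σ x hx
  rw [IntermediateField.mem_fixedField_iff] at hx ⊢
  intro h hh
  have h1 : σ⁻¹ * h * σ ∈ H := by
    have := hn.conj_mem h hh σ⁻¹
    simpa using this
  have h2 : σ⁻¹ (h (σ x)) = x := hx _ h1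
  have h4 := congrArg σ h2
  rwa [show σ (σ⁻¹ (h (σ x))) = h (σ x) from σ.apply_symm_apply _] at h4

/-- the field `ℚ(μ_l)` -/
def CY2_field : IntermediateField ℚ Qbar :=
  IntermediateField.adjoin ℚ {ζ : Qbar | ζ ^ (l : ℕ) = 1}

lemma CY2_fix_eq : (CY2_field l).fixingSubgroup = Ucyc l := by
  ext g
  constructor
  · intro h ζ hζ
    exact (IntermediateField.mem_fixingSubgroup_iff _ g).1 h ζ
      (IntermediateField.subset_adjoin ℚ _ hζ)
  · intro h
    have h1 : CY2_field l ≤ IntermediateField.fixedField (Subgroup.zpowers g) := by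
      unfold CY2_field
      rw [IntermediateField.adjoin_le_iff]
      intro ζ hζ
      rw [SetLike.mem_coe, IntermediateField.mem_fixedField_iff]
      have h2 : Subgroup.zpowers g ≤ MulAction.stabilizer GQ ζ := by
        rw [Subgroup.zpowers_le]
        exact h ζ hζ
      exact fun f hf => h2 hf
    rw [IntermediateField.mem_fixingSubgroup_iff]
    intro y hy
    exact (IntermediateField.mem_fixedField_iff _ y).1 (h1 hy) g (Subgroup.mem_zpowers g)

lemma CY2_finite : {ζ : Qbar | ζ ^ (l : ℕ) = 1}.Finite := by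
  have : {ζ : Qbar | ζ ^ (l : ℕ) = 1} = ↑(Polynomial.nthRootsFinset (l : ℕ) (1 : Qbar)) := by
    ext ζ
    simp [Polynomial.mem_nthRootsFinset l.2.pos]
  rw [this]
  exact Finset.finite_toSet _

instance CY2_finiteDimensional : FiniteDimensional ℚ (CY2_field l) := by
  have : Algebra.IsAlgebraic ℚ Qbar := AlgebraicClosure.isAlgebraic ℚ
  have : Finite {ζ : Qbar | ζ ^ (l : ℕ) = 1} := CY2_finite l
  exact IntermediateField.finiteDimensional_adjoin (fun x _ => Algebra.IsIntegral.isIntegral x)

lemma CY2_stable : StableF (CY2_field l) := by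
  intro σ x hx
  have h1 : (CY2_field l).map (σ : Qbar →ₐ[ℚ] Qbar) ≤ CY2_field l := by
    unfold CY2_field
    rw [IntermediateField.adjoin_map, IntermediateField.adjoin_le_iff]
    rintro _ ⟨y, hy, rfl⟩
    refine IntermediateField.subset_adjoin ℚ _ ?_
    show (σ y) ^ (l : ℕ) = 1
    rw [← map_pow, show y ^ (l : ℕ) = 1 from hy, map_one]
  exact h1 ⟨x, hx, rfl⟩

/-- (CY2) -/
theorem Ucyc_mem_levAll : Ucyc l ∈ levAll.mem :=
  ⟨CY2_field l, inferInstance, CY2_stable l, trivial, (CY2_fix_eq l).symm⟩

/-- (CY2) -/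
theorem inf_mem_levAll (U V : Subgroup GQ) (hU : U ∈ levAll.mem) (hV : V ∈ levAll.mem) :
    U ⊓ V ∈ levAll.mem := by
  obtain ⟨F, hF, hn, -, rfl⟩ := hU
  obtain ⟨F', hF', hn', -, rfl⟩ := hV
  exact ⟨F ⊔ F', IntermediateField.finiteDimensional_sup F F', hn.sup hn', trivial,
    (IntermediateField.fixingSubgroup_sup).symm⟩

end CY

end

end Fermat.Agent.S55Lib
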