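import Fermat.Agent.S55.G3.NQ
import Fermat.Agent.S55.G.Single
import Fermat.Agent.S55.G.Descent

/-! # S55 G3 (FC3): unit ideles of `ℚ` supported at a completely split prime are norms -/

set_option autoImplicit false
set_option linter.unusedSectionVars false
set_option linter.unusedVariables false
set_option linter.style.haveILetI false

namespace Fermat.Agent.S55Lib

noncomputable section

/-- (FC3) S55/G3/FcUnit.lean : if `l` splits completely in `M`, every unit idele of `ℚ` supported at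
`l` is a norm from `M`. -/
theorem exists_norm_unit_l (U : Subgroup GQ) (hU : U ∈ levAll.mem) (l : Nat.Primes)
    (hl : ∀ h : Gq l, rq l h ∈ U) (t : (ZMod (l : ℕ))ˣ) :
    ∃ y : JJ, (∀ s ∈ U, s • y = y) ∧ IsUnitId (NQ U y) ∧
      HasRes l ((cmp (NQ U y) l 1 : (Om l)ˣ) : Om l) t := by
  classical
  have hfinU := levAll.finiteIndex U hU
  obtain ⟨M, hMfd, hMst, -, rfl⟩ := hU
  haveI : NeZero (l : ℕ) := ⟨l.2.ne_zero⟩
  set j : ℕ := (t : ZMod (l : ℕ)).val with hj
  have hjt : ((j : ℕ) : ZMod (l : ℕ)) = (t : ZMod (l : ℕ)) := ZMod.natCast_zmod_val _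
  have hnd : ¬ (l : ℕ) ∣ j := by
    intro hd
    have h0 : ((j : ℕ) : ZMod (l : ℕ)) = 0 := (ZMod.natCast_eq_zero_iff j l).2 hd
    rw [hjt] at h0
    exact t.ne_zero h0
  have hjn : ‖(j : Om l)‖ = 1 := norm_natCast_Om l hnd
  have hj0 : (j : Om l) ≠ 0 := fun h => by rw [h, norm_zero] at hjn; exact zero_ne_one hjn
  set z : (Om l)ˣ := Units.mk0 (j : Om l) hj0 with hz
  have hzfix : ∀ h : Gq l, h • z = z := fun h => Units.ext (map_natCast h j)
  obtain ⟨y, hy, hy1, hy2, hy3⟩ := exists_single M l 1 z (natCast_mem _ j)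
  have hyc : ∀ g, cmp y l g = z ∨ cmp y l g = 1 := by
    intro g
    by_cases H : SamePlace l M 1 g
    · left
      obtain ⟨h, s, hs, rfl⟩ := H
      rw [mul_assoc, cmp_rq, (mem_JF_iff.1 hy) s hs, hy1, hzfix]
    · right
      exact hy2 g H
  haveI : Finite (GQ ⧸ M.fixingSubgroup) := Subgroup.finite_quotient_of_finiteIndex
  let _ : Fintype (GQ ⧸ M.fixingSubgroup) := Fintype.ofFinite _
  have hs : ∀ g : GQ, ∃! i : GQ ⧸ M.fixingSubgroup, (Quotient.out i : GQ)⁻¹ * g ∈ M.fixingSubgroup := by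
    intro g
    refine ⟨QuotientGroup.mk g, ?_, fun i hi => ?_⟩
    · show (Quotient.out (QuotientGroup.mk g : GQ ⧸ M.fixingSubgroup) : GQ)⁻¹ * g ∈ M.fixingSubgroup
      rw [← QuotientGroup.eq, QuotientGroup.out_eq']
    · have hi' : (Quotient.out i : GQ)⁻¹ * g ∈ M.fixingSubgroup := hi
      rw [← QuotientGroup.eq, QuotientGroup.out_eq'] at hi'
      exact hi'
  have hcmp := cmp_NQ M.fixingSubgroup (fun i : GQ ⧸ M.fixingSubgroup => (Quotient.out i : GQ)) hs y hy
  refine ⟨y, hy, ?_, ?_⟩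
  · intro q g
    rw [hcmp q g, Units.coe_prod, norm_prod]
    apply Finset.prod_eq_one
    intro i _
    by_cases hq : q = l
    · subst hq
      rcases hyc (g * Quotient.out i) with h | h
      · rw [h]; exact hjn
      · rw [h]; simp
    · rw [hy3 q hq]; simp
  · refine ⟨j, ?_, hjt⟩
    rw [hcmp l 1]
    have h1 : ∀ i : GQ ⧸ M.fixingSubgroup, cmp y l (1 * (Quotient.out i : GQ)) =
        if i = (QuotientGroup.mk (1 : GQ) : GQ ⧸ M.fixingSubgroup) then z else 1 := by
      intro i
      rw [one_mul]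
      by_cases hi : i = (QuotientGroup.mk (1 : GQ) : GQ ⧸ M.fixingSubgroup)
      · rw [if_pos hi]
        have h2 : (Quotient.out i : GQ) ∈ M.fixingSubgroup := by
          have h3 : (QuotientGroup.mk (Quotient.out i : GQ) : GQ ⧸ M.fixingSubgroup) =
            QuotientGroup.mk 1 := by rw [QuotientGroup.out_eq', hi]
          rw [QuotientGroup.eq] at h3
          simpa using inv_mem h3
        have h4 := (mem_JF_iff.1 hy) _ h2 l 1
        rw [one_mul] at h4
        rw [h4, hy1]
      · rw [if_neg hi]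
        apply hy2
        rintro ⟨h, s, hs', e⟩
        apply hi
        rw [← QuotientGroup.out_eq' i, QuotientGroup.eq, e]
        have e2 : (rq l h * 1 * s)⁻¹ * 1 = (rq l h * s)⁻¹ := by group
        rw [e2]
        exact inv_mem (mul_mem (hl h) hs')
    simp only [h1]
    rw [Finset.prod_ite_eq' Finset.univ _ (fun _ => z), if_pos (Finset.mem_univ _)]
    simp [hz]

end

end Fermat.Agent.S55Lib
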