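import Fermat.Agent.S55.G3.TsDefs
import Fermat.Agent.S55.W.CoindInv

/-!
# S55, chapter G3: local-global compatibility (LG) — definitions
-/

set_option autoImplicit false
set_option linter.unusedSectionVars false
set_option linter.unusedVariables false

namespace Fermat.Agent.S55Lib

noncomputable section

open groupCohomology

/-- evaluation at `1`: `(SCoind r B)^U → B^{r⁻¹ U}` -/
def Wev1 {Γ H : Type} [Group Γ] [Group H] (r : H →* Γ) (B : Type) [AddCommGroup B]
    [DistribMulAction H B] (𝓤 : Lev Γ) (U : Subgroup Γ) [U.Normal] :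
    inv U (SCoind r B 𝓤) →+ inv (U.comap r) B where
  toFun f := ⟨((f : SCoind r B 𝓤) : Γ → B) 1, W_inv_mem f 1⟩
  map_zero' := rfl
  map_add' _ _ := rfl

/-- `A^U ⊆ A^{U'}` for `U' ≤ U` -/
def invIncl {Γ : Type} [Group Γ] {A : Type} [AddCommGroup A] [DistribMulAction Γ A]
    {U U' : Subgroup Γ} (hle : U' ≤ U) : inv U A →+ inv U' A where
  toFun a := ⟨(a : A), fun s hs => a.2 s (hle hs)⟩
  map_zero' := rfl
  map_add' _ _ := rfl

/-- `Γ/U' → Γ/U` for `U' ≤ U` -/
def qMapLe {Γ : Type} [Group Γ] {U U' : Subgroup Γ} [U.Normal] [U'.Normal] (hle : U' ≤ U) :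
    Γ ⧸ U' →* Γ ⧸ U :=
  QuotientGroup.map U' U (MonoidHom.id Γ) hle

/-- inflation of 2-cochains from level `U` to level `U' ≤ U` -/
def inflLev {Γ : Type} [Group Γ] {A : Type} [AddCommGroup A] [DistribMulAction Γ A]
    {U U' : Subgroup Γ} [U.Normal] [U'.Normal] (hle : U' ≤ U)
    (f : (Γ ⧸ U) × (Γ ⧸ U) → inv U A) : (Γ ⧸ U') × (Γ ⧸ U') → inv U' A :=
  fun x => invIncl hle (f (qMapLe hle x.1, qMapLe hle x.2))

/-- the semi-local module at `q` (all levels): `J_q`, additively -/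
abbrev AQ (q : Nat.Primes) : Type := SCoind (rq q) (Additive (Om q)ˣ) levAll

/-- `AQ q → J_q` -/
def AQ_toJq (q : Nat.Primes) (φ : AQ q) : Jq q :=
  ⟨fun g => Additive.toMul ((φ : GQ → Additive (Om q)ˣ) g),
    fun h g => congrArg Additive.toMul (φ.2.1 h g), by
    obtain ⟨U, hU, hc⟩ := φ.2.2
    exact ⟨U, hU, fun g s hs => congrArg Additive.toMul (hc g s hs)⟩⟩

lemma AQ_smul_toJq (q : Nat.Primes) (γ : GQ) (φ : AQ q) :
    γ • AQ_toJq q φ = AQ_toJq q (γ • φ) := rfl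

lemma AQ_exists_level (q : Nat.Primes) (φ : AQ q) : ∃ U ∈ levAll.mem, ∀ s ∈ U, s • φ = φ := by
  obtain ⟨U, hU, hc⟩ := φ.2.2
  exact ⟨U, hU, fun s hs => Subtype.ext (funext fun g => hc g s hs)⟩

/-- the idele with component `φ` at `q` and `1` elsewhere -/
def sglq (q : Nat.Primes) : AQ q →+ Additive JJ where
  toFun φ := Additive.ofMul ⟨Pi.mulSingle q (AQ_toJq q φ), by
    classical
    refine ⟨?_, ?_⟩
    · obtain ⟨U, hU, hφ⟩ := AQ_exists_level q φ
      refine ⟨U, hU, fun s hs q' => ?_⟩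
      by_cases h : q' = q
      · subst h
        rw [Pi.mulSingle_eq_same, AQ_smul_toJq, hφ s hs]
      · rw [Pi.mulSingle_eq_of_ne h, smul_one]
    · refine (Set.finite_singleton q).subset ?_
      intro q' hq'
      by_contra hcon
      apply hq'
      rw [Pi.mulSingle_eq_of_ne hcon]
      exact one_mem _⟩
  map_zero' := by
    apply congrArg Additive.ofMul
    apply Subtype.ext
    exact Pi.mulSingle_one q
  map_add' φ ψ := by
    apply congrArg Additive.ofMul
    apply Subtype.ext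
    exact Pi.mulSingle_mul (f := fun q' : Nat.Primes => Jq q') q (AQ_toJq q φ) (AQ_toJq q ψ)

lemma cmp_sglq (q : Nat.Primes) (φ : AQ q) (g : GQ) :
    cmp (Additive.toMul (sglq q φ)) q g = Additive.toMul ((φ : GQ → Additive (Om q)ˣ) g) := by
  show (((Pi.mulSingle q (AQ_toJq q φ) : ∀ q' : Nat.Primes, Jq q') q : Jq q) : GQ → (Om q)ˣ) g = _
  rw [Pi.mulSingle_eq_same]
  rfl

lemma cmp_sglq_of_ne (q : Nat.Primes) (φ : AQ q) (q' : Nat.Primes) (h : q' ≠ q) (g : GQ) :
    cmp (Additive.toMul (sglq q φ)) q' g = 1 := by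
  show (((Pi.mulSingle q (AQ_toJq q φ) : ∀ q' : Nat.Primes, Jq q') q' : Jq q') : GQ → (Om q')ˣ) g = _
  rw [Pi.mulSingle_eq_of_ne h]
  rfl

lemma sglq_equivar (q : Nat.Primes) : Equivar GQ (sglq q) := by
  intro γ φ
  apply congrArg Additive.ofMul
  apply Subtype.ext
  funext q'
  by_cases h : q' = q
  · subst h
    show (Pi.mulSingle q' (AQ_toJq q' (γ • φ)) : ∀ q'' : Nat.Primes, Jq q'') q' =
      γ • ((Pi.mulSingle q' (AQ_toJq q' φ) : ∀ q'' : Nat.Primes, Jq q'') q')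
    rw [Pi.mulSingle_eq_same, Pi.mulSingle_eq_same]
    rfl
  · show (Pi.mulSingle q (AQ_toJq q (γ • φ)) : ∀ q'' : Nat.Primes, Jq q'') q' =
      γ • ((Pi.mulSingle q (AQ_toJq q φ) : ∀ q'' : Nat.Primes, Jq q'') q')
    rw [Pi.mulSingle_eq_of_ne h, Pi.mulSingle_eq_of_ne h, smul_one]

/-- `J_q → C` -/
def jq (q : Nat.Primes) : AQ q →+ AC where
  toFun φ := acMk (Additive.toMul (sglq q φ))
  map_zero' := by rw [map_zero]; rfl
  map_add' φ ψ := by rw [map_add]; rfl

lemma jq_equivar (q : Nat.Primes) : Equivar GQ (jq q) := by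
  intro γ φ
  show acMk (Additive.toMul (sglq q (γ • φ))) = _
  rw [sglq_equivar]
  rfl

/-- the inclusion of the `S`-level semi-local module -/
def incS (S : Finset Nat.Primes) (v : S) : SCoind (rs S v) (Bs S v) (levS S) →+ AQ v.1 where
  toFun φ := ⟨(φ : GQ → Additive (Om v.1)ˣ), φ.2.1, by
    obtain ⟨U, hU, hc⟩ := φ.2.2
    exact ⟨U, levS_le_levAll S hU, hc⟩⟩
  map_zero' := rfl
  map_add' _ _ := rfl

lemma incS_equivar (S : Finset Nat.Primes) (v : S) : Equivar GQ (incS S v) := fun _ _ => rfl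

/-- `q ∈ Ω_q^×` -/
def primeOm (q : Nat.Primes) : (Om q)ˣ :=
  Units.mk0 (((q : ℕ) : ℕ) : Om q) (Nat.cast_ne_zero.2 q.2.ne_zero)

/-- the prime element `q` of `J_q(ℚ)` -/
def primeA (q : Nat.Primes) : AQ q :=
  ⟨fun _ => Additive.ofMul (primeOm q), fun h g => by
    apply congrArg Additive.ofMul
    apply Units.ext
    exact (map_natCast h (q : ℕ)).symm, Lev.const₁_const _⟩

lemma smul_primeA (q : Nat.Primes) (γ : GQ) : γ • primeA q = primeA q := rfl

end

end Fermat.Agent.S55Lib
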