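import Fermat.Agent.S55.G3.Carry

/-!
# S55, chapter G3 (abstract part): (LGQ) `χ`, `Λ` at a finite level
-/

set_option autoImplicit false
set_option linter.unusedSectionVars false
set_option linter.unusedVariables false
set_option linter.style.haveILetI false

namespace Fermat.Agent.S55Lib

open groupCohomology

lemma LGQ_top_map {Γ : Type} [Group Γ] (U' : Subgroup Γ) [U'.Normal] :
    (⊤ : Subgroup Γ).map (QuotientGroup.mk' U') = ⊤ :=
  Subgroup.map_top_of_surjective _ (QuotientGroup.mk'_surjective U')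

/-- (LGQ) `χ`, `Λ` at the finite level `Γ/U'`. -/
theorem Lambda_quot {Γ : Type} [Group Γ] {A : Type} [AddCommGroup A] [DistribMulAction Γ A]
    (U' : Subgroup Γ) [U'.Normal] [U'.FiniteIndex] (n : ℕ)
    (χ : Γ →* Multiplicative (ZMod n)) (hU' : U' ≤ χ.ker)
    (Λ : inv (⊤ : Subgroup Γ) A →+ ZMod n)
    (hΛN : ∀ z : inv (⊤ : Subgroup Γ) A,
      (∃ y ∈ inv χ.ker A, (z : A) = nrm χ.ker ⊤ y) → Λ z = 0) :
    ∃ (χ' : Γ ⧸ U' → ZMod n) (hχ' : ∀ g h, χ' (g * h) = χ' g + χ' h)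
      (Λ' : inv (⊤ : Subgroup (Γ ⧸ U')) (inv U' A) →+ ZMod n),
      (∀ g : Γ, χ' (g : Γ ⧸ U') = Multiplicative.toAdd (χ g)) ∧
      (∀ z : inv (⊤ : Subgroup (Γ ⧸ U')) (inv U' A),
        (∃ y ∈ inv (kerχ χ' hχ') (inv U' A), (z : inv U' A) = nrm (kerχ χ' hχ') ⊤ y) →
          Λ' z = 0) ∧
      (∀ (z : inv (⊤ : Subgroup (Γ ⧸ U')) (inv U' A)) (z0 : inv (⊤ : Subgroup Γ) A),
        ((z : inv U' A) : A) = (z0 : A) → Λ' z = Λ z0) := by
  let χ' : Γ ⧸ U' → ZMod n := fun x => Multiplicative.toAdd (QuotientGroup.lift U' χ hU' x)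
  have hχ' : ∀ g h, χ' (g * h) = χ' g + χ' h := fun g h => by
    show Multiplicative.toAdd (QuotientGroup.lift U' χ hU' (g * h)) = _
    rw [map_mul]
    rfl
  let e : inv (⊤ : Subgroup (Γ ⧸ U')) (inv U' A) →+ inv (⊤ : Subgroup Γ) A :=
    { toFun := fun z => ⟨((z : inv U' A) : A), fun g _ =>
        congrArg Subtype.val (z.2 (g : Γ ⧸ U') trivial)⟩
      map_zero' := rfl
      map_add' := fun _ _ => rfl }
  have hker : kerχ χ' hχ' = χ.ker.map (QuotientGroup.mk' U') := by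
    ext x
    induction x using QuotientGroup.induction_on with
    | H g =>
      constructor
      · intro h
        exact ⟨g, h, rfl⟩
      · rintro ⟨g', hg', hgg'⟩
        show χ' (g : Γ ⧸ U') = 0
        have : (g : Γ ⧸ U') = (g' : Γ ⧸ U') := hgg'.symm
        rw [this]
        exact hg'
  refine ⟨χ', hχ', Λ.comp e, fun g => rfl, ?_, ?_⟩
  · rintro z ⟨y, hy, hzy⟩
    apply hΛN
    rw [hker] at hy hzy
    have hy' : (y : A) ∈ inv χ.ker A := (mem_inv_map_iff U' χ.ker y).1 hy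
    refine ⟨(y : A), hy', ?_⟩
    have hfin : χ.ker.relIndex ⊤ ≠ 0 := by
      rw [Subgroup.relIndex_top_right]
      haveI : χ.ker.FiniteIndex := Subgroup.finiteIndex_of_le hU'
      exact Subgroup.FiniteIndex.index_ne_zero
    have := nrm_quot U' hU' le_top hfin y hy'
    rw [LGQ_top_map] at this
    rw [← this, ← hzy]
    rfl
  · intro z z0 h
    show Λ (e z) = Λ z0
    congr 1
    exact Subtype.ext h

end Fermat.Agent.S55Lib
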