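import Fermat.Agent.S55.G3.FundClassAbs
import Fermat.Agent.S55.G3.LgQuot
import Fermat.Agent.S55.G3.LgDefs

/-!
# S55, chapter G3 (abstract part): (FL) the fundamental class, level form
-/

set_option autoImplicit false
set_option linter.unusedSectionVars false
set_option linter.unusedVariables false
set_option linter.style.haveILetI false

namespace Fermat.Agent.S55Lib

open groupCohomology

lemma qMapLe_mk {Γ : Type} [Group Γ] {U U' : Subgroup Γ} [U.Normal] [U'.Normal] (hle : U' ≤ U)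
    (g : Γ) : qMapLe hle (g : Γ ⧸ U') = (g : Γ ⧸ U) := rfl

lemma qMapLe_surjective {Γ : Type} [Group Γ] {U U' : Subgroup Γ} [U.Normal] [U'.Normal]
    (hle : U' ≤ U) : Function.Surjective (qMapLe hle) := by
  intro x
  induction x using QuotientGroup.induction_on with
  | H g => exact ⟨(g : Γ ⧸ U'), rfl⟩

lemma qMapLe_ker {Γ : Type} [Group Γ] {U U' : Subgroup Γ} [U.Normal] [U'.Normal] (hle : U' ≤ U) :
    (qMapLe hle).ker = U.map (QuotientGroup.mk' U') := by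
  ext x
  induction x using QuotientGroup.induction_on with
  | H g =>
    rw [MonoidHom.mem_ker, qMapLe_mk, QuotientGroup.eq_one_iff]
    constructor
    · intro h
      exact ⟨g, h, rfl⟩
    · rintro ⟨g', hg', hgg'⟩
      have h1 : g'⁻¹ * g ∈ U' := QuotientGroup.eq.1 hgg'
      have : g = g' * (g'⁻¹ * g) := by group
      rw [this]
      exact U.mul_mem hg' (hle h1)

lemma invIncl_injective {Γ : Type} [Group Γ] {A : Type} [AddCommGroup A] [DistribMulAction Γ A]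
    {U U' : Subgroup Γ} (hle : U' ≤ U) : Function.Injective (invIncl (A := A) hle) :=
  fun a b h => Subtype.ext (congrArg (fun x : inv U' A => (x : A)) h)

lemma invIncl_smul {Γ : Type} [Group Γ] {A : Type} [AddCommGroup A] [DistribMulAction Γ A]
    {U U' : Subgroup Γ} [U.Normal] [U'.Normal] (hle : U' ≤ U) (g : Γ ⧸ U') (x : inv U A) :
    invIncl hle (qMapLe hle g • x) = g • invIncl hle x := by
  induction g using QuotientGroup.induction_on with
  | H g => rfl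

lemma invIncl_image {Γ : Type} [Group Γ] {A : Type} [AddCommGroup A] [DistribMulAction Γ A]
    {U U' : Subgroup Γ} [U.Normal] [U'.Normal] (hle : U' ≤ U) (c : inv U' A)
    (hc : ∀ ν ∈ (qMapLe hle).ker, ν • c = c) : ∃ x, invIncl hle x = c := by
  refine ⟨⟨(c : A), fun s hs => ?_⟩, rfl⟩
  have h1 : ((s : Γ) : Γ ⧸ U') ∈ (qMapLe hle).ker := by
    rw [MonoidHom.mem_ker, qMapLe_mk, QuotientGroup.eq_one_iff]
    exact hs
  exact congrArg (fun x : inv U' A => (x : A)) (hc _ h1)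

/-- (FL) **level form** of the construction of the fundamental class. -/
theorem fund_class_lev {Γ : Type} [Group Γ] {A : Type} [AddCommGroup A] [DistribMulAction Γ A]
    (p : ℕ) [Fact p.Prime] (U : Subgroup Γ) [U.Normal] [U.FiniteIndex] (a b : ℕ) (hab : a ≤ b)
    (ha : a = (U.index).factorization p)
    (χ : Γ →* Multiplicative (ZMod (p ^ b))) (hχU : ∀ t, ∃ s ∈ U, χ s = t)
    (hdev : DevOut p (Γ ⧸ (U ⊓ χ.ker)) (inv (U ⊓ χ.ker) A))
    (Λ : inv (⊤ : Subgroup Γ) A →+ ZMod (p ^ b))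
    (hΛN : ∀ z : inv (⊤ : Subgroup Γ) A,
      (∃ y ∈ inv χ.ker A, (z : A) = nrm χ.ker ⊤ y) → Λ z = 0)
    (hΛs : ∃ z : inv (⊤ : Subgroup Γ) A, (∃ y ∈ inv U A, (z : A) = nrm U ⊤ y) ∧ Λ z = 1) :
    ∃ u : (Γ ⧸ U) × (Γ ⧸ U) → inv U A, IsCocycle₂ u ∧
      ∀ H : Subgroup (Γ ⧸ U), IsPGroup p H → ∀ k : ℤ,
        IsCoboundary₂ (k • fun x : H × H => u ((x.1 : Γ ⧸ U), (x.2 : Γ ⧸ U))) →
        (Nat.card H : ℤ) ∣ k := by
  have hp : p.Prime := Fact.out
  haveI : NeZero (p ^ b) := ⟨pow_ne_zero _ hp.ne_zero⟩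
  haveI : Finite (Multiplicative (ZMod (p ^ b))) := inferInstanceAs (Finite (ZMod (p ^ b)))
  haveI : χ.ker.FiniteIndex := Subgroup.finiteIndex_ker χ
  haveI : (U ⊓ χ.ker).FiniteIndex := inferInstance
  haveI : Finite (Γ ⧸ (U ⊓ χ.ker)) := Subgroup.finite_quotient_of_finiteIndex
  have hle : U ⊓ χ.ker ≤ U := inf_le_left
  obtain ⟨χ', hχ', Λ', hχmk, hΛ'N, hΛ'eq⟩ :=
    Lambda_quot (U ⊓ χ.ker) (p ^ b) χ inf_le_right Λ hΛN
  have hN1 : Function.Bijective (fun z : (qMapLe hle).ker => χ' (z : Γ ⧸ (U ⊓ χ.ker))) := by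
    have hker0 : ∀ z : (qMapLe hle).ker, χ' (z : Γ ⧸ (U ⊓ χ.ker)) = 0 → z = 1 := by
      rintro ⟨z, hz⟩ h0
      apply Subtype.ext
      show z = 1
      induction z using QuotientGroup.induction_on with
      | H g =>
        rw [MonoidHom.mem_ker, qMapLe_mk, QuotientGroup.eq_one_iff] at hz
        have h1 : χ' (g : Γ ⧸ (U ⊓ χ.ker)) = 0 := h0
        rw [hχmk] at h1
        rw [QuotientGroup.eq_one_iff]
        exact ⟨hz, h1⟩
    constructor
    · intro z z' h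
      have h1 : χ' ((z⁻¹ * z' : (qMapLe hle).ker) : Γ ⧸ (U ⊓ χ.ker)) = 0 := by
        have h' : χ' (z : Γ ⧸ (U ⊓ χ.ker)) = χ' (z' : Γ ⧸ (U ⊓ χ.ker)) := h
        rw [Subgroup.coe_mul, Subgroup.coe_inv, hχ', CA_inv χ' hχ', h', neg_add_cancel]
      exact inv_mul_eq_one.1 (hker0 _ h1)
    · intro t
      obtain ⟨s, hs, hst⟩ := hχU (Multiplicative.ofAdd t)
      refine ⟨⟨(s : Γ ⧸ (U ⊓ χ.ker)), ?_⟩, ?_⟩
      · rw [MonoidHom.mem_ker, qMapLe_mk, QuotientGroup.eq_one_iff]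
        exact hs
      · show χ' (s : Γ ⧸ (U ⊓ χ.ker)) = t
        rw [hχmk, hst]
        rfl
  have hΛ's : ∃ z : inv (⊤ : Subgroup (Γ ⧸ (U ⊓ χ.ker))) (inv (U ⊓ χ.ker) A),
      (∃ y ∈ inv (qMapLe hle).ker (inv (U ⊓ χ.ker) A),
        (z : inv (U ⊓ χ.ker) A) = nrm (qMapLe hle).ker ⊤ y) ∧ Λ' z = 1 := by
    obtain ⟨z0, ⟨y0, hy0, hzy⟩, hz1⟩ := hΛs
    let y : inv (U ⊓ χ.ker) A := ⟨y0, fun s hs => hy0 s (hle hs)⟩
    let z1 : inv (U ⊓ χ.ker) A := ⟨(z0 : A), fun s _ => z0.2 s trivial⟩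
    have hz1' : z1 ∈ inv (⊤ : Subgroup (Γ ⧸ (U ⊓ χ.ker))) (inv (U ⊓ χ.ker) A) := by
      intro g _
      induction g using QuotientGroup.induction_on with
      | H g => exact Subtype.ext (z0.2 g trivial)
    refine ⟨⟨z1, hz1'⟩, ⟨y, ?_, ?_⟩, ?_⟩
    · rw [qMapLe_ker]
      exact (mem_inv_map_iff (U ⊓ χ.ker) U y).2 hy0
    · rw [qMapLe_ker]
      apply Subtype.ext
      have hfin : U.relIndex ⊤ ≠ 0 := by
        rw [Subgroup.relIndex_top_right]
        exact Subgroup.FiniteIndex.index_ne_zero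
      have := nrm_quot (U ⊓ χ.ker) hle le_top hfin y hy0
      rw [LGQ_top_map] at this
      rw [this]
      exact hzy
    · rw [hΛ'eq ⟨z1, hz1'⟩ z0 rfl, hz1]
  exact fund_class_abs p a b hab χ' hχ' (qMapLe hle) (qMapLe_surjective hle) (invIncl hle)
    (invIncl_injective hle) (invIncl_smul hle) (invIncl_image hle) hN1 ha hdev Λ' hΛ'N hΛ's

end Fermat.Agent.S55Lib
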