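import Fermat.Agent.S55.G3.ArtDefs
import Fermat.Agent.S55.G.DescentC

/-!
# S55, chapter G3, (LA5): `Λ` on the idele classes of `ℚ`
-/

set_option autoImplicit false
set_option linter.unusedSectionVars false
set_option linter.unusedVariables false

namespace Fermat.Agent.S55Lib

noncomputable section

section LA

lemma LA5_exists (z : inv (⊤ : Subgroup GQ) AC) :
    ∃ x : JF (⊥ : IntermediateField ℚ Qbar), (z : AC) = acMk (x : JJ) := by
  have hc : Additive.toMul (z : AC) ∈ CF ⊥ := fun s _ =>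
    congrArg Additive.toMul (z.2 s (Subgroup.mem_top s))
  obtain ⟨x, hx, hxz⟩ := exists_JF_of_mem_CF ⊥ _ hc
  exact ⟨⟨x, hx⟩, congrArg Additive.ofMul hxz.symm⟩

/-- (LA5) S55/G3/LaC.lean : `Λ` on the idele classes of `ℚ`. -/
theorem exists_LambdaC (n : ℕ) (Λ : JF (⊥ : IntermediateField ℚ Qbar) →* Multiplicative (ZMod n))
    (h : ∀ x : JF (⊥ : IntermediateField ℚ Qbar), (∃ a, (x : JJ) = diag a) → Λ x = 1) :
    ∃ Λ' : inv (⊤ : Subgroup GQ) AC →+ ZMod n,
      ∀ (z : inv (⊤ : Subgroup GQ) AC) (x : JF (⊥ : IntermediateField ℚ Qbar)),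
        (z : AC) = acMk (x : JJ) → Λ' z = Multiplicative.toAdd (Λ x) := by
  choose X hX using LA5_exists
  have spec : ∀ (z : inv (⊤ : Subgroup GQ) AC) (x : JF (⊥ : IntermediateField ℚ Qbar)),
      (z : AC) = acMk (x : JJ) → Λ (X z) = Λ x := by
    intro z x hx
    have h1 : CC.mk ((X z : JJ)) = CC.mk (x : JJ) :=
      congrArg Additive.toMul ((hX z).symm.trans hx)
    obtain ⟨a, ha⟩ : ((X z : JJ))⁻¹ * (x : JJ) ∈ diag.range := QuotientGroup.eq.mp h1
    have h2 : Λ ((X z)⁻¹ * x) = 1 := h _ ⟨a, ha.symm⟩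
    rw [map_mul, map_inv, inv_mul_eq_one] at h2
    exact h2
  refine ⟨AddMonoidHom.mk' (fun z => Multiplicative.toAdd (Λ (X z))) ?_, fun z x hx => ?_⟩
  · intro z z'
    have h1 : ((z + z' : inv (⊤ : Subgroup GQ) AC) : AC) = acMk ((X z * X z' : JF _) : JJ) := by
      rw [AddSubgroup.coe_add, hX z, hX z']
      rfl
    rw [spec _ _ h1, map_mul]
    rfl
  · show Multiplicative.toAdd (Λ (X z)) = _
    rw [spec z x hx]

end LA

end

end Fermat.Agent.S55Lib
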