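import Fermat.Agent.S55.G3.LaJ

/-!
# S55, chapter G3, (LA6): the value of `Λ` on the prime ideles
-/

set_option autoImplicit false
set_option linter.unusedSectionVars false
set_option linter.unusedVariables false

namespace Fermat.Agent.S55Lib

noncomputable section

section LA

variable {l : Nat.Primes}

lemma LA6_iq_natCast (q : Nat.Primes) (g : GQ) (m : ℕ) : iq q (g (m : Qbar)) = (m : Om q) := by
  rw [map_natCast, map_natCast]

/-- (LA6) S55/G3/LaPrime.lean : the value of `Λ` on the prime ideles. -/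
theorem LambdaJ_prime (n : ℕ) (lam : (ZMod (l : ℕ))ˣ →* Multiplicative (ZMod n))
    (Λ : JF (⊥ : IntermediateField ℚ Qbar) →* Multiplicative (ZMod n))
    (h1 : ∀ x : JF (⊥ : IntermediateField ℚ Qbar), (∃ a, (x : JJ) = diag a) → Λ x = 1)
    (h2 : ∀ (u : JF (⊥ : IntermediateField ℚ Qbar)) (t : (ZMod (l : ℕ))ˣ), IsUnitId (u : JJ) →
        HasRes l ((cmp (u : JJ) l 1 : (Om l)ˣ) : Om l) t → Λ u = (lam t)⁻¹)
    (r : Nat.Primes) (hrl : r ≠ l) (t : (ZMod (l : ℕ))ˣ)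
    (ht : (((r : ℕ) : ℕ) : ZMod (l : ℕ)) = (t : ZMod (l : ℕ)))
    (x : JF (⊥ : IntermediateField ℚ Qbar)) (hx : IsPrimeId r (x : JJ)) : Λ x = lam t := by
  have hr0 : (((r : ℕ) : ℕ) : Qbar) ≠ 0 := by exact_mod_cast r.2.ne_zero
  set a : Qbarˣ := Units.mk0 _ hr0 with ha
  have haF : a ∈ FX ⊥ := natCast_mem (⊥ : IntermediateField ℚ Qbar) (r : ℕ)
  set d : JF (⊥ : IntermediateField ℚ Qbar) := ⟨diag a, (diag_mem_JF_iff ⊥ a).2 haF⟩ with hd
  have hcmp : ∀ q g, ((cmp ((x / d : JF _) : JJ) q g : (Om q)ˣ) : Om q) =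
      ((cmp (x : JJ) q g : (Om q)ˣ) : Om q) * ((((r : ℕ) : ℕ) : Om q))⁻¹ := by
    intro q g
    have : ((x / d : JF _) : JJ) = (x : JJ) * (diag a)⁻¹ := by
      rw [div_eq_mul_inv]; rfl
    rw [this, cmp_mul, cmp_inv, Units.val_mul, Units.val_inv_eq_inv_val, diag_comp]
    show _ * (iq q (g (((r : ℕ) : ℕ) : Qbar)))⁻¹ = _
    rw [LA6_iq_natCast]
  have hu : IsUnitId ((x / d : JF _) : JJ) := by
    intro q g
    rw [hcmp]
    by_cases hq : q = r
    · subst hq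
      rw [hx.1 g, mul_inv_cancel₀ (by exact_mod_cast q.2.ne_zero), norm_one]
    · rw [hx.2 q hq g, Units.val_one, one_mul, norm_inv, LA2_norm_prime q r (Ne.symm hq), inv_one]
  have hres : HasRes l ((cmp ((x / d : JF _) : JJ) l 1 : (Om l)ˣ) : Om l) t⁻¹ := by
    rw [hcmp, hx.2 l (Ne.symm hrl) 1, Units.val_one, one_mul]
    exact (hasRes_natCast _ t ht).inv
  have e : x = d * (x / d) := by rw [mul_div_cancel]
  rw [e, map_mul, h1 d ⟨a, rfl⟩, h2 _ _ hu hres, one_mul, map_inv, inv_inv]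

end LA

end

end Fermat.Agent.S55Lib
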