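import Fermat.Agent.S55.G3.LaNorm
import Fermat.Agent.S55.G3.LaPrime
import Fermat.Agent.S55.G3.LaC
import Fermat.Agent.S55.G3.CyKer

/-!
# S55, chapter G3, (LA8): explicit reciprocity
-/

set_option autoImplicit false
set_option linter.unusedSectionVars false
set_option linter.unusedVariables false

namespace Fermat.Agent.S55Lib

noncomputable section

section LA

variable {l : Nat.Primes}

lemma LA8_exists_idele (y : AC) (hy : y ∈ inv (Ucyc l) AC) :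
    ∃ y' : JJ, (∀ s ∈ Ucyc l, s • y' = y') ∧ y = acMk y' := by
  have hc : Additive.toMul y ∈ CF (CY2_field l) := fun s hs =>
    congrArg Additive.toMul (hy s (by rwa [CY2_fix_eq] at hs))
  obtain ⟨y', hy', hyy⟩ := exists_JF_of_mem_CF (CY2_field l) _ hc
  exact ⟨y', fun s hs => hy' s (by rwa [CY2_fix_eq]), congrArg Additive.ofMul hyy.symm⟩

/-- (LA8) S55/G3/LaMain.lean : **explicit reciprocity**. -/
theorem exists_Lambda (p : ℕ) [Fact p.Prime] (hp2 : p ≠ 2) (b : ℕ)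
    (lam : (ZMod (l : ℕ))ˣ →* Multiplicative (ZMod (p ^ b)))
    (χ : GQ →* Multiplicative (ZMod (p ^ b))) (h : IsArt p (p ^ b) l lam χ) :
    ∃ Λ : inv (⊤ : Subgroup GQ) AC →+ ZMod (p ^ b),
      (∀ z : inv (⊤ : Subgroup GQ) AC,
        (∃ y ∈ inv χ.ker AC, (z : AC) = nrm χ.ker ⊤ y) → Λ z = 0) ∧
      (∀ (z : inv (⊤ : Subgroup GQ) AC) (u : JJ) (t : (ZMod (l : ℕ))ˣ), (z : AC) = acMk u →
        u ∈ JF ⊥ → IsUnitId u → HasRes l ((cmp u l 1 : (Om l)ˣ) : Om l) t →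
        Λ z = - Multiplicative.toAdd (lam t)) ∧
      (∀ (z : inv (⊤ : Subgroup GQ) AC) (x : JJ) (r : Nat.Primes) (t : (ZMod (l : ℕ))ˣ), r ≠ l →
        (z : AC) = acMk x → x ∈ JF ⊥ → IsPrimeId r x →
        (((r : ℕ) : ℕ) : ZMod (l : ℕ)) = (t : ZMod (l : ℕ)) →
        Λ z = Multiplicative.toAdd (lam t)) := by
  have hp : p.Prime := Fact.out
  have hodd : Odd (p ^ b) := (hp.odd_of_ne_two hp2).pow
  obtain ⟨ΛJ, hJ1, hJ2⟩ := exists_LambdaJ (l := l) (p ^ b) hodd lam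
  obtain ⟨Λ, hΛ⟩ := exists_LambdaC (p ^ b) ΛJ hJ1
  refine ⟨Λ, ?_, ?_, ?_⟩
  · rintro z ⟨y, hy, hz⟩
    set m : ℕ := Nat.card lam.ker with hm
    have hm0 : m ≠ 0 := by
      intro h0
      have := h.cop
      rw [← hm, h0, Nat.coprime_zero_left] at this
      exact hp.one_lt.ne' this
    have hrel : (Ucyc l).relIndex χ.ker = m := h.relIndex
    have hyU : y ∈ inv (Ucyc l) AC := fun s hs => hy s (h.Ucyc_le hs)
    have hk0 : χ.ker.relIndex ⊤ ≠ 0 := NQ_relIndex_ne _ h.ker_mem_levAll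
    have e1 : nrm (Ucyc l) χ.ker y = m • y := by rw [nrm_of_mem_inv _ _ hy, hrel]
    have e2 := nrm_trans h.Ucyc_le le_top (by rw [hrel]; exact hm0) hk0 hyU
    have e3 : nrm χ.ker ⊤ (m • y) = m • nrm χ.ker ⊤ y := by
      have := nrm_zsmul χ.ker ⊤ hk0 (m : ℤ) y
      rwa [natCast_zsmul, natCast_zsmul] at this
    obtain ⟨y', hy', rfl⟩ := LA8_exists_idele y hyU
    have e4 : ((m • z : inv (⊤ : Subgroup GQ) AC) : AC) =
        acMk (((⟨NQ (Ucyc l) y', NQ_mem_JF _ (Ucyc_mem_levAll l) y' hy'⟩ :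
          JF (⊥ : IntermediateField ℚ Qbar)) : JJ)) := by
      rw [AddSubgroup.coe_nsmul, hz, ← e3, ← e1, e2, acMk_NQ _ (Ucyc_mem_levAll l)]
    have e5 := hΛ _ _ e4
    rw [LambdaJ_norm (p ^ b) lam ΛJ hJ1 hJ2 y' hy' _ rfl, toAdd_one, map_nsmul, nsmul_eq_mul]
      at e5
    have hu : IsUnit ((m : ℕ) : ZMod (p ^ b)) :=
      (ZMod.isUnit_iff_coprime m (p ^ b)).2 (Nat.Coprime.pow_right b h.cop)
    exact (hu.mul_right_eq_zero).1 e5
  · intro z u t hz hu hunit hres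
    rw [hΛ z ⟨u, hu⟩ hz, hJ2 ⟨u, hu⟩ t hunit hres, toAdd_inv]
  · intro z x r t hrl hz hx hprime ht
    rw [hΛ z ⟨x, hx⟩ hz, LambdaJ_prime (p ^ b) lam ΛJ hJ1 hJ2 r hrl t ht ⟨x, hx⟩ hprime]

end LA

end

end Fermat.Agent.S55Lib
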