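import Fermat.Agent.S55.G3.CyChar
import Fermat.Agent.S55.G3.CyLevel
import Fermat.Agent.S55.G.LocFix
import Fermat.Agent.S55.G2.TameFix

/-!
# S55, chapter G3, block (NQ): idele norms to `ℚ` (NQ1-NQ4; NQ5 is in `NQL.lean`)
-/

set_option autoImplicit false
set_option linter.unusedSectionVars false
set_option linter.unusedVariables false

namespace Fermat.Agent.S55Lib

noncomputable section

open groupCohomology

section NQ

lemma NQ_relIndex_ne (W : Subgroup GQ) (hW : W ∈ levAll.mem) : W.relIndex ⊤ ≠ 0 := by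
  rw [Subgroup.relIndex_top_right]
  exact (levAll.finiteIndex W hW).index_ne_zero

lemma NQ_mem_inv (W : Subgroup GQ) (y : JJ) (hy : ∀ s ∈ W, s • y = y) :
    (Additive.ofMul y : Additive JJ) ∈ inv W (Additive JJ) :=
  fun s hs => congrArg Additive.ofMul (hy s hs)

/-- (NQ1) -/
theorem NQ_mem_JF (W : Subgroup GQ) (hW : W ∈ levAll.mem) (y : JJ) (hy : ∀ s ∈ W, s • y = y) :
    NQ W y ∈ JF ⊥ := by
  intro s _
  exact congrArg Additive.toMul
    (nrm_mem_inv (NQ_relIndex_ne W hW) (NQ_mem_inv W y hy) s (Subgroup.mem_top s))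

/-- the class map, additively -/
def NQ_mkHom : Additive JJ →+ AC := MonoidHom.toAdditive (QuotientGroup.mk' diag.range)

/-- (NQ1) -/
theorem acMk_NQ (W : Subgroup GQ) (hW : W ∈ levAll.mem) (y : JJ) :
    acMk (NQ W y) = nrm W ⊤ (acMk y) :=
  nrm_map NQ_mkHom (fun _ _ => rfl) W ⊤ (NQ_relIndex_ne W hW) (Additive.ofMul y)

/-- (NQ1) -/
theorem NQ_mul (W : Subgroup GQ) (hW : W ∈ levAll.mem) (y y' : JJ) :
    NQ W (y * y') = NQ W y * NQ W y' :=
  congrArg Additive.toMul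
    (nrm_add W ⊤ (NQ_relIndex_ne W hW) (Additive.ofMul y) (Additive.ofMul y'))

lemma NQ_cmp_prod {ι : Type} (T : Finset ι) (f : ι → JJ) (q : Nat.Primes) (g : GQ) :
    cmp (∏ i ∈ T, f i) q g = ∏ i ∈ T, cmp (f i) q g := by
  classical
  induction T using Finset.induction_on with
  | empty => simp
  | insert a T ha ih => rw [Finset.prod_insert ha, Finset.prod_insert ha, cmp_mul, ih]

/-- (NQ2) any system of representatives computes the components of the norm -/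
theorem cmp_NQ {ι : Type} [Fintype ι] (W : Subgroup GQ) (s : ι → GQ)
    (hs : ∀ g : GQ, ∃! i, (s i)⁻¹ * g ∈ W) (y : JJ) (hy : ∀ w ∈ W, w • y = y) (q : Nat.Primes)
    (g : GQ) : cmp (NQ W y) q g = ∏ i, cmp y q (g * s i) := by
  have hr : Function.Bijective (fun i => (QuotientGroup.mk (⟨s i, Subgroup.mem_top _⟩ :
      (⊤ : Subgroup GQ)) : (⊤ : Subgroup GQ) ⧸ W.subgroupOf ⊤)) := by
    constructor
    · intro i j hij
      have h1 := QuotientGroup.eq.mp hij
      rw [Subgroup.mem_subgroupOf] at h1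
      have h2 : (s i)⁻¹ * s j ∈ W := h1
      obtain ⟨k, -, hk⟩ := hs (s j)
      have h3 : (s j)⁻¹ * s j ∈ W := by rw [inv_mul_cancel]; exact one_mem W
      rw [hk i h2, hk j h3]
    · intro z
      induction z using QuotientGroup.induction_on with
      | H x =>
        obtain ⟨i, hi, -⟩ := hs (x : GQ)
        refine ⟨i, ?_⟩
        show (QuotientGroup.mk _ : (⊤ : Subgroup GQ) ⧸ W.subgroupOf ⊤) = QuotientGroup.mk x
        rw [QuotientGroup.eq, Subgroup.mem_subgroupOf]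
        exact hi
  have h1 := NR_sum_bij W ⊤ (NQ_mem_inv W y hy) _ hr
  have h2 : NQ W y = ∏ i, s i • y := by
    unfold NQ
    rw [h1, toMul_sum]
    rfl
  rw [h2, NQ_cmp_prod]
  rfl

lemma NQ_actsMu_inv {l : Nat.Primes} {g : GQ} {t : (ZMod (l : ℕ))ˣ} (h : ActsMu l g t) :
    ActsMu l g⁻¹ t⁻¹ := by
  obtain ⟨t', ht'⟩ := exists_actsMu l g⁻¹
  have h1 := h.mul ht'
  rw [mul_inv_cancel] at h1
  have h2 : t * t' = 1 := h1.unique (actsMu_one_iff.2 (one_mem _))
  rwa [← eq_inv_of_mul_eq_one_right h2]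

/-- (NQ3) representatives of `G_ℚ / U_{ℚ(ζ_l)}` -/
theorem reps_Ucyc (l : Nat.Primes) (s : (ZMod (l : ℕ))ˣ → GQ) (hs : ∀ t, ActsMu l (s t) t)
    (g : GQ) : ∃! t, (s t)⁻¹ * g ∈ Ucyc l := by
  obtain ⟨t, ht⟩ := exists_actsMu l g
  refine ⟨t, ?_, fun t' ht' => ?_⟩
  · show (s t)⁻¹ * g ∈ Ucyc l
    rw [← actsMu_one_iff]
    have := (NQ_actsMu_inv (hs t)).mul ht
    rwa [inv_mul_cancel] at this
  · have h1 : ActsMu l ((s t')⁻¹ * g) 1 := actsMu_one_iff.2 ht'
    have h2 := (hs t').mul h1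
    rw [mul_inv_cancel_left, mul_one] at h2
    exact h2.unique ht

lemma NQ_isPrimitiveRoot (l : Nat.Primes) (ω : Om l) (hω : ω ^ (l : ℕ) = 1) (hω1 : ω ≠ 1) :
    IsPrimitiveRoot ω (l : ℕ) :=
  isPrimitiveRoot_of_mem_nthRootsFinset l.2
    ((Polynomial.mem_nthRootsFinset l.2.pos 1).2 hω) hω1

/-- (NQ4) components of ideles of `ℚ(ζ_l)` at `l` lie in `ℚ_l(ω)` -/
theorem cmp_mem_adjoin_l (l : Nat.Primes) (y : JJ) (hy : ∀ s ∈ Ucyc l, s • y = y) (g : GQ)
    (ω : Om l) (hω : ω ^ (l : ℕ) = 1) (hω1 : ω ≠ 1) :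
    ((cmp y l g : (Om l)ˣ) : Om l) ∈ IntermediateField.adjoin ℚ_[(l : ℕ)] {ω} := by
  have hprim := NQ_isPrimitiveRoot l ω hω hω1
  apply mem_of_fixed
  intro h hh
  have hhω : h ω = ω := hh ω (IntermediateField.mem_adjoin_simple_self _ ω)
  have hU : g⁻¹ * rq l h * g ∈ Ucyc l := by
    intro ζ hζ
    have h1 : (iq l (g ζ)) ^ (l : ℕ) = 1 := by rw [← map_pow, ← map_pow, hζ, map_one, map_one]
    obtain ⟨k, -, hk⟩ := hprim.eq_pow_of_pow_eq_one h1
    have h2 : iq l (rq l h (g ζ)) = iq l (g ζ) := by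
      rw [iq_rq, ← hk, map_pow, hhω]
    have h3 : rq l h (g ζ) = g ζ := (iq l).toRingHom.injective h2
    show g⁻¹ (rq l h (g ζ)) = ζ
    rw [h3]
    exact g.symm_apply_apply ζ
  have h1 : cmp y l (rq l h * g) = h • cmp y l g := cmp_rq y l h g
  have h2 : cmp y l (g * (g⁻¹ * rq l h * g)) = cmp y l g := by
    rw [← cmp_smul, hy _ hU]
  have h3 : g * (g⁻¹ * rq l h * g) = rq l h * g := by group
  rw [h3, h1] at h2
  exact congrArg Units.val h2

end NQ

end

end Fermat.Agent.S55Lib
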