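import Fermat.Agent.S55.G3.FcPrime
import Fermat.Agent.S55.G3.FcUnit
import Fermat.Agent.S55.G3.FcDev
import Fermat.Agent.S55.G3.LaMain
import Fermat.Agent.S55.G3.CyArt
import Fermat.Agent.S55.G3.CyKer
import Fermat.Agent.S55.G3.CyLevel
import Fermat.Agent.S55.G3.LlTrans
import Fermat.Agent.S55.G3.NQ
import Fermat.Agent.S55.G3.FundLev

/-!
# S55, chapter G3: (FC5) the fundamental class of the full idele class module
-/

set_option autoImplicit false
set_option linter.unusedSectionVars false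
set_option linter.unusedVariables false
set_option linter.style.haveILetI false

namespace Fermat.Agent.S55Lib

noncomputable section

open groupCohomology

variable (p : ℕ) [Fact p.Prime]

/-- (FC5) **the fundamental class of the full idele class module**. -/
theorem exists_fund_CC (hp2 : p ≠ 2) (U : Subgroup GQ) [U.Normal] (hU : U ∈ levAll.mem)
    (hμ : FixesMu p U) :
    ∃ u : (GQ ⧸ U) × (GQ ⧸ U) → inv U AC, IsCocycle₂ u ∧
      ∀ H : Subgroup (GQ ⧸ U), IsPGroup p H → ∀ k : ℤ,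
        IsCoboundary₂ (k • fun x : H × H => u ((x.1 : GQ ⧸ U), (x.2 : GQ ⧸ U))) →
        (Nat.card H : ℤ) ∣ k := by
  have hp : p.Prime := Fact.out
  haveI : U.FiniteIndex := levAll.finiteIndex U hU
  obtain ⟨l, hlp, hla, hsplit⟩ := exists_split_prime p U hU ((U.index).factorization p)
  have hl1 : (l : ℕ) - 1 ≠ 0 := by
    have := l.2.two_le
    omega
  have hb : p ^ (((l : ℕ) - 1).factorization p) ∣ (l : ℕ) - 1 := Nat.ordProj_dvd _ _
  have hb' : ¬ p ^ (((l : ℕ) - 1).factorization p + 1) ∣ (l : ℕ) - 1 :=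
    Nat.pow_succ_factorization_not_dvd hl1 hp
  have hab : (U.index).factorization p ≤ ((l : ℕ) - 1).factorization p :=
    (hp.pow_dvd_iff_le_factorization hl1).1 hla
  obtain ⟨lam, χ, hArt⟩ := exists_isArt l p hlp _ hb hb'
  obtain ⟨Λ, hΛN, hΛu, -⟩ := exists_Lambda p hp2 _ lam χ hArt
  have hχU : ∀ t, ∃ s ∈ U, χ s = t := by
    intro t
    obtain ⟨t', rfl⟩ := hArt.surj t
    obtain ⟨h, hh⟩ := exists_local_actsMu l t'
    exact ⟨rq l h, hsplit h, hArt.cyc _ _ hh⟩
  have hU' : U ⊓ χ.ker ∈ levAll.mem := inf_mem_levAll U χ.ker hU hArt.ker_mem_levAll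
  have hμ' : FixesMu p (U ⊓ χ.ker) := fun s hs => hμ s hs.1
  have hdev := devOut_CC p hp2 (U ⊓ χ.ker) hU' hμ'
  have hΛs : ∃ z : inv (⊤ : Subgroup GQ) AC, (∃ y ∈ inv U AC, (z : AC) = nrm U ⊤ y) ∧
      Λ z = 1 := by
    obtain ⟨t, ht⟩ := hArt.surj (Multiplicative.ofAdd (-1))
    obtain ⟨y, hyU, hunit, hres⟩ := exists_norm_unit_l U hU l hsplit t
    have hy : acMk y ∈ inv U AC := fun s hs => by
      show acMk (s • y) = acMk y
      rw [hyU s hs]
    have hfin : U.relIndex ⊤ ≠ 0 := by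
      rw [Subgroup.relIndex_top_right]
      exact Subgroup.FiniteIndex.index_ne_zero
    have e : acMk (NQ U y) = nrm U ⊤ (acMk y) := acMk_NQ U hU y
    have hz : acMk (NQ U y) ∈ inv (⊤ : Subgroup GQ) AC := by
      rw [e]
      exact nrm_mem_inv hfin hy
    refine ⟨⟨acMk (NQ U y), hz⟩, ⟨acMk y, hy, e⟩, ?_⟩
    rw [hΛu ⟨acMk (NQ U y), hz⟩ (NQ U y) t rfl (NQ_mem_JF U hU y hyU) hunit hres, ht]
    simp
  exact fund_class_lev p U _ _ hab rfl χ hχU hdev Λ hΛN hΛs

end

end Fermat.Agent.S55Lib
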