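import Fermat.Agent.S55.G3.TsTors
import Fermat.Agent.S55.G3.CmTransfer
import Fermat.Agent.S55.G3.FcDev
import Fermat.Agent.S55.G3.FcMain

/-!
# S55, chapter G3, (TS4): the class module `(C♯)^U` (root `G_classModule`)
-/

set_option autoImplicit false
set_option linter.unusedSectionVars false
set_option linter.unusedVariables false

namespace Fermat.Agent.S55Lib

noncomputable section

open groupCohomology ExtCitation

variable {p : ℕ} [Fact p.Prime] (S : Finset Nat.Primes)

/-- the cyclic layers of `C(L)`, for a level -/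
theorem TS4_hlayer (hp2 : p ≠ 2) (U : Subgroup GQ) [U.Normal] (hU : U ∈ levAll.mem)
    (hμ : FixesMu p U) : HLayer p (GQ ⧸ U) (inv U AC) := by
  obtain ⟨M, hMfd, hMst, -, rfl⟩ := hU
  have hμM : HasMu p M := fun z hz => mem_of_fixed_Q M z (fun s hs => hμ s hs z hz)
  exact hlayer_CC p M hp2 hμM

/-- (TS4) S55/G3/GClassModule.lean : **root** (verbatim W/Top.lean), more precise form. -/
theorem G_classModule' (hp2 : p ≠ 2) (hpS : pPrime p ∈ S) (U : Subgroup GQ) [U.Normal]
    (hU : U ∈ (levS S).mem) (hμ : FixesMu p U) :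
    ∃ u : (GQ ⧸ U) × (GQ ⧸ U) → inv U AC, IsClassModule p (GQ ⧸ U) (inv U AC) u ∧
      IsClassModule p (GQ ⧸ U) (inv U (CSh S)) (fun x => toCSh S U hU (u x)) := by
  have hS : S.Nonempty := ⟨_, hpS⟩
  have hU' : U ∈ levAll.mem := levS_le_levAll S hU
  have hfinU := levAll.finiteIndex U hU'
  have hfin : Finite (GQ ⧸ U) := Subgroup.finite_quotient_of_finiteIndex
  have h0 := exists_fund_CC p hp2 U hU' hμ
  obtain ⟨u, hu, hord⟩ := h0
  have hdev := devOut_CC p hp2 U hU' hμ
  have hC := TS4_hlayer (p := p) hp2 U hU' hμ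
  have hW := hlayer0_UId (p := p) S U hU hμ
  refine ⟨u, cm_of_ord p hdev u hu hord, ?_⟩
  exact cm_transfer p (upsU S U) (toCSh S U hU) (upsU_equivar S U) (toCSh_equivar S U hU)
    (upsU_injective S hS U) (toCSh_eq_zero_iff S hS U hU)
    (exists_smul_mem_image (p := p) S hpS U hU hμ) hC hW u hu hord

/-- (TS4) **root** -/
theorem G_classModule (hp2 : p ≠ 2) (hpS : pPrime p ∈ S) (U : Subgroup GQ) [U.Normal]
    (hU : U ∈ (levS S).mem) (hμ : FixesMu p U) :
    ∃ u : (GQ ⧸ U) × (GQ ⧸ U) → inv U (CSh S), IsClassModule p (GQ ⧸ U) (inv U (CSh S)) u := by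
  have h0 := G_classModule' (p := p) S hp2 hpS U hU hμ
  obtain ⟨u, -, hu⟩ := h0
  exact ⟨_, hu⟩

end

end Fermat.Agent.S55Lib
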