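import Fermat.Agent.S55.G3.LGAbs
import Fermat.Agent.S55.L.Transport

/-!
# S55, chapter G3 (abstract part), leaf (TS5): level `H¹` is `p'`-torsion
-/

set_option autoImplicit false
set_option linter.unusedSectionVars false
set_option linter.unusedVariables false

namespace Fermat.Agent.S55Lib

open groupCohomology

/-- (TS5) S55/G3/LevH1.lean : abstract: level `H¹` is `p'`-torsion if the finite levels are class
modules.  `f` vanishes on `U₁`, is constant on cosets and has values in `A^{U₁}`; it defines a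
cocycle of the subgroup `U/U₁` of `Γ/U₁`; `P` = Sylow `p`-subgroup of `U/U₁`;
`index_smul_isCoboundary₁`. -/
theorem lev_H1_ptors {Γ : Type} [Group Γ] {A : Type} [AddCommGroup A] [DistribMulAction Γ A]
    (p : ℕ) [Fact p.Prime] (U U₁ : Subgroup Γ) [U₁.Normal] [U₁.FiniteIndex] (hle : U₁ ≤ U)
    (h1 : ∀ H : Subgroup (Γ ⧸ U₁), IsPGroup p H → ∀ f : H → inv U₁ A, IsCocycle₁ f →
      IsCoboundary₁ f)
    (f : U → A) (hf : IsCocycle₁ f) (hc : ∀ (g s : U), (s : Γ) ∈ U₁ → f (g * s) = f g) :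
    ∃ m : ℕ, m.Coprime p ∧ IsCoboundary₁ (m • f) := by
  classical
  have hfinQ : Finite (Γ ⧸ U₁) := Subgroup.finite_quotient_of_finiteIndex
  have hf1 : f 1 = 0 := by
    have := hf 1 1
    simpa using this
  have hfs : ∀ s : U, (s : Γ) ∈ U₁ → f s = 0 := by
    intro s hs
    have := hc 1 s hs
    rwa [one_mul, hf1] at this
  have hinv : ∀ g : U, f g ∈ inv U₁ A := by
    intro g ν hν
    have hn : (g : Γ)⁻¹ * ν * g ∈ U₁ := by
      have := (inferInstance : U₁.Normal).conj_mem ν hν (g : Γ)⁻¹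
      simpa using this
    let ν' : U := ⟨ν, hle hν⟩
    have e1 : f (ν' * g) = ν • f g := by
      rw [hf, hfs ν' hν, add_zero]; rfl
    have e2 : f (g * (g⁻¹ * ν' * g)) = f g := hc g _ hn
    have e3 : g * (g⁻¹ * ν' * g) = ν' * g := by group
    rw [← e1, ← e3, e2]
  -- the image of `U`
  set Ub : Subgroup (Γ ⧸ U₁) := U.map (QuotientGroup.mk' U₁) with hUb
  have hrep : ∀ x : Ub, ∃ g : U, (QuotientGroup.mk' U₁ (g : Γ)) = (x : Γ ⧸ U₁) := by
    rintro ⟨_, g, hg, rfl⟩
    exact ⟨⟨g, hg⟩, rfl⟩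
  choose r hr using hrep
  have hwd : ∀ (x : Ub) (g : U), (QuotientGroup.mk' U₁ (g : Γ)) = (x : Γ ⧸ U₁) → f g = f (r x) := by
    intro x g hg
    have h2 : ((r x : U) : Γ)⁻¹ * g ∈ U₁ := by
      rw [← QuotientGroup.eq]
      exact (hr x).trans hg.symm
    have h3 := hc (r x) ((r x)⁻¹ * g) h2
    rw [← h3]
    congr 1
    group
  let fb : Ub → inv U₁ A := fun x => ⟨f (r x), hinv _⟩
  have hsm : ∀ (x : Ub) (v : inv U₁ A), ((x • v : inv U₁ A) : A) = ((r x : U) : Γ) • (v : A) := by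
    intro x v
    show ((((x : Γ ⧸ U₁)) • v : inv U₁ A) : A) = _
    rw [← hr x]
    rfl
  have hfb : IsCocycle₁ fb := by
    intro x y
    apply Subtype.ext
    show f (r (x * y)) = ((x • fb y : inv U₁ A) : A) + f (r x)
    rw [hsm, ← hwd (x * y) (r x * r y) (by
      rw [Subgroup.coe_mul, map_mul, hr, hr]; rfl), hf]
    rfl
  obtain ⟨P₀⟩ : Nonempty (Sylow p Ub) := inferInstance
  obtain ⟨P, hP⟩ : ∃ P : Subgroup Ub, P = (P₀ : Subgroup Ub) := ⟨_, rfl⟩
  have h1P : ∀ φ : P → inv U₁ A, IsCocycle₁ φ → IsCoboundary₁ φ := by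
    intro φ hφ
    let e : P ≃* (P.map Ub.subtype) :=
      Subgroup.equivMapOfInjective _ Ub.subtype Subtype.val_injective
    have hcompat : ∀ (g : P) (a : inv U₁ A),
        (AddEquiv.refl (inv U₁ A)) (e g • a) = g • (AddEquiv.refl (inv U₁ A)) a := fun g a => rfl
    have hp : IsPGroup p (P.map Ub.subtype) := (hP ▸ P₀.isPGroup').of_equiv e
    let ψ : (P.map Ub.subtype) → inv U₁ A := fun x => φ (e.symm x)
    have hψφ : (fun x : P => (AddEquiv.refl (inv U₁ A)) (ψ (e x))) = φ := by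
      funext x
      show φ (e.symm (e x)) = φ x
      rw [e.symm_apply_apply]
    have hψ : IsCocycle₁ ψ :=
      (transport_isCocycle₁ e (AddEquiv.refl _) hcompat ψ).1 (by rw [hψφ]; exact hφ)
    have := (transport_isCoboundary₁ e (AddEquiv.refl _) hcompat ψ).2 (h1 _ hp ψ hψ)
    rwa [hψφ] at this
  obtain ⟨a, ha⟩ := index_smul_isCoboundary₁ P h1P fb hfb
  refine ⟨P.index, ?_, (a : A), fun g => ?_⟩
  · rw [Nat.coprime_comm, Nat.Prime.coprime_iff_not_dvd Fact.out]
    rw [hP]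
    exact P₀.not_dvd_index
  · let x : Ub := ⟨QuotientGroup.mk' U₁ (g : Γ), (g : Γ), g.2, rfl⟩
    have h2 := congrArg Subtype.val (ha x)
    have h3 : ((x • a - a : inv U₁ A) : A) = (g : Γ) • (a : A) - a := rfl
    rw [h3] at h2
    show (g : Γ) • (a : A) - a = P.index • f g
    rw [h2, hwd x g rfl]
    rfl

end Fermat.Agent.S55Lib
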