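import Fermat.Agent.S55.G3.GClassModule
import Fermat.Agent.S55.G3.LevH1

/-!
# S55, chapter G3, (TS6): level `H¹` of `C♯` is `p'`-torsion (root `G_H1`)
-/

set_option autoImplicit false
set_option linter.unusedSectionVars false
set_option linter.unusedVariables false

namespace Fermat.Agent.S55Lib

noncomputable section

open groupCohomology ExtCitation

variable {p : ℕ} [Fact p.Prime] (S : Finset Nat.Primes)

/-- (TS6) S55/G3/GH1.lean : **root** (verbatim W/Top.lean). -/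
theorem G_H1 (hp2 : p ≠ 2) (hpS : pPrime p ∈ S) (U : Subgroup GQ) (hU : U ∈ (levS S).mem)
    (hμ : FixesMu p U) (U₁ : Subgroup GQ) (hU₁ : U₁ ∈ (levS S).mem) (hle : U₁ ≤ U)
    (f : U → CSh S) (hf : IsCocycle₁ f) (hc : ∀ (g s : U), (s : GQ) ∈ U₁ → f (g * s) = f g) :
    ∃ m : ℕ, m.Coprime p ∧ IsCoboundary₁ (m • f) := by
  have hn := (levS S).normal U₁ hU₁
  have hfi := (levS S).finiteIndex U₁ hU₁
  have hμ₁ : FixesMu p U₁ := fun s hs => hμ s (hle hs)
  have h0 := G_classModule (p := p) S hp2 hpS U₁ hU₁ hμ₁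
  obtain ⟨u, hu⟩ := h0
  exact lev_H1_ptors p U U₁ hle hu.h1 f hf hc

end

end Fermat.Agent.S55Lib
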