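import Fermat.Agent.S55.G3.ClassMod
import Fermat.Agent.S55.B.ShapiroRes
import Fermat.Agent.S55.W.TorsionCmp

/-! # S55 G3 (CM9): `H²(G,C)[p] → H²(G,Ct)` is injective -/

set_option autoImplicit false
set_option linter.unusedSectionVars false
set_option linter.unusedVariables false

namespace Fermat.Agent.S55Lib

noncomputable section

open groupCohomology

/-- cochain form of `res_index_inj` -/
lemma CM9_res_index {G : Type} [Group G] (P : Subgroup G) [P.FiniteIndex] {A : Type}
    [AddCommGroup A] [DistribMulAction G A] (f : G × G → A) (hf : IsCocycle₂ f)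
    (h : IsCoboundary₂ (fun x : P × P => f ((x.1 : G), (x.2 : G)))) :
    IsCoboundary₂ (P.index • f) := by
  have h1 := res_index_inj P (H2.mk ⟨f, hf⟩) (by
    have h2 : H2.res P (H2.mk ⟨f, hf⟩) =
      H2.mk (Z2.cmap P.subtype (AddMonoidHom.id A) (compat_res P) ⟨f, hf⟩) := rfl
    rw [h2, H2.mk_eq_zero]
    exact h)
  rw [← H2.mk_nsmul, H2.mk_eq_zero] at h1
  exact h1

/-- (CM9) S55/G3/CmPtors.lean : `H²(G,C)[p] → H²(G,Ct)` is injective in the situation of (CM8).
`τ ∘ φ = dβ`; `m β = τ ∘ β'` (`htor`, `G` finite); `m φ - dβ'` has values in `ιW W` and defines a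
2-cocycle `w` of `W`; `w|P ~ 0` for a Sylow `p`-subgroup `P` (`ct_devissage`), so `[G:P] w ~ 0`
(`res_index_inj`, B/ShapiroRes.lean); so `[G:P] m φ ~ 0`; Bezout with `p φ ~ 0`. -/
theorem h2_ptors_transfer (p : ℕ) [Fact p.Prime] {G : Type} [Group G] [Finite G] {W C Ct : Type}
    [AddCommGroup W] [DistribMulAction G W] [AddCommGroup C] [DistribMulAction G C]
    [AddCommGroup Ct] [DistribMulAction G Ct] (ιW : W →+ C) (τ : C →+ Ct)
    (eι : ∀ (g : G) w, ιW (g • w) = g • ιW w) (eτ : ∀ (g : G) c, τ (g • c) = g • τ c)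
    (hι : Function.Injective ιW) (hex : ∀ c, τ c = 0 ↔ ∃ w, ιW w = c)
    (htor : ∀ x : Ct, ∃ m : ℕ, m.Coprime p ∧ ∃ c, τ c = m • x)
    (hW : HLayer0 p G W) (φ : G × G → C) (hφ : IsCocycle₂ φ) (hpφ : IsCoboundary₂ (p • φ))
    (h0 : IsCoboundary₂ (fun x => τ (φ x))) : IsCoboundary₂ φ := by
  classical
  cases nonempty_fintype G
  obtain ⟨β, hβ⟩ := h0
  replace hβ : ∀ g h : G, g • β h - β (g * h) + β g = τ (φ (g, h)) := hβ
  obtain ⟨m, hm, hmβ⟩ := CP3_finset p τ htor (Finset.univ.image β)
  choose β' hβ' using fun g : G => hmβ (β g) (Finset.mem_image_of_mem β (Finset.mem_univ g))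
  -- the cocycle with values in `W`
  have hψ : ∀ x : G × G, ∃ w, ιW w = m • φ x - (x.1 • β' x.2 - β' (x.1 * x.2) + β' x.1) := by
    intro x
    rw [← hex, map_sub, map_nsmul, map_add, map_sub, eτ, hβ', hβ', hβ', ← hβ x.1 x.2, smul_add,
      smul_sub, smul_comm m x.1, sub_self]
  choose w hw using hψ
  have hwc : IsCocycle₂ w := by
    intro g h j
    apply hι
    have h1 := hφ g h j
    rw [map_add, map_add, eι, hw, hw, hw, hw]
    simp only [smul_sub, smul_add, mul_smul, mul_assoc]
    have h2 : m • φ (g * h, j) + m • φ (g, h) = m • (g • φ (h, j)) + m • φ (g, h * j) := by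
      rw [← smul_add, h1, smul_add]
    rw [smul_comm g m]
    have h3 : m • φ (g * h, j) = m • (g • φ (h, j)) + m • φ (g, h * j) - m • φ (g, h) := by
      rw [← h2]; abel
    rw [h3]
    abel
  obtain ⟨P⟩ : Nonempty (Sylow p G) := inferInstance
  have hN : ¬ p ∣ (P : Subgroup G).index := P.not_dvd_index
  have hwP : IsCoboundary₂ (fun x : ↥(P : Subgroup G) × ↥(P : Subgroup G) =>
      w ((x.1 : G), (x.2 : G))) := by
    refine (ct_devissage p hW (P : Subgroup G) P.isPGroup').2 _ ?_
    intro g h j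
    exact hwc g h j
  obtain ⟨z, hz⟩ := CM9_res_index (P : Subgroup G) w hwc hwP
  replace hz : ∀ g h : G, g • z h - z (g * h) + z g = (P : Subgroup G).index • w (g, h) := hz
  have hcop : ((P : Subgroup G).index * m).Coprime p :=
    Nat.Coprime.mul_left (((Nat.Prime.coprime_iff_not_dvd (Fact.out : p.Prime)).2 hN).symm) hm
  have hmem : ((P : Subgroup G).index * m) • φ ∈ B2 G C := by
    refine ⟨fun g => ιW (z g) + (P : Subgroup G).index • β' g, fun g h => ?_⟩
    have h1 := congrArg ιW (hz g h)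
    rw [map_add, map_sub, eι, map_nsmul, hw] at h1
    show g • (ιW (z h) + (P : Subgroup G).index • β' h) -
      (ιW (z (g * h)) + (P : Subgroup G).index • β' (g * h)) +
      (ιW (z g) + (P : Subgroup G).index • β' g) = ((P : Subgroup G).index * m) • φ (g, h)
    rw [mul_smul]
    have h2 : (P : Subgroup G).index • m • φ (g, h) =
        g • ιW (z h) - ιW (z (g * h)) + ιW (z g) +
          (P : Subgroup G).index • (g • β' h - β' (g * h) + β' g) := by
      rw [h1, ← smul_add]
      congr 1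
      abel
    rw [h2, smul_add, smul_add, smul_sub, smul_comm g]
    abel
  exact M_mem_of_coprime hcop (B2 G C) hmem hpφ

end

end Fermat.Agent.S55Lib
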