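import Fermat.Agent.S55.G3.LgDefs

/-!
# S55, chapter G3, leaf (LG8b): `S`-level and all-level semi-local modules have the same
`U`-invariants for an `S`-level `U`
-/

set_option autoImplicit false
set_option linter.unusedSectionVars false
set_option linter.unusedVariables false

namespace Fermat.Agent.S55Lib

noncomputable section

open groupCohomology ExtCitation

variable (S : Finset Nat.Primes)

/-- (LG8b) S55/G3/LgInc.lean -/
theorem invMap_incS_bijective (U : Subgroup GQ) (hU : U ∈ (levS S).mem) (v : S) :
    Function.Bijective (invMap U (incS S v) (incS_equivar S v)) := by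
  constructor
  · intro φ ψ h
    apply Subtype.ext
    apply Subtype.ext
    have h1 := congrArg (fun w : inv U (AQ v.1) => ((w : AQ v.1) : GQ → Additive (Om v.1)ˣ)) h
    exact h1
  · intro ψ
    have hc : ∀ g s, s ∈ U → ((ψ : AQ v.1) : GQ → Additive (Om v.1)ˣ) (g * s) =
        ((ψ : AQ v.1) : GQ → Additive (Om v.1)ˣ) g := by
      intro g s hs
      have h1 := ψ.2 s hs
      exact congrArg (fun w : AQ v.1 => (w : GQ → Additive (Om v.1)ˣ) g) h1
    refine ⟨⟨⟨((ψ : AQ v.1) : GQ → Additive (Om v.1)ˣ), (ψ : AQ v.1).2.1, U, hU, hc⟩, ?_⟩, ?_⟩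
    · intro s hs
      apply Subtype.ext
      funext g
      exact hc g s hs
    · apply Subtype.ext
      apply Subtype.ext
      rfl

end

end Fermat.Agent.S55Lib
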