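import Fermat.Agent.S55.G3.LgDefs

/-!
# S55, chapter G3, leaf (LG8a): `Wpr` through the full idele class module
-/

set_option autoImplicit false
set_option linter.unusedSectionVars false
set_option linter.unusedVariables false

namespace Fermat.Agent.S55Lib

noncomputable section

open groupCohomology ExtCitation

variable (S : Finset Nat.Primes)

lemma LG8a_extJ_single (v : S) (φ : SCoind (rs S v) (Bs S v) (levS S)) :
    extJ S (Wsingle (levS S) (Hs S) (rs S) (Bs S) v φ) = sglq v.1 (incS S v φ) := by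
  apply congrArg Additive.ofMul
    (a₁ := Additive.toMul (extJ S (Wsingle (levS S) (Hs S) (rs S) (Bs S) v φ)))
    (a₂ := Additive.toMul (sglq v.1 (incS S v φ)))
  apply JJ.ext
  intro q g
  by_cases hq : q ∈ S
  · by_cases hqv : (⟨q, hq⟩ : S) = v
    · subst hqv
      rw [cmp_extJ S _ ⟨q, hq⟩ g, cmp_sglq]
      simp only [Wsingle, AddMonoidHom.single_apply, Pi.single_eq_same]
      rfl
    · have hne : q ≠ v.1 := fun h => hqv (Subtype.ext h)
      rw [cmp_extJ S _ ⟨q, hq⟩ g, cmp_sglq_of_ne _ _ _ hne]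
      simp only [Wsingle, AddMonoidHom.single_apply, Pi.single_eq_of_ne hqv]
      rfl
  · have hne : q ≠ v.1 := fun h => hq (h ▸ v.2)
    rw [cmp_extJ_of_not_mem S _ q hq g, cmp_sglq_of_ne _ _ _ hne]

/-- (LG8a) S55/G3/LgWpr.lean : `extJ S (Wsingle v φ) = sglq v (incS φ)` (compare components:
`cmp_extJ`, `cmp_extJ_of_not_mem`, `cmp_sglq`, `cmp_sglq_of_ne`); unfold `Wpr`, `kapS`,
`JtoCSh`, `JtoCCS`, `toCSh`. -/
theorem Wpr_eq_toCSh (U : Subgroup GQ) [U.Normal] (hU : U ∈ (levS S).mem) (v : S)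
    (φ : inv U (SCoind (rs S v) (Bs S v) (levS S))) :
    invMap U (Wpr (levS S) (Hs S) (rs S) (Bs S) (EA_smooth S) (fun v => lamq S v.1)
        (fun v => lamq_compat S v.1) (kapS S) v)
      (Wpr_equivar (levS S) (Hs S) (rs S) (Bs S) (EA_smooth S) (fun v => lamq S v.1)
        (fun v => lamq_compat S v.1) (kapS S) (kapS_equivar S) v) φ =
    toCSh S U hU (invMap U (jq v.1) (jq_equivar v.1)
      (invMap U (incS S v) (incS_equivar S v) φ)) := by
  apply Subtype.ext
  show WCoker.mk GQ (upsS S) (upsS_equivar S)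
      (JtoCCS S (Wsingle (levS S) (Hs S) (rs S) (Bs S) v (φ : SCoind (rs S v) (Bs S v) (levS S)))) =
    WCoker.mk GQ (upsS S) (upsS_equivar S) _
  congr 1
  apply Subtype.ext
  show Additive.ofMul (CC.mk (Additive.toMul (extJ S (Wsingle (levS S) (Hs S) (rs S) (Bs S) v
    (φ : SCoind (rs S v) (Bs S v) (levS S)))))) = _
  rw [LG8a_extJ_single]
  rfl

end

end Fermat.Agent.S55Lib
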