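import Fermat.Agent.S55.G3.TsDefs
import Fermat.Agent.S55.W.CoindInv

/-!
# S55, chapter G3, (TS2): the maps `U^S(L) → C(L) → (C♯)^{U_L}`
-/

set_option autoImplicit false
set_option linter.unusedSectionVars false
set_option linter.unusedVariables false

namespace Fermat.Agent.S55Lib

noncomputable section

open groupCohomology ExtCitation

variable {p : ℕ} [Fact p.Prime] (S : Finset Nat.Primes)

/-- a principal idele which is trivial at a place is trivial -/
theorem TS2_key (hS : S.Nonempty) (w : UId S) (h : CC.mk (w : JJ) = 1) : w = 1 := by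
  obtain ⟨q, hq⟩ := hS
  have h1 : (w : JJ) ∈ diag.range := (QuotientGroup.eq_one_iff (w : JJ)).1 h
  obtain ⟨a, ha⟩ := h1
  have h2 : cmp (diag a) q 1 = 1 := by rw [ha]; exact w.2.1 q hq 1
  have h3 : iq q ((1 : GQ) (a : Qbar)) = 1 := by
    rw [← diag_comp, h2]; rfl
  have h4 : (a : Qbar) = 1 := by
    apply (iq q).toRingHom.injective
    show iq q (a : Qbar) = iq q 1
    rw [map_one]
    exact h3
  have h5 : a = 1 := Units.ext h4
  apply Subtype.ext
  rw [← ha, h5, map_one]
  rfl

theorem TS2_ups0_injective (hS : S.Nonempty) : Function.Injective (ups0 S) := by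
  rw [injective_iff_map_eq_zero]
  intro w hw
  exact congrArg Additive.ofMul (TS2_key S hS (Additive.toMul w) (congrArg Additive.toMul hw))

/-- (TS2) S55/G3/TsUps.lean -/
theorem upsU_injective (hS : S.Nonempty) (U : Subgroup GQ) : Function.Injective (upsU S U) := by
  intro a b hab
  apply Subtype.ext
  exact TS2_ups0_injective S hS (congrArg Subtype.val hab)

/-- (TS2) -/
theorem upsS_injective (hS : S.Nonempty) : Function.Injective (upsS S) := by
  intro a b hab
  apply Subtype.ext
  exact TS2_ups0_injective S hS (congrArg Subtype.val hab)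

/-- (TS2) -/
theorem upsU_equivar (U : Subgroup GQ) [U.Normal] (g : GQ ⧸ U) (w : inv U (Additive (UId S))) :
    upsU S U (g • w) = g • upsU S U w :=
  invMap_smul U (ups0 S) (ups0_equivar S) g w

/-- (TS2) -/
theorem toCSh_equivar (U : Subgroup GQ) [U.Normal] (hU : U ∈ (levS S).mem) (g : GQ ⧸ U)
    (c : inv U AC) : toCSh S U hU (g • c) = g • toCSh S U hU c := by
  induction g using QuotientGroup.induction_on with
  | H γ => rfl

/-- (TS2) -/
theorem toCSh_eq_zero_iff (hS : S.Nonempty) (U : Subgroup GQ) (hU : U ∈ (levS S).mem)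
    (c : inv U AC) : toCSh S U hU c = 0 ↔ ∃ w, upsU S U w = c := by
  constructor
  · intro h
    have h1 : WCoker.mk GQ (upsS S) (upsS_equivar S) ⟨(c : AC), U, hU, c.2⟩ = 0 :=
      congrArg Subtype.val h
    obtain ⟨a, ha⟩ := (WCoker.mk_eq_zero GQ (upsS S) (upsS_equivar S)).1 h1
    have hinv : (a : Additive (UId S)) ∈ inv U (Additive (UId S)) := by
      intro s hs
      have h2 : upsS S (s • a) = upsS S a := by
        rw [upsS_equivar S s a, ha]
        exact Subtype.ext (c.2 s hs)
      exact congrArg Subtype.val (upsS_injective S hS h2)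
    have h3 : ((upsS S a : CCS S) : Additive CC) = (c : AC) := congrArg Subtype.val ha
    exact ⟨⟨(a : Additive (UId S)), hinv⟩, Subtype.ext h3⟩
  · rintro ⟨w, rfl⟩
    apply Subtype.ext
    show WCoker.mk GQ (upsS S) (upsS_equivar S) _ = 0
    rw [WCoker.mk_eq_zero]
    exact ⟨⟨(w : Additive (UId S)), U, hU, w.2⟩, rfl⟩

end

end Fermat.Agent.S55Lib
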