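import Fermat.Agent.S55.G3.TsUnits
import Fermat.Agent.S55.G3.TsUps
import Fermat.Agent.S55.G3.LevH1

/-!
# S55, chapter G3, (TS3): `(C♯)^U / im C(L)` is `p'`-torsion
-/

set_option autoImplicit false
set_option linter.unusedSectionVars false
set_option linter.unusedVariables false

namespace Fermat.Agent.S55Lib

noncomputable section

open groupCohomology ExtCitation

theorem TS3_abs1 {G : Type} [Group G] {A B : Type} [AddCommGroup A] [AddCommGroup B]
    [DistribMulAction G A] [DistribMulAction G B] (j : A →+ B) (hj : Equivar G j) (b : B)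
    (x : WCoker G j hj) (hb : WCoker.mk G j hj b = x) (s : G) (hx : s • x = x) :
    ∃ a, j a = s • b - b := by
  rw [← WCoker.mk_eq_zero G j hj, map_sub, WCoker.equivar_mk, hb, hx, sub_self]

theorem TS3_abs2 {G : Type} [Group G] {A B : Type} [AddCommGroup A] [AddCommGroup B]
    [DistribMulAction G A] [DistribMulAction G B] (j : A →+ B) (hj : Equivar G j) (b y : B)
    (x : WCoker G j hj) (hb : WCoker.mk G j hj b = x) (m : ℕ) (a : A) (ha : j a = y - m • b) :
    WCoker.mk G j hj y = m • x := by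
  rw [← hb, ← map_nsmul, ← sub_eq_zero, ← map_sub, WCoker.mk_eq_zero]
  exact ⟨a, ha⟩

/-- the abstract argument -/
theorem TS3_core {Γ : Type} [Group Γ] {A C : Type} [AddCommGroup A] [AddCommGroup C]
    [DistribMulAction Γ A] [DistribMulAction Γ C] (ι : A →+ C) (eι : Equivar Γ ι)
    (hinj : Function.Injective ι) (p : ℕ) [Fact p.Prime] (U U' : Subgroup Γ) [U'.Normal]
    [U'.FiniteIndex] (hle : U' ≤ U)
    (h1 : ∀ H : Subgroup (Γ ⧸ U'), IsPGroup p H → ∀ f : H → inv U' A, IsCocycle₁ f →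
      IsCoboundary₁ f)
    (c₀ : C) (hc₀ : ∀ s ∈ U', s • c₀ = c₀) (hex : ∀ s : U, ∃ a, ι a = (s : Γ) • c₀ - c₀) :
    ∃ m : ℕ, m.Coprime p ∧ ∃ w : A, (∀ s ∈ U', s • w = w) ∧
      ∀ s ∈ U, s • (m • c₀ - ι w) = m • c₀ - ι w := by
  choose f hf using hex
  have hcoc : IsCocycle₁ f := by
    intro g h
    apply hinj
    have e1 : ι (g • f h) = (g : Γ) • ι (f h) := eι (g : Γ) (f h)
    rw [map_add, e1, hf, hf, hf, smul_sub, Subgroup.coe_mul, mul_smul]
    abel
  have hc : ∀ (g s : U), (s : Γ) ∈ U' → f (g * s) = f g := by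
    intro g s hs
    apply hinj
    rw [hf, hf, Subgroup.coe_mul, mul_smul, hc₀ _ hs]
  obtain ⟨m, hm, w, hw⟩ := lev_H1_ptors p U U' hle h1 f hcoc hc
  have hw1 : ∀ s : U, (s : Γ) • w = w + m • f s := by
    intro s
    have h2 : (s : Γ) • w - w = m • f s := hw s
    rw [← h2]
    abel
  refine ⟨m, hm, w, ?_, ?_⟩
  · intro s hs
    have h0 : f ⟨s, hle hs⟩ = 0 := by
      apply hinj
      rw [hf, map_zero]
      show s • c₀ - c₀ = 0
      rw [hc₀ _ hs, sub_self]
    have h3 := hw1 ⟨s, hle hs⟩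
    rw [h0, smul_zero, add_zero] at h3
    exact h3
  · intro s hs
    have e1 : ι (s • w) = s • ι w := eι s w
    have e2 : s • w = w + m • f ⟨s, hs⟩ := hw1 ⟨s, hs⟩
    have e3 : ι (f ⟨s, hs⟩) = s • c₀ - c₀ := hf ⟨s, hs⟩
    rw [smul_sub, ← e1, e2, map_add, map_nsmul, e3, smul_sub, smul_comm s m c₀]
    abel

variable {p : ℕ} [Fact p.Prime] (S : Finset Nat.Primes)

/-- `H¹` of the `p`-subgroups with values in the unit ideles -/
theorem TS3_h1 (U : Subgroup GQ) [U.Normal] [U.FiniteIndex] (hU : U ∈ (levS S).mem)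
    (hμ : FixesMu p U) (H : Subgroup (GQ ⧸ U)) (hH : IsPGroup p H)
    (f : H → inv U (Additive (UId S))) (hf : IsCocycle₁ f) : IsCoboundary₁ f := by
  have h0 := hlayer0_UId (p := p) S U hU hμ
  exact (ct_devissage p h0 H hH).1 f hf

/-- (TS3) S55/G3/TsTors.lean : `(C♯)^U / im C(L)` is `p'`-torsion. -/
theorem exists_smul_mem_image (hpS : pPrime p ∈ S) (U : Subgroup GQ) [U.Normal]
    (hU : U ∈ (levS S).mem) (hμ : FixesMu p U) (x : inv U (CSh S)) :
    ∃ m : ℕ, m.Coprime p ∧ ∃ c, toCSh S U hU c = m • x := by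
  have hS : S.Nonempty := ⟨_, hpS⟩
  have hsurj := WCoker.mk_surjective GQ (upsS S) (upsS_equivar S) (x : CSh S)
  obtain ⟨b, hb⟩ := hsurj
  have hb2 := b.2
  obtain ⟨U₀, hU₀, hb₀⟩ := hb2
  have hdir := (levS S).directed U hU U₀ hU₀
  obtain ⟨U', hU', hU'U, hU'U₀⟩ := hdir
  have := (levS S).normal U' hU'
  have := (levS S).finiteIndex U' hU'
  have hμ' : FixesMu p U' := fun s hs => hμ s (hU'U hs)
  have hinj := TS2_ups0_injective S hS
  have hex : ∀ s : U, ∃ a : Additive (UId S), ups0 S a = (s : GQ) • b.1 - b.1 := by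
    intro s
    have hx : (s : GQ) • (x : CSh S) = (x : CSh S) := (mem_inv.1 x.2) s s.2
    have h2 := TS3_abs1 (upsS S) (upsS_equivar S) b (x : CSh S) hb (s : GQ) hx
    obtain ⟨a, ha⟩ := h2
    exact ⟨a.1, congrArg Subtype.val ha⟩
  have h5 := TS3_core (ups0 S) (ups0_equivar S) hinj p U U' hU'U (TS3_h1 (p := p) S U' hU' hμ')
    b.1 (fun s hs => hb₀ s (hU'U₀ hs)) hex
  obtain ⟨m, hm, w, hwU', hy⟩ := h5
  refine ⟨m, hm, ⟨_, hy⟩, ?_⟩
  apply Subtype.ext
  refine TS3_abs2 (upsS S) (upsS_equivar S) b ⟨m • b.1 - ups0 S w, U, hU, hy⟩ (x : CSh S) hb m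
    (-⟨w, U', hU', hwU'⟩) ?_
  apply Subtype.ext
  show -(ups0 S w) = (m • b.1 - ups0 S w) - m • b.1
  abel

end

end Fermat.Agent.S55Lib
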