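import Fermat.Agent.S55.G3.LgCC
import Fermat.Agent.S55.G3.LgWpr
import Fermat.Agent.S55.G3.LgInc
import Fermat.Agent.S55.G3.CmPtors
import Fermat.Agent.S55.G3.TsTors

/-!
# S55, chapter G3, (LG8): local-global compatibility for `C♯` (root `G_LG`)
-/

set_option autoImplicit false
set_option linter.unusedSectionVars false
set_option linter.unusedVariables false

namespace Fermat.Agent.S55Lib

noncomputable section

open groupCohomology ExtCitation

/-- push-forward of 2-cocycles -/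
theorem LG8_coc {G A B : Type} [Group G] [AddCommGroup A] [DistribMulAction G A]
    [AddCommGroup B] [DistribMulAction G B] (ψ : A →+ B) (hψ : ∀ (g : G) a, ψ (g • a) = g • ψ a)
    (F : G × G → A) (hF : IsCocycle₂ F) : IsCocycle₂ (fun x => ψ (F x)) := by
  intro g h j
  show ψ (F (g * h, j)) + ψ (F (g, h)) = g • ψ (F (h, j)) + ψ (F (g, h * j))
  rw [← map_add, hF g h j, map_add, hψ]

/-- push-forward of 2-coboundaries -/
theorem LG8_cob {G A B : Type} [Group G] [AddCommGroup A] [DistribMulAction G A]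
    [AddCommGroup B] [DistribMulAction G B] (ψ : A →+ B) (hψ : ∀ (g : G) a, ψ (g • a) = g • ψ a)
    (F : G × G → A) (hF : IsCoboundary₂ F) : IsCoboundary₂ (fun x => ψ (F x)) := by
  obtain ⟨β, hβ⟩ := hF
  refine ⟨fun g => ψ (β g), fun g h => ?_⟩
  show g • ψ (β h) - ψ (β (g * h)) + ψ (β g) = ψ (F (g, h))
  rw [← hβ g h, map_add, map_sub, hψ]

theorem LG8_cob_smul {G A B : Type} [Group G] [AddCommGroup A] [DistribMulAction G A]
    [AddCommGroup B] [DistribMulAction G B] (ψ : A →+ B) (hψ : ∀ (g : G) a, ψ (g • a) = g • ψ a)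
    (n : ℕ) (F : G × G → A) (hF : IsCoboundary₂ (n • F)) :
    IsCoboundary₂ (n • fun x => ψ (F x)) := by
  have h1 := LG8_cob ψ hψ (n • F) hF
  have h2 : (fun x => ψ ((n • F) x)) = n • fun x => ψ (F x) := by
    funext x
    show ψ (n • F x) = n • ψ (F x)
    rw [map_nsmul]
  rwa [h2] at h1

/-- a bijective equivariant map reflects coboundaries -/
theorem LG8_cob_of_bij {G A B : Type} [Group G] [AddCommGroup A] [DistribMulAction G A]
    [AddCommGroup B] [DistribMulAction G B] (ψ : A →+ B) (hψ : ∀ (g : G) a, ψ (g • a) = g • ψ a)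
    (hb : Function.Bijective ψ) (F : G × G → A) (hF : IsCoboundary₂ (fun x => ψ (F x))) :
    IsCoboundary₂ F := by
  obtain ⟨β, hβ⟩ := hF
  choose γ hγ using fun g => hb.2 (β g)
  refine ⟨γ, fun g h => ?_⟩
  apply hb.1
  rw [map_add, map_sub, hψ, hγ, hγ, hγ]
  exact hβ g h

theorem LG8_congr {G A : Type} [Group G] [AddCommGroup A] [DistribMulAction G A]
    (F F' : G × G → A) (h : ∀ x, F' x = F x) (hF : IsCoboundary₂ F) : IsCoboundary₂ F' := by
  have : F' = F := funext h
  rw [this]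
  exact hF

variable {p : ℕ} [Fact p.Prime] (S : Finset Nat.Primes)

/-- (LG8) S55/G3/GLG.lean : **root** (verbatim W/Top.lean).
`f' := invMap U incS ∘ f`; `φ := invMap U jq ∘ f'` is a cocycle of `inv U AC` with `p φ ~ 0` and
`toCSh ∘ φ ~ 0` ((LG8a) + `h0`), so `φ ~ 0` by (CM9) (inputs as in (TS4): `upsU`, `toCSh`, (TS1),
(TS2), (TS3)); (LG7) gives `f' ~ 0`; (LG8b): `f ~ 0`. -/
theorem G_LG (hp2 : p ≠ 2) (hpS : pPrime p ∈ S) (U : Subgroup GQ) [U.Normal]
    (hU : U ∈ (levS S).mem) (hμ : FixesMu p U) (v : S)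
    (f : (GQ ⧸ U) × (GQ ⧸ U) → inv U (SCoind (rs S v) (Bs S v) (levS S))) (hf : IsCocycle₂ f)
    (hpf : IsCoboundary₂ (p • f))
    (h0 : IsCoboundary₂ (fun x => invMap U
      (Wpr (levS S) (Hs S) (rs S) (Bs S) (EA_smooth S) (fun v => lamq S v.1)
        (fun v => lamq_compat S v.1) (kapS S) v)
      (Wpr_equivar (levS S) (Hs S) (rs S) (Bs S) (EA_smooth S) (fun v => lamq S v.1)
        (fun v => lamq_compat S v.1) (kapS S) (kapS_equivar S) v) (f x))) :
    IsCoboundary₂ f := by
  have hS : S.Nonempty := ⟨_, hpS⟩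
  have hU' : U ∈ levAll.mem := levS_le_levAll S hU
  have hfinU := levAll.finiteIndex U hU'
  have hfin : Finite (GQ ⧸ U) := Subgroup.finite_quotient_of_finiteIndex
  have e1 := invMap_smul U (incS S v) (incS_equivar S v)
  have e2 := invMap_smul U (jq v.1) (jq_equivar v.1)
  have hf' := LG8_coc (invMap U (incS S v) (incS_equivar S v)) e1 f hf
  have hpf' := LG8_cob_smul (invMap U (incS S v) (incS_equivar S v)) e1 p f hpf
  have hφ := LG8_coc (invMap U (jq v.1) (jq_equivar v.1)) e2 _ hf'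
  have hpφ := LG8_cob_smul (invMap U (jq v.1) (jq_equivar v.1)) e2 p _ hpf'
  have h0' : IsCoboundary₂ (fun x => toCSh S U hU (invMap U (jq v.1) (jq_equivar v.1)
      (invMap U (incS S v) (incS_equivar S v) (f x)))) :=
    LG8_congr _ _ (fun x => (Wpr_eq_toCSh S U hU v (f x)).symm) h0
  have hW := hlayer0_UId (p := p) S U hU hμ
  have hφ0 := h2_ptors_transfer p (upsU S U) (toCSh S U hU) (upsU_equivar S U)
    (toCSh_equivar S U hU) (upsU_injective S hS U) (toCSh_eq_zero_iff S hS U hU)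
    (exists_smul_mem_image (p := p) S hpS U hU hμ) hW _ hφ hpφ h0'
  have hf0 := LG_CC p hp2 v.1 U hU' hμ _ hf' hpf' hφ0
  exact LG8_cob_of_bij (invMap U (incS S v) (incS_equivar S v)) e1
    (invMap_incS_bijective S U hU v) f hf0

end

end Fermat.Agent.S55Lib
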