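import Fermat.Agent.S55.G3.ArtDefs
import Fermat.Agent.S55.W.Arith

/-!
# S55, chapter G3: from the full idele class module to `C♯ = CSh S` — definitions
-/

set_option autoImplicit false
set_option linter.unusedSectionVars false
set_option linter.unusedVariables false

namespace Fermat.Agent.S55Lib

noncomputable section

variable (S : Finset Nat.Primes)

/-- `U^S → C`, all levels -/
def ups0 : Additive (UId S) →+ AC where
  toFun w := acMk ((Additive.toMul w : UId S) : JJ)
  map_zero' := rfl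
  map_add' _ _ := rfl

lemma ups0_equivar : Equivar GQ (ups0 S) := fun _ _ => rfl

/-- `U^S(L) → C(L)`, `U = U_L` -/
def upsU (U : Subgroup GQ) : inv U (Additive (UId S)) →+ inv U AC :=
  invMap U (ups0 S) (ups0_equivar S)

/-- `C(L) → C♯` -/
def toCSh0 (U : Subgroup GQ) (hU : U ∈ (levS S).mem) : inv U AC →+ CSh S where
  toFun c := WCoker.mk GQ (upsS S) (upsS_equivar S) ⟨(c : AC), U, hU, c.2⟩
  map_zero' := rfl
  map_add' _ _ := rfl

lemma toCSh0_mem (U : Subgroup GQ) (hU : U ∈ (levS S).mem) (c : inv U AC) :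
    toCSh0 S U hU c ∈ inv U (CSh S) := by
  intro s hs
  have h : s • (c : AC) = (c : AC) := c.2 s hs
  have h2 : s • (⟨(c : AC), U, hU, c.2⟩ : CCS S) = ⟨(c : AC), U, hU, c.2⟩ := Subtype.ext h
  exact congrArg (WCoker.mk GQ (upsS S) (upsS_equivar S)) h2

/-- `C(L) → (C♯)^{U_L}` -/
def toCSh (U : Subgroup GQ) (hU : U ∈ (levS S).mem) : inv U AC →+ inv U (CSh S) where
  toFun c := ⟨toCSh0 S U hU c, toCSh0_mem S U hU c⟩
  map_zero' := rfl
  map_add' _ _ := rfl

end

end Fermat.Agent.S55Lib
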