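import Fermat.Agent.S55.RootDefs
import Fermat.Agent.S55.L.InfRes

/-!
# S55, chapter G3 (abstract part): inflation-restriction in degree 2 (on cochains)

`0 → H²(G/N, A^N) → H²(G, A) → H²(N, A)` is exact if `H¹(N, A) = 0`.
-/

set_option autoImplicit false

namespace Fermat.Agent.S55Lib

open groupCohomology

variable {G : Type} [Group G] {A : Type} [AddCommGroup A] [DistribMulAction G A]

/-- inflation of 1-cochains -/
def infl1 (N : Subgroup G) [N.Normal] (f : G ⧸ N → inv N A) : G → A :=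
  fun x => (f (x : G ⧸ N) : A)

/-- inflation of 2-cochains -/
def infl2 (N : Subgroup G) [N.Normal] (f : (G ⧸ N) × (G ⧸ N) → inv N A) : G × G → A :=
  fun x => (f ((x.1 : G ⧸ N), (x.2 : G ⧸ N)) : A)

/-- (IR0) -/
theorem infl2_isCocycle (N : Subgroup G) [N.Normal] {f : (G ⧸ N) × (G ⧸ N) → inv N A}
    (hf : IsCocycle₂ f) : IsCocycle₂ (infl2 N f) := by
  intro g h j
  exact congrArg Subtype.val (hf (g : G ⧸ N) (h : G ⧸ N) (j : G ⧸ N))

/-- (IR0') -/
theorem infl2_isCoboundary (N : Subgroup G) [N.Normal] {f : (G ⧸ N) × (G ⧸ N) → inv N A}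
    (hf : IsCoboundary₂ f) : IsCoboundary₂ (infl2 N f) := by
  obtain ⟨x, hx⟩ := hf
  exact ⟨fun g => (x (g : G ⧸ N) : A), fun g h =>
    congrArg Subtype.val (hx (g : G ⧸ N) (h : G ⧸ N))⟩

/-- (IR1) inflation is injective on `H¹` (no hypothesis). -/
theorem infl1_injective (N : Subgroup G) [N.Normal] {f : G ⧸ N → inv N A}
    (hb : IsCoboundary₁ (infl1 N f)) : IsCoboundary₁ f := by
  obtain ⟨a, ha⟩ := hb
  have hf1 : ∀ n ∈ N, ((n : G) : G ⧸ N) = 1 := fun n hn => (QuotientGroup.eq_one_iff n).2 hn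
  have h1 : (f 1 : A) = 0 := by
    have := ha 1
    simpa [infl1] using this.symm
  have haN : a ∈ inv N A := by
    intro n hn
    have := ha n
    simp only [infl1, hf1 n hn, h1] at this
    exact sub_eq_zero.1 this
  refine ⟨⟨a, haN⟩, fun g => ?_⟩
  induction g using QuotientGroup.induction_on with
  | H g => exact Subtype.ext (ha g)

lemma IR_ker_h1 (N : Subgroup G) [N.Normal]
    (h1 : ∀ f : N → A, IsCocycle₁ f → IsCoboundary₁ f) :
    ∀ f : (QuotientGroup.mk' N).ker → A, IsCocycle₁ f → IsCoboundary₁ f := by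
  rw [QuotientGroup.ker_mk' N]
  exact h1

lemma IR_img (N : Subgroup G) [N.Normal] (a : A)
    (h : ∀ ν ∈ (QuotientGroup.mk' N).ker, ν • a = a) : ∃ b : inv N A, (inv N A).subtype b = a := by
  rw [QuotientGroup.ker_mk' N] at h
  exact ⟨⟨a, h⟩, rfl⟩

/-- (IR1') `H¹(G,A) = 0` from `H¹(N,A) = 0` and `H¹(G/N,A^N) = 0`. -/
theorem h1_of_infl_res (N : Subgroup G) [N.Normal]
    (h1 : ∀ f : N → A, IsCocycle₁ f → IsCoboundary₁ f)
    (h1' : ∀ f : G ⧸ N → inv N A, IsCocycle₁ f → IsCoboundary₁ f)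
    (f : G → A) (hf : IsCocycle₁ f) : IsCoboundary₁ f := by
  obtain ⟨y, hy⟩ := h1 (fun ν => f (ν : G)) (fun a b => hf a b)
  obtain ⟨f₂, hdef₂⟩ : ∃ f₂ : G → A, ∀ g, f₂ g = f g - (g • y - y) := ⟨_, fun _ => rfl⟩
  have hf₂ : IsCocycle₁ f₂ := by
    intro a b
    rw [hdef₂, hdef₂, hdef₂, hf, mul_smul, smul_sub, smul_sub]; abel
  have hk₂ : ∀ ν ∈ N, f₂ ν = 0 := by
    intro ν hν
    have := hy ⟨ν, hν⟩
    rw [hdef₂, sub_eq_zero]; exact this.symm
  have hr : ∀ g : G, ∀ ν ∈ N, f₂ (g * ν) = f₂ g := by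
    intro g ν hν
    rw [hf₂, hk₂ ν hν, smul_zero, zero_add]
  have hinv : ∀ g : G, f₂ g ∈ inv N A := by
    intro g ν hν
    have hn : g⁻¹ * ν * g ∈ N := by
      have := (inferInstance : N.Normal).conj_mem ν hν g⁻¹
      simpa using this
    have e1 : f₂ (ν * g) = ν • f₂ g := by rw [hf₂, hk₂ ν hν, add_zero]
    have e3 : g * (g⁻¹ * ν * g) = ν * g := by group
    rw [← e1, ← e3, hr g _ hn]
  let F : G ⧸ N → inv N A := fun x => Quotient.liftOn' x (fun g => (⟨f₂ g, hinv g⟩ : inv N A))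
    (fun a b hab => by
      have h1 : a⁻¹ * b ∈ N := QuotientGroup.leftRel_apply.1 hab
      apply Subtype.ext
      show f₂ a = f₂ b
      rw [← hr a _ h1]
      congr 1
      group)
  have hF : ∀ g : G, (F (g : G ⧸ N) : A) = f₂ g := fun g => rfl
  have hFc : IsCocycle₁ F := by
    intro a b
    induction a using QuotientGroup.induction_on with
    | H a =>
      induction b using QuotientGroup.induction_on with
      | H b => exact Subtype.ext (hf₂ a b)
  obtain ⟨d, hd⟩ := h1' F hFc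
  refine ⟨y + d, fun g => ?_⟩
  have h2 : g • (d : A) - d = f₂ g := congrArg Subtype.val (hd (g : G ⧸ N))
  rw [hdef₂] at h2
  rw [smul_add]
  have : f g = (g • (d : A) - d) + (g • y - y) := by rw [h2]; abel
  rw [this]; abel

/-- (IR2) **inflation is injective on `H²`** if `H¹(N,A) = 0`. -/
theorem infl2_injective (N : Subgroup G) [N.Normal]
    (h1 : ∀ f : N → A, IsCocycle₁ f → IsCoboundary₁ f)
    {f : (G ⧸ N) × (G ⧸ N) → inv N A} (hf : IsCocycle₂ f) (hb : IsCoboundary₂ (infl2 N f)) :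
    IsCoboundary₂ f :=
  inf_injective (QuotientGroup.mk' N) (QuotientGroup.mk'_surjective N) (inv N A).subtype
    Subtype.val_injective (fun _ _ => rfl) (IR_img N) (IR_ker_h1 N h1) f hf hb

/-- (IR3) **exactness in the middle**. -/
theorem infl2_res_exact (N : Subgroup G) [N.Normal]
    (h1 : ∀ f : N → A, IsCocycle₁ f → IsCoboundary₁ f)
    {f : G × G → A} (hf : IsCocycle₂ f)
    (hres : IsCoboundary₂ (fun x : N × N => f ((x.1 : G), (x.2 : G)))) :
    ∃ f' : (G ⧸ N) × (G ⧸ N) → inv N A, IsCocycle₂ f' ∧ IsCoboundary₂ (f - infl2 N f') := by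
  have hres' : IsCoboundary₂ (resC (QuotientGroup.mk' N).ker f) := by
    rw [QuotientGroup.ker_mk' N]
    exact hres
  exact infRes_descend (QuotientGroup.mk' N) (QuotientGroup.mk'_surjective N) (inv N A).subtype
    Subtype.val_injective (fun _ _ => rfl) (IR_img N) (IR_ker_h1 N h1) f hf hres'

end Fermat.Agent.S55Lib
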