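import Fermat.Agent.S55.G3.Carry
import Fermat.Agent.S55.G3.InfRes
import Fermat.Agent.S55.L.LayerAbs
import Fermat.Agent.S55.L.ClassOrd
import Fermat.Agent.S55.L.Transport
import Fermat.Agent.S55.B.Norm

/-!
# S55, chapter G3 (abstract part): manipulating class modules
-/

set_option autoImplicit false
set_option linter.unusedSectionVars false
set_option linter.unusedVariables false

namespace Fermat.Agent.S55Lib

open groupCohomology

/-- the hypothesis `hlayer` of `pgroup_devissage` (verbatim) -/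
def HLayer (p : ℕ) (G : Type) [Group G] (C : Type) [AddCommGroup C] [DistribMulAction G C] :
    Prop :=
  ∀ (H H' : Subgroup G), IsPGroup p H → H' ≤ H → (H'.subgroupOf H).Normal →
      H'.relIndex H = p → ∀ s ∈ H, s ∉ H' →
      (∀ c ∈ inv H' C, (∑ i ∈ Finset.range p, s ^ i • c) = 0 → ∃ d ∈ inv H' C, c = s • d - d) ∧
      (∃ c0 ∈ inv H C, ∀ c ∈ inv H C, ∃ k : ℤ, ∃ d ∈ inv H' C,
        c = k • c0 + ∑ i ∈ Finset.range p, s ^ i • d)

/-- all cyclic layers of order `p` are cohomologically trivial -/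
def HLayer0 (p : ℕ) (G : Type) [Group G] (W : Type) [AddCommGroup W] [DistribMulAction G W] :
    Prop :=
  ∀ (H H' : Subgroup G), IsPGroup p H → H' ≤ H → (H'.subgroupOf H).Normal →
      H'.relIndex H = p → ∀ s ∈ H, s ∉ H' →
      (∀ c ∈ inv H' W, (∑ i ∈ Finset.range p, s ^ i • c) = 0 → ∃ d ∈ inv H' W, c = s • d - d) ∧
      (∀ c ∈ inv H W, ∃ d ∈ inv H' W, c = ∑ i ∈ Finset.range p, s ^ i • d)

/-- the conclusion of `pgroup_devissage` -/
def DevOut (p : ℕ) (G : Type) [Group G] (C : Type) [AddCommGroup C] [DistribMulAction G C] :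
    Prop :=
  ∀ H : Subgroup G, IsPGroup p H →
      (∀ f : H → C, IsCocycle₁ f → IsCoboundary₁ f) ∧
      (Finite (H2 H C) ∧ Nat.card (H2 H C) ≤ Nat.card H)

/-- an additive character as a monoid homomorphism -/
def C6_hom {G : Type} [Group G] {n : ℕ} (χ : G → ZMod n) (hχ : ∀ g h, χ (g * h) = χ g + χ h) :
    G →* Multiplicative (ZMod n) :=
  MonoidHom.mk' (fun g => Multiplicative.ofAdd (χ g)) (fun a b => by rw [hχ]; rfl)

/-- `carry = cyc` -/
lemma C6_carry_eq_cyc {G : Type} [Group G] {A : Type} [AddCommGroup A] [DistribMulAction G A]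
    (n : ℕ) [NeZero n]
    (χ : G → ZMod n) (hχ : ∀ g h, χ (g * h) = χ g + χ h) (c : A) :
    carry n χ c = cyc n (C6_hom χ hχ) c := by
  funext x
  obtain ⟨g, h⟩ := x
  rw [cyc_eq]
  show (((χ g).val + (χ h).val) / n) • c = if n ≤ (χ g).val + (χ h).val then c else 0
  have h1 := ZMod.val_lt (χ g)
  have h2 := ZMod.val_lt (χ h)
  split_ifs with hle
  · have : ((χ g).val + (χ h).val) / n = 1 := by
      rw [Nat.div_eq_iff (by omega)]
      omega
    rw [this, one_smul]
  · rw [Nat.div_eq_of_lt (by omega), zero_smul]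

/-- cocycles of a trivial group -/
lemma C6_triv₂ {P : Type} [Group P] [Subsingleton P] {C : Type} [AddCommGroup C]
    [DistribMulAction P C] (c : P × P → C) : IsCoboundary₂ c := by
  refine ⟨fun _ => c (1, 1), fun g h => ?_⟩
  have h1 : g = 1 := Subsingleton.elim _ _
  have h2 : h = 1 := Subsingleton.elim _ _
  rw [h1, h2]
  simp

variable {G : Type} [Group G] [Finite G]

/-- (C6) every 2-cocycle of a finite cyclic group `⟨t⟩` (order `e`) is cohomologous to a carry
cocycle: `c = ∑_{i<e} f (t^i, t)`, `β (t^i) = ∑_{j<i} f (t^j, t)` (`0 ≤ i < e`). -/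
theorem cyclic_cocycle_eq_carry {A : Type} [AddCommGroup A] [DistribMulAction G A]
    (n : ℕ) [NeZero n] (χ : G → ZMod n) (hχ : ∀ g h, χ (g * h) = χ g + χ h)
    (hbij : Function.Bijective χ) (f : G × G → A) (hf : IsCocycle₂ f) :
    ∃ c : A, (∀ g : G, g • c = c) ∧ IsCoboundary₂ (f - carry n χ c) := by
  obtain ⟨σ, hσ⟩ := hbij.2 ((1 : ℕ) : ZMod n)
  have hsub : Subsingleton (C6_hom χ hχ).ker := by
    refine ⟨fun a b => Subtype.ext (hbij.1 ?_)⟩
    have ha : χ (a : G) = 0 := Multiplicative.ofAdd.injective a.2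
    have hb : χ (b : G) = 0 := Multiplicative.ofAdd.injective b.2
    rw [ha, hb]
  obtain ⟨c, hc, hcob⟩ := exists_cyc_of_res_ker n (C6_hom χ hχ) σ hσ DV_triv.1 f hf (C6_triv₂ _)
  exact ⟨c, hc, by rw [C6_carry_eq_cyc n χ hχ]; exact hcob⟩

theorem CM4_main (p : ℕ) [Fact p.Prime]
    {C : Type} [AddCommGroup C] [DistribMulAction G C]
    (hlayer : HLayer0 p G C) :
    ∀ (n : ℕ) (P : Type) [Group P] [Finite P] [DistribMulAction P C] (ι : P →* G),
      Function.Injective ι → (∀ (x : P) (c : C), x • c = ι x • c) → IsPGroup p P →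
      Nat.card P = n →
      (∀ f : P → C, IsCocycle₁ f → IsCoboundary₁ f) ∧
      (∀ f : P × P → C, IsCocycle₂ f → IsCoboundary₂ f) := by
  intro n
  induction n using Nat.strong_induction_on with
  | _ n ih =>
  intro P _ _ _ ι hι hact hP hn
  have hpp : p.Prime := Fact.out
  obtain ⟨k, hk⟩ := IsPGroup.iff_card.1 hP
  rcases Nat.eq_zero_or_pos k with rfl | hkpos
  · rw [pow_zero] at hk
    have : Subsingleton P := (Nat.card_eq_one_iff_unique.1 hk).1
    exact ⟨DV_triv.1, fun f _ => C6_triv₂ f⟩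
  obtain ⟨K, hK⟩ := Sylow.exists_subgroup_card_pow_prime (G := P) p (n := k - 1)
    (by rw [hk]; exact pow_dvd_pow p (Nat.sub_le k 1))
  have hpk : p ^ k = p ^ (k - 1) * p := by
    rw [← pow_succ]; congr 1; omega
  have hidx : K.index = p := by
    have h := K.card_mul_index
    rw [hK, hk, hpk] at h
    exact Nat.eq_of_mul_eq_mul_left (pow_pos hpp.pos _) h
  have hKn : K.Normal := by
    apply Subgroup.normal_of_index_eq_minFac_card
    rw [hidx, hk, hpp.pow_minFac (by omega)]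
  have hq : Nat.card (P ⧸ K) = p := hidx
  have hz : Nat.card (Multiplicative (ZMod p)) = p := by
    rw [Nat.card_eq_fintype_card]
    simp [ZMod.card]
  let e : P ⧸ K ≃* Multiplicative (ZMod p) := mulEquivOfPrimeCardEq hq hz
  let χ : P →* Multiplicative (ZMod p) := e.toMonoidHom.comp (QuotientGroup.mk' K)
  have hχK : χ.ker = K := by
    ext x
    rw [MonoidHom.mem_ker]
    show e (QuotientGroup.mk' K x) = 1 ↔ _
    rw [map_eq_one_iff e e.injective]
    exact QuotientGroup.eq_one_iff x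
  obtain ⟨s, hs⟩ : ∃ s : P, Multiplicative.toAdd (χ s) = ((1 : ℕ) : ZMod p) := by
    obtain ⟨y, hy⟩ := e.surjective (Multiplicative.ofAdd ((1 : ℕ) : ZMod p))
    obtain ⟨s, rfl⟩ := QuotientGroup.mk'_surjective K y
    exact ⟨s, by show Multiplicative.toAdd (e _) = _; rw [hy]; rfl⟩
  have hcardker : Nat.card χ.ker = p ^ (k - 1) := by rw [hχK]; exact hK
  have hlt : Nat.card χ.ker < n := by
    rw [hcardker, ← hn, hk]
    exact Nat.pow_lt_pow_right hpp.one_lt (by omega)
  obtain ⟨ih1, ih2⟩ := ih (Nat.card χ.ker) hlt χ.ker (ι.comp χ.ker.subtype)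
    (hι.comp Subtype.val_injective) (fun x c => hact (x : P) c) (hP.to_subgroup χ.ker) rfl
  have hsk : s ∉ χ.ker := by
    intro h
    rw [MonoidHom.mem_ker] at h
    rw [h] at hs
    have h1 : ((1 : ℕ) : ZMod p) = 0 := hs.symm
    rw [ZMod.natCast_eq_zero_iff] at h1
    exact hpp.one_lt.ne' (Nat.dvd_one.1 h1)
  have hinvK : ∀ c : C, c ∈ inv (χ.ker.map ι) C ↔ ∀ ν ∈ χ.ker, ν • c = c := by
    intro c
    constructor
    · intro h ν hν
      rw [hact]; exact h _ ⟨ν, hν, rfl⟩
    · rintro h _ ⟨ν, hν, rfl⟩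
      rw [← hact]; exact h ν hν
  have hinvP : ∀ c : C, c ∈ inv ι.range C ↔ ∀ g : P, g • c = c := by
    intro c
    constructor
    · intro h g
      rw [hact]; exact h _ ⟨g, rfl⟩
    · rintro h _ ⟨g, rfl⟩
      rw [← hact]; exact h g
  have hpow : ∀ (i : ℕ) (c : C), ι s ^ i • c = s ^ i • c := by
    intro i c
    rw [← map_pow, ← hact]
  obtain ⟨L1, L2⟩ := hlayer ι.range (χ.ker.map ι) (hP.of_equiv (MonoidHom.ofInjective hι))
    (Subgroup.map_le_range ι χ.ker)
    (by
      refine ⟨fun x hx g => ?_⟩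
      obtain ⟨g, g', rfl⟩ := g
      obtain ⟨ν, hν, hνx⟩ := Subgroup.mem_subgroupOf.1 hx
      rw [Subgroup.mem_subgroupOf]
      refine ⟨g' * ν * g'⁻¹, (inferInstance : χ.ker.Normal).conj_mem ν hν g', ?_⟩
      simp [hνx])
    (by
      rw [MonoidHom.range_eq_map, Subgroup.relIndex_map_map_of_injective _ _ hι,
        Subgroup.relIndex_top_right, hχK, hidx])
    (ι s) ⟨s, rfl⟩
    (by
      rintro ⟨ν, hν, h⟩
      exact hsk (hι h ▸ hν))
  have h1P := DV_h1 p χ s hs ih1 (by
    intro c hc hN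
    obtain ⟨d, hd, hcd⟩ := L1 c ((hinvK c).2 hc) (by simp only [hpow]; exact hN)
    exact ⟨d, (hinvK d).1 hd, by rw [hcd, ← hact]⟩)
  refine ⟨h1P, fun f hf => ?_⟩
  have hres : IsCoboundary₂ (resC χ.ker f) := ih2 _ (fun a b c => hf a b c)
  obtain ⟨a, ha, hca⟩ := exists_cyc_of_res_ker p χ s hs ih1 f hf hres
  obtain ⟨d, hd, had⟩ := L2 a ((hinvP a).2 ha)
  have hcb := C2_cob_of_norm p χ p 1 (mul_one p) s hs (DV_gen p χ s hs) d ((hinvK d).1 hd)
  have e : f = (f - cyc p χ a) + cyc p χ (∑ i ∈ Finset.range p, s ^ i • d) := by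
    rw [had]
    simp only [hpow]
    abel
  rw [e]
  exact (B2 P C).add_mem hca hcb

/-- (CM4) dévissage for cohomologically trivial layers.  Induction on `|H|`: `H' ◁ H` of index `p`
(`IsPGroup`: a maximal subgroup is normal of index `p`), `h1_of_infl_res`, `infl2_res_exact`,
(C6) for `H/H'` acting on `W^{H'}` and `carry_cob_of_norm`. -/
theorem ct_devissage (p : ℕ) [Fact p.Prime] {W : Type} [AddCommGroup W] [DistribMulAction G W]
    (h : HLayer0 p G W) (H : Subgroup G) (hH : IsPGroup p H) :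
    (∀ f : H → W, IsCocycle₁ f → IsCoboundary₁ f) ∧
    (∀ f : H × H → W, IsCocycle₂ f → IsCoboundary₂ f) :=
  CM4_main p h (Nat.card H) H H.subtype Subtype.val_injective (fun _ _ => rfl) hH rfl

/-- (CM1) class module from dévissage + a cocycle whose restrictions have full order:
`H²(H,C)` has at most `|H|` elements and contains `[u|H]` of order `≥ |H|`. -/
theorem cm_of_ord (p : ℕ) [Fact p.Prime] {C : Type} [AddCommGroup C] [DistribMulAction G C]
    (hdev : DevOut p G C) (u : G × G → C) (hu : IsCocycle₂ u)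
    (hord : ∀ H : Subgroup G, IsPGroup p H → ∀ k : ℤ,
      IsCoboundary₂ (k • fun x : H × H => u ((x.1 : G), (x.2 : G))) → (Nat.card H : ℤ) ∣ k) :
    IsClassModule p G C u :=
  isClassModule_of_ord p u hu hdev hord

omit [Finite G] in
/-- `H = ⋃ sⁱ H'` -/
lemma CM3_gen (p : ℕ) [Fact p.Prime] (H H' : Subgroup G) (hle : H' ≤ H)
    (hn : (H'.subgroupOf H).Normal) (hidx : H'.relIndex H = p) (s : G) (hs : s ∈ H)
    (hs' : s ∉ H') : ∀ h ∈ H, ∃ i : ℕ, (s ^ i)⁻¹ * h ∈ H' := by
  obtain ⟨χ, hχker, hχs⟩ := G3_exists_chi p (H'.subgroupOf H) hidx ⟨s, hs⟩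
    (by rw [Subgroup.mem_subgroupOf]; exact hs')
  intro h hh
  have := DV_dec p χ ⟨s, hs⟩ hχs ⟨h, hh⟩
  rw [hχker, Subgroup.mem_subgroupOf] at this
  exact ⟨_, this⟩

omit [Finite G] in
/-- the norm of a layer lands in the invariants -/
lemma CM3_norm_mem (p : ℕ) [Fact p.Prime] {C : Type} [AddCommGroup C] [DistribMulAction G C]
    (H H' : Subgroup G) (hle : H' ≤ H)
    (hn : (H'.subgroupOf H).Normal) (hidx : H'.relIndex H = p) (s : G) (hs : s ∈ H)
    (hs' : s ∉ H') (c : C) (hc : c ∈ inv H' C) :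
    ∑ i ∈ Finset.range p, s ^ i • c ∈ inv H C := by
  rw [← nrm_cyclic hle hs hidx (CM3_gen p H H' hle hn hidx s hs hs') hc]
  exact nrm_mem_inv (by rw [hidx]; exact (Fact.out : p.Prime).ne_zero) hc

section Quot

variable {C Cb W : Type} [AddCommGroup C] [DistribMulAction G C] [AddCommGroup Cb]
  [DistribMulAction G Cb] [AddCommGroup W] [DistribMulAction G W]
  (ι : W →+ C) (π : C →+ Cb) (eι : ∀ (g : G) w, ι (g • w) = g • ι w)
  (eπ : ∀ (g : G) c, π (g • c) = g • π c) (hι : Function.Injective ι)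
  (hπ : Function.Surjective π) (hex : ∀ c, π c = 0 ↔ ∃ w, ι w = c)

include eι eπ hι hπ hex

/-- (CM6) invariants lift if `H¹(H,W) = 0` -/
theorem inv_lift (H : Subgroup G) (h1 : ∀ f : H → W, IsCocycle₁ f → IsCoboundary₁ f)
    (cb : Cb) (hcb : cb ∈ inv H Cb) : ∃ c ∈ inv H C, π c = cb := by
  obtain ⟨c, rfl⟩ := hπ cb
  have hw : ∀ h : H, ∃ w, ι w = (h : G) • c - c := fun h =>
    (hex _).1 (by rw [map_sub, eπ, hcb h h.2, sub_self])
  choose f hf using hw
  have hcoc : IsCocycle₁ f := by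
    intro a b
    apply hι
    have e : ι (a • f b) = (a : G) • ι (f b) := eι (a : G) (f b)
    rw [map_add, e, hf, hf, hf, Subgroup.coe_mul, mul_smul, smul_sub]
    abel
  obtain ⟨w, hw⟩ := h1 f hcoc
  refine ⟨c - ι w, ?_, ?_⟩
  · intro h hh
    have h2 : ι (h • w - w) = h • c - c := by
      have := hw ⟨h, hh⟩
      rw [← hf ⟨h, hh⟩, ← this]
      rfl
    rw [map_sub, eι] at h2
    rw [smul_sub]
    have : h • c = (h • ι w - ι w) + c := by rw [h2]; abel
    rw [this]; abel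
  · rw [map_sub, (hex _).2 ⟨w, rfl⟩, sub_zero]

/-- (CM3) -/
theorem hlayer_transfer (p : ℕ) [Fact p.Prime] (hC : HLayer p G C) (hW : HLayer0 p G W) :
    HLayer p G Cb := by
  intro H H' hH hle hn hidx s hs hs'
  obtain ⟨C1, c0, hc0, C2⟩ := hC H H' hH hle hn hidx s hs hs'
  obtain ⟨-, W2⟩ := hW H H' hH hle hn hidx s hs hs'
  have hH' : IsPGroup p H' := hH.to_le hle
  have hπinv : ∀ (K : Subgroup G) (c : C), c ∈ inv K C → π c ∈ inv K Cb := by
    intro K c hc k hk
    rw [← eπ, hc k hk]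
  have hπsum : ∀ d : C, π (∑ i ∈ Finset.range p, s ^ i • d) =
      ∑ i ∈ Finset.range p, s ^ i • π d := by
    intro d
    rw [map_sum]
    exact Finset.sum_congr rfl fun i _ => eπ _ _
  have hιsum : ∀ d : W, ι (∑ i ∈ Finset.range p, s ^ i • d) =
      ∑ i ∈ Finset.range p, s ^ i • ι d := by
    intro d
    rw [map_sum]
    exact Finset.sum_congr rfl fun i _ => eι _ _
  refine ⟨?_, π c0, hπinv H c0 hc0, ?_⟩
  · intro cb hcb hN
    obtain ⟨c, hc, rfl⟩ := inv_lift ι π eι eπ hι hπ hex H' (ct_devissage p hW H' hH').1 cb hcb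
    rw [← hπsum] at hN
    obtain ⟨w, hw⟩ := (hex _).1 hN
    have hwH : w ∈ inv H W := by
      intro h hh
      apply hι
      rw [eι, hw]
      exact CM3_norm_mem p H H' hle hn hidx s hs hs' c hc h hh
    obtain ⟨w', hw', hww'⟩ := W2 w hwH
    have hιw' : ι w' ∈ inv H' C := by
      intro k hk
      rw [← eι, hw' k hk]
    have h0 : ∑ i ∈ Finset.range p, s ^ i • (c - ι w') = 0 := by
      simp only [smul_sub, Finset.sum_sub_distrib]
      rw [← hιsum, ← hww', hw, sub_self]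
    obtain ⟨d, hd, hcd⟩ := C1 (c - ι w') ((inv H' C).sub_mem hc hιw') h0
    refine ⟨π d, hπinv H' d hd, ?_⟩
    have := congrArg π hcd
    rw [map_sub, (hex _).2 ⟨w', rfl⟩, sub_zero, map_sub, eπ] at this
    exact this
  · intro cb hcb
    obtain ⟨c, hc, rfl⟩ := inv_lift ι π eι eπ hι hπ hex H (ct_devissage p hW H hH).1 cb hcb
    obtain ⟨k, d, hd, hcd⟩ := C2 c hc
    refine ⟨k, π d, hπinv H' d hd, ?_⟩
    rw [hcd, map_add, map_zsmul, hπsum]

/-- (CM2) the order of the restrictions of `u` does not drop in `C/W` (uses `H²(H,W) = 0`):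
`k • π∘u|H = d βb`; lift `βb` to `β : H → C`; `k • u|H - dβ` is a 2-cocycle with values in `W`. -/
theorem h2ord_transfer (p : ℕ) [Fact p.Prime] (hW : HLayer0 p G W) (u : G × G → C)
    (hu : IsCocycle₂ u)
    (hord : ∀ H : Subgroup G, IsPGroup p H → ∀ k : ℤ,
      IsCoboundary₂ (k • fun x : H × H => u ((x.1 : G), (x.2 : G))) → (Nat.card H : ℤ) ∣ k) :
    ∀ H : Subgroup G, IsPGroup p H → ∀ k : ℤ,
      IsCoboundary₂ (k • fun x : H × H => π (u ((x.1 : G), (x.2 : G)))) → (Nat.card H : ℤ) ∣ k := by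
  intro H hH k hk
  apply hord H hH k
  obtain ⟨βb, hβb⟩ := hk
  choose β hβ using fun h : H => hπ (βb h)
  -- the difference has values in `W`
  have hval : ∀ g h : H, ∃ w, ι w = k • u ((g : G), (h : G)) - (g • β h - β (g * h) + β g) := by
    intro g h
    apply (hex _).1
    have e : π (g • β h) = g • π (β h) := eπ (g : G) (β h)
    rw [map_sub, map_add, map_sub, e, hβ, hβ, hβ, hβb g h, map_zsmul]
    simp
  choose f hf using hval
  have hfc : IsCocycle₂ (fun x : H × H => f x.1 x.2) := by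
    intro a b c
    apply hι
    have e : ι (a • f b c) = (a : G) • ι (f b c) := eι (a : G) (f b c)
    show ι (f (a * b) c + f a b) = ι (a • f b c + f a (b * c))
    rw [map_add, map_add, e, hf, hf, hf, hf]
    have h3 := hu (a : G) (b : G) (c : G)
    have h4 : k • u ((a : G) * (b : G), (c : G)) + k • u ((a : G), (b : G)) =
        (a : G) • (k • u ((b : G), (c : G))) + k • u ((a : G), (b : G) * (c : G)) := by
      rw [smul_comm (a : G) k, ← smul_add, ← smul_add, h3]
    have e1 : (a : G) • (b • β c) = (a * b) • β c := by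
      show (a : G) • ((b : G) • β c) = ((a : G) * (b : G)) • β c
      rw [mul_smul]
    have e2 : ∀ y : C, a • y = (a : G) • y := fun y => rfl
    simp only [Subgroup.coe_mul, smul_sub, smul_add, e1, e2, mul_assoc] at h4 ⊢
    rw [← sub_eq_zero] at h4 ⊢
    rw [← h4]
    abel
  obtain ⟨γ, hγ⟩ := (ct_devissage p hW H hH).2 _ hfc
  refine ⟨fun h => β h + ι (γ h), fun g h => ?_⟩
  have e : ι (g • γ h) = g • ι (γ h) := eι (g : G) (γ h)
  have h5 := congrArg ι (hγ g h)
  simp only [map_add, map_sub, e] at h5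
  rw [hf] at h5
  show g • (β h + ι (γ h)) - (β (g * h) + ι (γ (g * h))) + (β g + ι (γ g)) =
    k • u ((g : G), (h : G))
  rw [smul_add]
  have : k • u ((g : G), (h : G)) = (g • ι (γ h) - ι (γ (g * h)) + ι (γ g)) +
      (g • β h - β (g * h) + β g) := by rw [h5]; abel
  rw [this]; abel

end Quot

lemma CM7_bezout {X : Type*} [AddCommGroup X] (S : AddSubgroup X) (f v : X) (m N : ℕ) (j : ℤ)
    (h : m.Coprime N) (h1 : m • f - j • v ∈ S) (h2 : N • f ∈ S) :
    f - (m.gcdA N * j) • v ∈ S := by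
  have hb := Nat.gcd_eq_gcd_ab m N
  rw [h] at hb
  have e : f - (m.gcdA N * j) • v = (m.gcdA N) • (m • f - j • v) + (m.gcdB N) • (N • f) := by
    have e1 : f = ((m : ℤ) * m.gcdA N + (N : ℤ) * m.gcdB N) • f := by
      rw [← hb]; simp
    rw [smul_sub, ← natCast_zsmul f m, ← natCast_zsmul f N, smul_smul, smul_smul, smul_smul]
    conv_lhs => rw [e1]
    rw [add_smul, mul_comm (m : ℤ), mul_comm (N : ℤ)]
    abel
  rw [e]
  exact S.add_mem (S.zsmul_mem h1 _) (S.zsmul_mem h2 _)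

lemma CM7_common (p : ℕ) {C Ct : Type} [AddCommGroup C] [AddCommGroup Ct] (ι : C →+ Ct)
    (htor : ∀ x : Ct, ∃ m : ℕ, m.Coprime p ∧ ∃ c, ι c = m • x) {X : Type} [Finite X]
    (F : X → Ct) : ∃ m : ℕ, m.Coprime p ∧ ∀ x, ∃ c, ι c = m • F x := by
  classical
  have := Fintype.ofFinite X
  choose m hm c hc using fun x => htor (F x)
  refine ⟨∏ x, m x, Nat.Coprime.prod_left fun x _ => hm x, fun x => ?_⟩
  obtain ⟨r, hr⟩ := Finset.dvd_prod_of_mem m (Finset.mem_univ x)
  refine ⟨r • c x, ?_⟩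
  rw [map_nsmul, hc, hr, smul_smul, mul_comm]

/-- (CM7) a class module at `p` is insensitive to a `p'`-torsion cokernel. -/
theorem cm_of_ptors_coker (p : ℕ) [Fact p.Prime] {C Ct : Type} [AddCommGroup C]
    [DistribMulAction G C] [AddCommGroup Ct] [DistribMulAction G Ct] (ι : C →+ Ct)
    (eι : ∀ (g : G) c, ι (g • c) = g • ι c) (hι : Function.Injective ι)
    (htor : ∀ x : Ct, ∃ m : ℕ, m.Coprime p ∧ ∃ c, ι c = m • x)
    (u : G × G → C) (hu : IsClassModule p G C u) :
    IsClassModule p G Ct (fun x => ι (u x)) := by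
  have hcop : ∀ (H : Subgroup G), IsPGroup p H → ∀ m : ℕ, m.Coprime p →
      m.Coprime (Nat.card H) := by
    intro H hH m hm
    obtain ⟨c, hc⟩ := IsPGroup.iff_card.1 hH
    rw [hc]
    exact Nat.Coprime.pow_right c hm
  have eιH : ∀ (H : Subgroup G) (g : H) (c : C), ι (g • c) = g • ι c := fun H g c => eι (g : G) c
  refine ⟨?_, ?_, ?_, ?_⟩
  · intro a b c
    show ι (u (a * b, c)) + ι (u (a, b)) = a • ι (u (b, c)) + ι (u (a, b * c))
    rw [← eι, ← map_add, ← map_add, hu.cocycle a b c]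
  · intro H hH f hf
    obtain ⟨m, hm, hmf⟩ := CM7_common p ι htor f
    choose f' hf' using hmf
    have hc' : IsCocycle₁ f' := by
      intro a b
      apply hι
      rw [map_add, eιH, hf', hf', hf', hf a b, smul_add, smul_comm]
    obtain ⟨c, hc⟩ := hu.h1 H hH f' hc'
    have h1 : m • f - (0 : ℤ) • (0 : H → Ct) ∈ B1 H Ct := by
      refine ⟨ι c, fun g => ?_⟩
      rw [← eιH, ← map_sub, hc g, hf']
      simp
    have h2 : Nat.card H • f ∈ B1 H Ct := card_smul_isCoboundary₁ hf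
    have := CM7_bezout (B1 H Ct) f 0 m (Nat.card H) 0 (hcop H hH m hm) h1 h2
    rw [smul_zero, sub_zero] at this
    exact this
  · intro H hH f hf
    obtain ⟨m, hm, hmf⟩ := CM7_common p ι htor f
    choose f' hf' using hmf
    have hc' : IsCocycle₂ f' := by
      intro a b c
      apply hι
      rw [map_add, map_add, eιH, hf', hf', hf', hf', ← smul_add, hf a b c, smul_add, smul_comm]
    obtain ⟨j, β, hβ⟩ := hu.h2gen H hH f' hc'
    have h1 : m • f - j • (fun x : H × H => ι (u ((x.1 : G), (x.2 : G)))) ∈ B2 H Ct := by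
      refine ⟨fun g => ι (β g), fun g h => ?_⟩
      show g • ι (β h) - ι (β (g * h)) + ι (β g) = _
      rw [← eιH, ← map_sub, ← map_add, hβ g h]
      simp only [Pi.sub_apply, Pi.smul_apply, map_sub, map_zsmul, hf']
    have h2 : Nat.card H • f ∈ B2 H Ct := card_smul_isCoboundary₂ hf
    exact ⟨_, CM7_bezout (B2 H Ct) f _ m (Nat.card H) j (hcop H hH m hm) h1 h2⟩
  · intro H hH k hk
    obtain ⟨β, hβ⟩ := hk
    obtain ⟨m, hm, hmβ⟩ := CM7_common p ι htor β
    choose β' hβ' using hmβ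
    have h1 : IsCoboundary₂ (((m : ℤ) * k) • fun x : H × H => u ((x.1 : G), (x.2 : G))) := by
      refine ⟨β', fun g h => ?_⟩
      apply hι
      rw [map_add, map_sub, eιH, hβ', hβ', hβ', ← smul_comm, ← smul_sub, ← smul_add, hβ g h]
      simp only [Pi.smul_apply, mul_smul, natCast_zsmul]
      rw [map_nsmul, map_zsmul]
    have h2 := hu.h2ord H hH _ h1
    have h3 : IsCoprime (Nat.card H : ℤ) (m : ℤ) :=
      Nat.isCoprime_iff_coprime.2 (hcop H hH m hm).symm
    exact h3.dvd_of_dvd_mul_left h2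

omit [Finite G] in
/-- (CM5) transport of structure -/
theorem cm_transport (p : ℕ) {G₂ : Type} [Group G₂] {C C₂ : Type} [AddCommGroup C]
    [DistribMulAction G C] [AddCommGroup C₂] [DistribMulAction G₂ C₂] (e : G ≃* G₂) (φ : C ≃+ C₂)
    (hφ : ∀ (g : G) c, φ (g • c) = e g • φ c) (u : G × G → C) (hu : IsClassModule p G C u) :
    IsClassModule p G₂ C₂ (fun x => φ (u (e.symm x.1, e.symm x.2))) :=
  IsClassModule.transport p e.symm φ (fun g a => by rw [hφ, e.apply_symm_apply]) u hu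

end Fermat.Agent.S55Lib
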