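import Fermat.Agent.S55.G3.Nrm

/-!
# S55, chapter G3 (abstract part): the carry cocycle of a character `χ : G → ℤ/n`

`carry n χ c (g,h) = ⌊(χ̃ g + χ̃ h)/n⌋ • c`, `χ̃ = ZMod.val ∘ χ`, `c ∈ A^G`.
This is the inflation of the standard generator-cocycle of a cyclic quotient
(`H²(cyclic, A) = A^G / N A`).
-/

set_option autoImplicit false

namespace Fermat.Agent.S55Lib

open groupCohomology

variable {G : Type} [Group G] {A : Type} [AddCommGroup A] [DistribMulAction G A]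

/-- the carry cocycle -/
def carry (n : ℕ) (χ : G → ZMod n) (c : A) : G × G → A :=
  fun x => (((χ x.1).val + (χ x.2).val) / n) • c

/-- the kernel of an additive character -/
def kerχ {n : ℕ} (χ : G → ZMod n) (hχ : ∀ g h, χ (g * h) = χ g + χ h) : Subgroup G where
  carrier := {g | χ g = 0}
  one_mem' := by
    have := hχ 1 1
    simpa using this
  mul_mem' := fun {a b} ha hb => by
    simp only [Set.mem_ofPred_eq] at *
    rw [hχ, ha, hb, add_zero]
  inv_mem' := fun {a} ha => by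
    simp only [Set.mem_ofPred_eq] at *
    have h1 : χ 1 = 0 := by
      have := hχ 1 1
      simpa using this
    have := hχ a a⁻¹
    rw [mul_inv_cancel, h1, ha, zero_add] at this
    exact this.symm

theorem CA_one {n : ℕ} (χ : G → ZMod n) (hχ : ∀ g h, χ (g * h) = χ g + χ h) : χ 1 = 0 := by
  have := hχ 1 1
  simpa using this

theorem CA_inv {n : ℕ} (χ : G → ZMod n) (hχ : ∀ g h, χ (g * h) = χ g + χ h) (g : G) :
    χ g⁻¹ = -χ g := by
  have := hχ g g⁻¹
  rw [mul_inv_cancel, CA_one χ hχ] at this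
  exact (neg_eq_of_add_eq_zero_right this.symm).symm

theorem CA_pow {n : ℕ} (χ : G → ZMod n) (hχ : ∀ g h, χ (g * h) = χ g + χ h) (g : G) (i : ℕ) :
    χ (g ^ i) = (i : ZMod n) * χ g := by
  induction i with
  | zero => simp [CA_one χ hχ]
  | succ i ih => rw [pow_succ, hχ, ih]; push_cast; ring

theorem CA_mem_ker {n : ℕ} (χ : G → ZMod n) (hχ : ∀ g h, χ (g * h) = χ g + χ h) (g : G) :
    g ∈ kerχ χ hχ ↔ χ g = 0 := Iff.rfl

theorem CA_div_add (n x d : ℕ) (hn : 0 < n) : (x % n + d) / n + x / n = (x + d) / n := by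
  conv_rhs => rw [← Nat.mod_add_div x n]
  rw [show x % n + n * (x / n) + d = (x % n + d) + n * (x / n) by ring,
    Nat.add_mul_div_left _ _ hn]

/-- (C1) both sides of the cocycle identity are `⌊(a+b+c)/n⌋` -/
theorem carry_isCocycle (n : ℕ) [NeZero n] (χ : G → ZMod n) (hχ : ∀ g h, χ (g * h) = χ g + χ h)
    (c : A) (hc : ∀ g : G, g • c = c) : IsCocycle₂ (carry n χ c) := by
  intro g h j
  have hn : 0 < n := Nat.pos_of_ne_zero (NeZero.ne n)
  simp only [carry]
  rw [smul_comm g, hc g, hχ g h, hχ h j, ZMod.val_add, ZMod.val_add, ← add_smul, ← add_smul,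
    CA_div_add n _ _ hn, add_comm ((χ g).val) (((χ h).val + (χ j).val) % n),
    add_comm ((((χ h).val + (χ j).val)) / n), CA_div_add n _ _ hn]
  congr 2
  ring

/-- (C2) -/
theorem carry_zsmul (n : ℕ) (χ : G → ZMod n) (c : A) (k : ℤ) :
    k • carry n χ c = carry n χ (k • c) := by
  funext x
  simp only [carry, Pi.smul_apply]
  rw [smul_comm]

theorem CA_val_pow {n : ℕ} [NeZero n] (χ : G → ZMod n) (hχ : ∀ g h, χ (g * h) = χ g + χ h) (t : G)
    (j : ℕ) (hj : j * (χ t).val < n) : (χ (t ^ j)).val = j * (χ t).val := by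
  rw [CA_pow χ hχ]
  conv_lhs => rw [← ZMod.natCast_zmod_val (χ t)]
  rw [← Nat.cast_mul, ZMod.val_natCast, Nat.mod_eq_of_lt hj]

theorem CA_carry_right {n : ℕ} [NeZero n] (χ : G → ZMod n) (c : A) (g h : G) (hh : χ h = 0) :
    carry n χ c (g, h) = 0 := by
  simp only [carry]
  rw [hh, ZMod.val_zero, add_zero, Nat.div_eq_of_lt (ZMod.val_lt _), zero_smul]

theorem CA_carry_left {n : ℕ} [NeZero n] (χ : G → ZMod n) (c : A) (g h : G) (hg : χ g = 0) :
    carry n χ c (g, h) = 0 := by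
  simp only [carry]
  rw [hg, ZMod.val_zero, zero_add, Nat.div_eq_of_lt (ZMod.val_lt _), zero_smul]

/-- (C3) **coboundary ⇒ norm** (up to the integer `m` killing `H¹(ker χ, A)`; `m = 1` in most
applications).  `carry = dβ`.  On `K = ker χ` the carry cocycle vanishes, so `β|K` is a 1-cocycle,
`m • β|K = d a` by `h1`; put `β' := m • β - d a`: then `dβ' = carry (m • c)`, `β'|K = 0`,
`β' (h κ) = β' h`, `β' (κ h) = κ • β' h`, hence (`K` normal) `β' h ∈ A^K`.  `y := β' t`.  Summing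
`t^i • β' t - β' (t^(i+1)) + β' (t^i) = carry (t^i, t)` over `i < e` gives `∑ t^i • y = m • c`
(`carry (t^i,t) = 0` for `i < e-1`, `= m • c` for `i = e-1`; `t^e ∈ K`). -/
theorem carry_cob_norm (n : ℕ) [NeZero n] (χ : G → ZMod n) (hχ : ∀ g h, χ (g * h) = χ g + χ h)
    (c : A) (hc : ∀ g : G, g • c = c) (m : ℕ)
    (h1 : ∀ f : kerχ χ hχ → A, IsCocycle₁ f → IsCoboundary₁ (m • f))
    (t : G) (e : ℕ) (hte : (χ t).val * e = n) (hcob : IsCoboundary₂ (carry n χ c)) :
    ∃ y ∈ inv (kerχ χ hχ) A, m • c = ∑ i ∈ Finset.range e, t ^ i • y := by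
  have hn : 0 < n := Nat.pos_of_ne_zero (NeZero.ne n)
  obtain ⟨β, hβ⟩ := hcob
  have hcoc : IsCocycle₁ (fun κ : kerχ χ hχ => β (κ : G)) := by
    intro κ κ'
    have := hβ (κ : G) (κ' : G)
    rw [CA_carry_left χ c _ _ κ.2] at this
    show β ((κ : G) * (κ' : G)) = (κ : G) • β (κ' : G) + β (κ : G)
    rw [← sub_eq_zero, ← neg_eq_zero, ← this]
    abel
  obtain ⟨a, ha⟩ := h1 _ hcoc
  set β' : G → A := fun g => m • β g - (g • a - a) with hβ'
  have hd : ∀ g h : G, g • β' h - β' (g * h) + β' g = m • carry n χ c (g, h) := by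
    intro g h
    rw [← hβ g h]
    simp only [hβ', smul_sub, smul_add, mul_smul, smul_comm g m]
    abel
  have hK0 : ∀ κ : G, χ κ = 0 → β' κ = 0 := by
    intro κ hκ
    have := ha ⟨κ, hκ⟩
    simp only [hβ']
    rw [sub_eq_zero]
    exact this.symm
  have hr : ∀ h κ : G, χ κ = 0 → β' (h * κ) = β' h := by
    intro h κ hκ
    have := hd h κ
    rw [CA_carry_right χ c _ _ hκ, hK0 κ hκ, smul_zero, smul_zero, zero_sub] at this
    rw [← sub_eq_zero, ← neg_eq_zero, ← this]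
    abel
  have hl : ∀ h κ : G, χ κ = 0 → β' (κ * h) = κ • β' h := by
    intro h κ hκ
    have := hd κ h
    rw [CA_carry_left χ c _ _ hκ, hK0 κ hκ, smul_zero, add_zero] at this
    exact (sub_eq_zero.mp this).symm
  have hinv : ∀ h : G, β' h ∈ inv (kerχ χ hχ) A := by
    intro h κ hκ
    have hκ' : χ κ = 0 := hκ
    have h2 : χ (h⁻¹ * κ * h) = 0 := by
      rw [hχ, hχ, CA_inv χ hχ, hκ']
      ring
    rw [← hl h κ hκ', ← hr h _ h2]
    congr 1
    group
  refine ⟨β' t, hinv t, ?_⟩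
  set d := (χ t).val with hdd
  have hcl : ∀ j : ℕ, j * d < n → ∑ i ∈ Finset.range j, t ^ i • β' t = β' (t ^ j) := by
    intro j
    induction j with
    | zero =>
      intro _
      rw [Finset.range_zero, Finset.sum_empty, pow_zero, hK0 1 (CA_one χ hχ)]
    | succ j ih =>
      intro hj
      have hj' : j * d < n := by
        have : j * d ≤ (j + 1) * d := Nat.mul_le_mul_right _ (Nat.le_succ j)
        omega
      rw [Finset.sum_range_succ, ih hj']
      have := hd (t ^ j) t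
      have hc0 : carry n χ c (t ^ j, t) = 0 := by
        simp only [carry]
        rw [CA_val_pow χ hχ t j hj', ← hdd, Nat.div_eq_of_lt (by rw [Nat.succ_mul] at hj; exact hj),
          zero_smul]
      rw [hc0, smul_zero, ← pow_succ] at this
      rw [← sub_eq_zero, ← this]
      abel
  obtain ⟨e', rfl⟩ : ∃ e', e = e' + 1 := by
    rcases e with _ | e'
    · omega
    · exact ⟨e', rfl⟩
  have hdpos : 0 < d := by
    rcases Nat.eq_zero_or_pos d with h0 | h0
    · rw [h0] at hte; omega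
    · exact h0
  have he' : e' * d < n := by
    rw [← hte, Nat.mul_succ, mul_comm]
    omega
  rw [Finset.sum_range_succ, hcl e' he']
  have := hd (t ^ e') t
  have hc1 : carry n χ c (t ^ e', t) = c := by
    simp only [carry]
    rw [CA_val_pow χ hχ t e' he', ← hdd,
      show e' * d + d = n by rw [← hte, Nat.mul_succ, mul_comm], Nat.div_self hn, one_smul]
  have hk : χ (t ^ (e' + 1)) = 0 := by
    rw [CA_pow χ hχ]
    conv_lhs => rw [← ZMod.natCast_zmod_val (χ t)]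
    rw [← Nat.cast_mul, mul_comm, hte, ZMod.natCast_self]
  rw [hc1, ← pow_succ, hK0 _ hk, sub_zero] at this
  rw [← this]
  abel

theorem CA_smul_pow {n : ℕ} [NeZero n] (χ : G → ZMod n) (hχ : ∀ g h, χ (g * h) = χ g + χ h) {t : G}
    (ht : χ t = 1) {y : A} (hy : y ∈ inv (kerχ χ hχ) A) (g : G) (j : ℕ) :
    g • t ^ j • y = t ^ ((χ g).val + j) • y := by
  have hmem : (t ^ ((χ g).val + j))⁻¹ * (g * t ^ j) ∈ kerχ χ hχ := by
    rw [CA_mem_ker, hχ, hχ, CA_inv χ hχ, CA_pow χ hχ, CA_pow χ hχ, ht]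
    push_cast
    rw [ZMod.natCast_zmod_val]
    ring
  have h1 := hy _ hmem
  rw [smul_smul]
  conv_rhs => rw [← h1]
  rw [smul_smul, mul_inv_cancel_left]

/-- (C5') **norm ⇒ coboundary**, inflated form: `y ∈ A^K`, `K = ker χ`, `χ t = 1`:
`β g = ∑_{j < (χ g).val} t^j • y` (note `g • t^j • y = t^(a+j) • y` for `a = (χ g).val`, and
`t^n • y = y`). -/
theorem carry_cob_of_norm' (n : ℕ) [NeZero n] (χ : G → ZMod n)
    (hχ : ∀ g h, χ (g * h) = χ g + χ h) (t : G) (ht : χ t = 1) (y : A)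
    (hy : y ∈ inv (kerχ χ hχ) A) :
    IsCoboundary₂ (carry n χ (∑ i ∈ Finset.range n, t ^ i • y)) := by
  have hn : 0 < n := Nat.pos_of_ne_zero (NeZero.ne n)
  have htn : ∀ j : ℕ, t ^ (n + j) • y = t ^ j • y := by
    intro j
    have hmem : t ^ n ∈ kerχ χ hχ := by
      rw [CA_mem_ker, CA_pow χ hχ, ht]
      simp
    rw [add_comm, pow_add, mul_smul, hy _ hmem]
  refine ⟨fun g => ∑ j ∈ Finset.range (χ g).val, t ^ j • y, fun g h => ?_⟩
  simp only [carry]
  set a := (χ g).val with ha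
  set b := (χ h).val with hb
  have ha' : a < n := ZMod.val_lt _
  have hb' : b < n := ZMod.val_lt _
  have e1 : g • ∑ j ∈ Finset.range b, t ^ j • y = ∑ j ∈ Finset.range b, t ^ (a + j) • y := by
    rw [Finset.smul_sum]
    exact Finset.sum_congr rfl fun j _ => CA_smul_pow χ hχ ht hy g j
  have e2 : ∑ j ∈ Finset.range (a + b), t ^ j • y
      = ∑ j ∈ Finset.range a, t ^ j • y + ∑ j ∈ Finset.range b, t ^ (a + j) • y :=
    Finset.sum_range_add _ a b
  rw [e1, hχ, ZMod.val_add, ← ha, ← hb]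
  rcases lt_or_ge (a + b) n with hlt | hge
  · rw [Nat.mod_eq_of_lt hlt, Nat.div_eq_of_lt hlt, zero_smul, e2]
    abel
  · obtain ⟨r, hr⟩ : ∃ r, a + b = n + r := ⟨a + b - n, by omega⟩
    have hrn : r < n := by omega
    have h1 : (a + b) % n = r := by
      rw [hr, Nat.add_mod_left, Nat.mod_eq_of_lt hrn]
    have h2 : (a + b) / n = 1 := by
      rw [hr, Nat.add_div_left _ hn, Nat.div_eq_of_lt hrn]
    have e3 : ∑ j ∈ Finset.range (a + b), t ^ j • y
        = ∑ j ∈ Finset.range n, t ^ j • y + ∑ j ∈ Finset.range r, t ^ j • y := by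
      rw [hr, Finset.sum_range_add]
      congr 1
      exact Finset.sum_congr rfl fun j _ => htn j
    rw [h1, h2, one_smul]
    rw [e2] at e3
    rw [← sub_eq_zero]
    have := sub_eq_zero.mpr e3
    rw [← this]
    abel

/-- (C5) **norm ⇒ coboundary** on a subgroup `Z` on which `χ` is bijective:
`β z = ∑_{j < (χ z).val} t^j • y`, `χ t = 1`. -/
theorem carry_cob_of_norm [Finite G] (n : ℕ) [NeZero n] (χ : G → ZMod n)
    (hχ : ∀ g h, χ (g * h) = χ g + χ h) (Z : Subgroup G)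
    (hZ : Function.Bijective (fun z : Z => χ (z : G))) (y : A) :
    IsCoboundary₂ (fun x : Z × Z => carry n χ (nrm ⊥ Z y) ((x.1 : G), (x.2 : G))) := by
  have hχ' : ∀ g h : Z, (fun z : Z => χ (z : G)) (g * h)
      = (fun z : Z => χ (z : G)) g + (fun z : Z => χ (z : G)) h := fun g h => hχ _ _
  obtain ⟨t, ht⟩ := hZ.2 1
  have hy : y ∈ inv (kerχ (fun z : Z => χ (z : G)) hχ') A := by
    intro κ hκ
    have h1 : κ = 1 := by
      apply hZ.1
      show χ (κ : G) = χ ((1 : Z) : G)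
      rw [Subgroup.coe_one, CA_one χ hχ]
      exact hκ
    rw [h1, one_smul]
  have key := carry_cob_of_norm' n (fun z : Z => χ (z : G)) hχ' t ht y hy
  have hy' : y ∈ inv (⊥ : Subgroup G) A := by
    intro g hg
    rw [Subgroup.mem_bot.mp hg, one_smul]
  have hpow : ∀ i : ℕ, χ ((t ^ i : Z) : G) = (i : ZMod n) := by
    intro i
    have := CA_pow (fun z : Z => χ (z : G)) hχ' t i
    have ht' : χ (t : G) = 1 := ht
    rw [ht', mul_one] at this
    exact this
  have hr : Function.Bijective (fun i : Fin n =>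
      (QuotientGroup.mk (t ^ (i : ℕ)) : Z ⧸ (⊥ : Subgroup G).subgroupOf Z)) := by
    constructor
    · intro i j hij
      have e1 : (t ^ (i : ℕ))⁻¹ * t ^ (j : ℕ) ∈ (⊥ : Subgroup G).subgroupOf Z :=
        QuotientGroup.eq.mp hij
      rw [Subgroup.mem_subgroupOf, Subgroup.mem_bot] at e1
      have e2 : (t ^ (i : ℕ))⁻¹ * t ^ (j : ℕ) = 1 := Subtype.ext e1
      have e3 : t ^ (i : ℕ) = t ^ (j : ℕ) := inv_mul_eq_one.mp e2
      have e4 : ((i : ℕ) : ZMod n) = ((j : ℕ) : ZMod n) := by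
        rw [← hpow, ← hpow, e3]
      have e5 := congrArg ZMod.val e4
      rw [ZMod.val_natCast, ZMod.val_natCast, Nat.mod_eq_of_lt i.2, Nat.mod_eq_of_lt j.2] at e5
      exact Fin.ext e5
    · intro z
      induction z using QuotientGroup.induction_on with
      | H z =>
        refine ⟨⟨(χ (z : G)).val, ZMod.val_lt _⟩, ?_⟩
        show (QuotientGroup.mk (t ^ (χ (z : G)).val) : Z ⧸ (⊥ : Subgroup G).subgroupOf Z)
          = QuotientGroup.mk z
        congr 1
        apply hZ.1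
        show χ ((t ^ (χ (z : G)).val : Z) : G) = χ (z : G)
        rw [hpow, ZMod.natCast_zmod_val]
  have e : nrm ⊥ Z y = ∑ i ∈ Finset.range n, t ^ i • y := by
    rw [NR_sum_bij ⊥ Z hy' (fun i : Fin n => t ^ (i : ℕ)) hr,
      ← Fin.sum_univ_eq_sum_range (fun i => t ^ i • y) n]
    rfl
  rw [e]
  exact key

/-- (C4) the same for the restriction to a subgroup `H`, in terms of relative norms.
If `χ|H = 0` take `y = k • c`; otherwise the image of `χ|H` is generated by some `d ∣ n`, `d < n`;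
choose `t ∈ H` with `(χ t).val = d`, apply (C3) to the group `H` and use `nrm_cyclic`. -/
theorem carry_cob_nrm [Finite G] (n : ℕ) [NeZero n] (χ : G → ZMod n)
    (hχ : ∀ g h, χ (g * h) = χ g + χ h) (c : A) (hc : ∀ g : G, g • c = c) (H : Subgroup G)
    (h1 : ∀ f : (H ⊓ kerχ χ hχ : Subgroup G) → A, IsCocycle₁ f → IsCoboundary₁ f)
    (k : ℤ) (hcob : IsCoboundary₂ (k • fun x : H × H => carry n χ c ((x.1 : G), (x.2 : G)))) :
    ∃ y ∈ inv (H ⊓ kerχ χ hχ) A, k • c = nrm (H ⊓ kerχ χ hχ) H y := by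
  have hn : 0 < n := Nat.pos_of_ne_zero (NeZero.ne n)
  have hkc : ∀ g : G, g • (k • c) = k • c := fun g => by rw [smul_comm, hc]
  by_cases hcase : ∀ h ∈ H, χ h = 0
  · refine ⟨k • c, fun g _ => hkc g, ?_⟩
    have hle : H ≤ H ⊓ kerχ χ hχ := le_inf le_rfl fun h hh => hcase h hh
    rw [nrm_of_mem_inv _ _ (fun g _ => hkc g), Subgroup.relIndex_eq_one.mpr hle, one_smul]
  push Not at hcase
  obtain ⟨h0, hh0, hχ0⟩ := hcase
  classical
  have hex : ∃ d : ℕ, 0 < d ∧ ∃ t ∈ H, (χ t).val = d :=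
    ⟨(χ h0).val, Nat.pos_of_ne_zero (fun h => hχ0 ((ZMod.val_eq_zero _).mp h)), h0, hh0, rfl⟩
  obtain ⟨hdpos, t, ht, htd⟩ := Nat.find_spec hex
  have hmin : ∀ r : ℕ, r < Nat.find hex → ¬ (0 < r ∧ ∃ t ∈ H, (χ t).val = r) :=
    fun r hr => Nat.find_min hex hr
  set d := Nat.find hex with hd
  have hdn : d < n := htd ▸ ZMod.val_lt _
  have hχt : χ t = (d : ZMod n) := by rw [← htd, ZMod.natCast_zmod_val]
  have hdvd : ∀ h ∈ H, d ∣ (χ h).val := by
    intro h hh
    set v := (χ h).val with hv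
    have hmem : (t ^ (v / d))⁻¹ * h ∈ H := H.mul_mem (H.inv_mem (H.pow_mem ht _)) hh
    have hval : χ ((t ^ (v / d))⁻¹ * h) = ((v % d : ℕ) : ZMod n) := by
      rw [hχ, CA_inv χ hχ, CA_pow χ hχ, hχt]
      have e1 : χ h = (v : ZMod n) := by rw [hv, ZMod.natCast_zmod_val]
      have e2 : (v : ZMod n) = ((v % d : ℕ) : ZMod n) + (d : ZMod n) * ((v / d : ℕ) : ZMod n) := by
        rw [← Nat.cast_mul, ← Nat.cast_add, Nat.mod_add_div]
      rw [e1, e2]
      ring
    have hrd : v % d < d := Nat.mod_lt _ hdpos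
    have hval' : (χ ((t ^ (v / d))⁻¹ * h)).val = v % d := by
      rw [hval, ZMod.val_natCast, Nat.mod_eq_of_lt (by omega)]
    rcases Nat.eq_zero_or_pos (v % d) with h0 | h0
    · exact Nat.dvd_of_mod_eq_zero h0
    · exact absurd ⟨h0, _, hmem, hval'⟩ (hmin _ hrd)
  have hdn' : d ∣ n := by
    have h2 := hdvd t⁻¹ (H.inv_mem ht)
    rw [CA_inv χ hχ, ZMod.neg_val, if_neg (fun h => by rw [h, ZMod.val_zero] at htd; omega),
      htd] at h2
    obtain ⟨q, hq⟩ := h2
    exact ⟨q + 1, by rw [Nat.mul_succ]; omega⟩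
  obtain ⟨e, he⟩ := hdn'
  have hχ' : ∀ g h : H, (fun z : H => χ (z : G)) (g * h)
      = (fun z : H => χ (z : G)) g + (fun z : H => χ (z : G)) h := fun g h => hχ _ _
  have h1' : ∀ f : kerχ (fun z : H => χ (z : G)) hχ' → A, IsCocycle₁ f →
      IsCoboundary₁ (1 • f) := by
    intro f hf
    rw [one_smul]
    have hf' : IsCocycle₁ (fun x : (H ⊓ kerχ χ hχ : Subgroup G) =>
        f ⟨⟨(x : G), x.2.1⟩, x.2.2⟩) := by
      intro x x'
      exact hf ⟨⟨(x : G), x.2.1⟩, x.2.2⟩ ⟨⟨(x' : G), x'.2.1⟩, x'.2.2⟩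
    obtain ⟨a, ha⟩ := h1 _ hf'
    exact ⟨a, fun κ => ha ⟨((κ : H) : G), (κ : H).2, κ.2⟩⟩
  have hcob' : IsCoboundary₂ (carry n (fun z : H => χ (z : G)) (k • c)) := by
    rw [← carry_zsmul]
    exact hcob
  obtain ⟨y, hy, hyc⟩ := carry_cob_norm n (fun z : H => χ (z : G)) hχ' (k • c)
    (fun g => hkc g) 1 h1' ⟨t, ht⟩ e (by show (χ t).val * e = n; rw [htd, he]) hcob'
  have hy' : y ∈ inv (H ⊓ kerχ χ hχ) A := by
    intro x hx
    exact hy ⟨x, hx.1⟩ hx.2
  refine ⟨y, hy', ?_⟩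
  rw [one_smul] at hyc
  have hpv : ∀ i : ℕ, i < e → (χ (t ^ i)).val = i * d := by
    intro i hi
    have := CA_val_pow χ hχ t i (by
      rw [htd, he, mul_comm]
      exact Nat.mul_lt_mul_of_pos_left hi hdpos)
    rw [htd] at this
    exact this
  have hr : Function.Bijective (fun i : Fin e =>
      (QuotientGroup.mk ((⟨t, ht⟩ : H) ^ (i : ℕ)) : H ⧸ (H ⊓ kerχ χ hχ).subgroupOf H)) := by
    constructor
    · intro i j hij
      have e1 : ((⟨t, ht⟩ : H) ^ (i : ℕ))⁻¹ * (⟨t, ht⟩ : H) ^ (j : ℕ)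
          ∈ (H ⊓ kerχ χ hχ).subgroupOf H := QuotientGroup.eq.mp hij
      rw [Subgroup.mem_subgroupOf] at e1
      have e2 : χ ((t ^ (i : ℕ))⁻¹ * t ^ (j : ℕ)) = 0 := e1.2
      rw [hχ, CA_inv χ hχ] at e2
      have e3 : χ (t ^ (i : ℕ)) = χ (t ^ (j : ℕ)) := by
        rw [← sub_eq_zero, ← neg_eq_zero, ← e2]
        ring
      have e4 := congrArg ZMod.val e3
      rw [hpv _ i.2, hpv _ j.2] at e4
      exact Fin.ext (Nat.eq_of_mul_eq_mul_right hdpos e4)
    · intro z
      induction z using QuotientGroup.induction_on with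
      | H z =>
        obtain ⟨q, hq⟩ := hdvd z z.2
        have hqe : q < e := by
          have h3 : (χ (z : G)).val < n := ZMod.val_lt _
          rw [hq, he] at h3
          exact Nat.lt_of_mul_lt_mul_left h3
        refine ⟨⟨q, hqe⟩, ?_⟩
        show (QuotientGroup.mk ((⟨t, ht⟩ : H) ^ q) : H ⧸ (H ⊓ kerχ χ hχ).subgroupOf H)
          = QuotientGroup.mk z
        rw [QuotientGroup.eq, Subgroup.mem_subgroupOf]
        refine ⟨(((⟨t, ht⟩ : H) ^ q)⁻¹ * z : H).2, ?_⟩
        show χ ((t ^ q)⁻¹ * (z : G)) = 0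
        rw [hχ, CA_inv χ hχ]
        have e5 : χ (t ^ q) = χ (z : G) := by
          apply ZMod.val_injective
          rw [hpv q hqe, hq, mul_comm]
        rw [e5]
        ring
  rw [hyc, NR_sum_bij _ H hy' (fun i : Fin e => (⟨t, ht⟩ : H) ^ (i : ℕ)) hr,
      ← Fin.sum_univ_eq_sum_range (fun i => (⟨t, ht⟩ : H) ^ i • y) e]
  rfl

end Fermat.Agent.S55Lib
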