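import Fermat.Agent.S55.G3.FcMain

/-!
# S55, chapter G3: (FC6) the full idele class module is a class module at `p`
-/

set_option autoImplicit false
set_option linter.unusedSectionVars false
set_option linter.unusedVariables false
set_option linter.style.haveILetI false

namespace Fermat.Agent.S55Lib

noncomputable section

open groupCohomology

variable (p : ℕ) [Fact p.Prime]

/-- (FC6) -/
theorem classModule_CC (hp2 : p ≠ 2) (U : Subgroup GQ) [U.Normal] (hU : U ∈ levAll.mem)
    (hμ : FixesMu p U) :
    ∃ u : (GQ ⧸ U) × (GQ ⧸ U) → inv U AC, IsClassModule p (GQ ⧸ U) (inv U AC) u := by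
  haveI : U.FiniteIndex := levAll.finiteIndex U hU
  haveI : Finite (GQ ⧸ U) := Subgroup.finite_quotient_of_finiteIndex
  obtain ⟨u, hu, hord⟩ := exists_fund_CC p hp2 U hU hμ
  exact ⟨u, cm_of_ord p (devOut_CC p hp2 U hU hμ) u hu hord⟩

end

end Fermat.Agent.S55Lib
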