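import Fermat.Agent.S55.G3.FcSplit
import Fermat.Agent.S55.G2.TameMu
import Fermat.Agent.S55.G2.PlaceCheb

/-! # S55 G3 (FC2): a prime `l ≡ 1 mod p^a` splitting completely in `M` -/

set_option autoImplicit false
set_option linter.unusedSectionVars false
set_option linter.unusedVariables false
set_option linter.style.haveILetI false

namespace Fermat.Agent.S55Lib

noncomputable section

variable (p : ℕ) [Fact p.Prime]

/-- (FC2) S55/G3/FcPrime.lean : a prime `l ≡ 1 mod p^a`, `l ≠ p`, splitting completely in `M`. -/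
theorem exists_split_prime (U : Subgroup GQ) (hU : U ∈ levAll.mem) (a : ℕ) :
    ∃ l : Nat.Primes, (l : ℕ) ≠ p ∧ p ^ a ∣ (l : ℕ) - 1 ∧ ∀ h : Gq l, rq l h ∈ U := by
  classical
  have hp : p.Prime := Fact.out
  obtain ⟨M0, hM0fd, hM0st, -, rfl⟩ := hU
  haveI : NeZero (((p ^ a : ℕ) : ℕ) : ℚ) := ⟨by exact_mod_cast (pow_pos hp.pos a).ne'⟩
  obtain ⟨ζ, hζ⟩ := HasEnoughRootsOfUnity.exists_primitiveRoot Qbar (p ^ a)
  obtain ⟨Fζ, hFfd, hFst, hζF⟩ := exists_stableF ζ
  set M := M0 ⊔ Fζ with hMdef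
  haveI : FiniteDimensional ℚ M := IntermediateField.finiteDimensional_sup M0 Fζ
  have hMst : StableF M := hM0st.sup hFst
  obtain ⟨T₀, hT₀⟩ := exists_split_bound M hMst
  obtain ⟨q, hq, g, τ, k, j, hτ, -, h2⟩ := weak_cheb_place M hMst 1 (insert ⟨p, hp⟩ T₀)
  rw [Finset.mem_insert, not_or] at hq
  have hτM : τ ∈ M.fixingSubgroup := by
    rw [one_pow, mul_one] at h2
    simpa using inv_mem h2
  have hqp : (q : ℕ) ≠ p := fun h => hq.1 (Subtype.ext h)
  refine ⟨q, hqp, ?_, fun h => ?_⟩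
  · have hinj : Function.Injective (fun x : Qbar => iq q (g x)) :=
      (iq q).toRingHom.injective.comp g.injective
    have hw : IsPrimitiveRoot (iq q (g ζ)) (p ^ a) :=
      hζ.map_of_injective (f := ((iq q).toRingHom.comp (g : Qbar →+* Qbar))) hinj
    set w : Om q := iq q (g ζ) with hwdef
    have hN0 : p ^ a ≠ 0 := (pow_pos hp.pos a).ne'
    have hw1 : ‖w‖ = 1 := LT1_norm_eq_one_of_pow q hN0 hw.pow_eq_one
    have h3 := hτ ζ hw1.le
    rw [IntermediateField.mem_fixingSubgroup_iff] at hτM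
    rw [hτM ζ (le_sup_right (a := M0) hζF)] at h3
    have hq1 : 1 ≤ (q : ℕ) := q.2.one_lt.le
    have h4 : w ^ (q : ℕ) = w ^ ((q : ℕ) - 1) * w := by
      rw [← pow_succ, Nat.sub_add_cancel hq1]
    have h5 : ‖w ^ ((q : ℕ) - 1) - 1‖ < 1 := by
      have h6 : w - w ^ (q : ℕ) = -((w ^ ((q : ℕ) - 1) - 1) * w) := by rw [h4]; ring
      rw [h6, norm_neg, norm_mul, hw1, mul_one] at h3
      exact h3
    have hnd : ¬ (q : ℕ) ∣ p ^ a := by
      intro hd
      exact hqp ((Nat.prime_dvd_prime_iff_eq q.2 hp).1 (q.2.dvd_of_dvd_pow hd))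
    have h7 : w ^ ((q : ℕ) - 1) = 1 := by
      apply LT1_eq_one q hnd _ h5
      rw [← pow_mul, mul_comm, pow_mul, hw.pow_eq_one, one_pow]
    exact hw.dvd_of_pow_eq_one _ h7
  · exact IntermediateField.fixingSubgroup_antitone (le_sup_left (b := Fζ))
      (hT₀ q hq.2 g τ hτ hτM h)

end

end Fermat.Agent.S55Lib
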