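import Fermat.Agent.S55.G2.TameInt
import Fermat.Agent.S55.G2.TameFix
import Fermat.Agent.S55.G2.PlaceUnit

/-! # S55 G3 (FC1): a place whose Frobenius is trivial on `M` splits completely -/

set_option autoImplicit false
set_option linter.unusedSectionVars false
set_option linter.unusedVariables false
set_option linter.style.haveILetI false

namespace Fermat.Agent.S55Lib

noncomputable section

lemma FC1_finite_conj (θ : Qbar) : (Set.range (fun σ : GQ => σ θ)).Finite := by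
  haveI : Algebra.IsAlgebraic ℚ Qbar := AlgebraicClosure.isAlgebraic ℚ
  have hint : IsIntegral ℚ θ := Algebra.IsIntegral.isIntegral θ
  refine ((minpoly ℚ θ).rootSet_finite Qbar).subset ?_
  rintro _ ⟨σ, rfl⟩
  rw [Polynomial.mem_rootSet]
  refine ⟨minpoly.ne_zero hint, ?_⟩
  show Polynomial.aeval (σ θ) (minpoly ℚ θ) = 0
  have := Polynomial.aeval_algHom_apply (σ : Qbar →ₐ[ℚ] Qbar) θ (minpoly ℚ θ)
  rw [minpoly.aeval, map_zero] at this
  exact this

/-- the bad primes of `θ` -/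
lemma FC1_finite_bad (θ : Qbar) : {q : Nat.Primes | (∃ g : GQ, 1 < ‖iq q (g θ)‖) ∨
    ∃ σ σ' g : GQ, σ θ ≠ σ' θ ∧ ‖iq q (g (σ θ - σ' θ))‖ ≠ 1}.Finite := by
  classical
  obtain ⟨m, hm0, hm⟩ := exists_nat_norm_le_one θ
  have hfin1 : {q : Nat.Primes | (q : ℕ) ∈ m.primeFactors}.Finite :=
    (Finset.finite_toSet m.primeFactors).preimage Subtype.val_injective.injOn
  have hC := FC1_finite_conj θ
  have hD : ((fun ab : Qbar × Qbar => ab.1 - ab.2) ''
      (Set.range (fun σ : GQ => σ θ) ×ˢ Set.range (fun σ : GQ => σ θ)) \ {0}).Finite :=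
    ((hC.prod hC).image _).subset Set.sdiff_subset
  have hfin2 := hD.biUnion (t := fun d => {q : Nat.Primes | ∃ g : GQ, ‖iq q (g d)‖ ≠ 1})
    (fun d hd => finite_nonunit d (fun h => hd.2 h))
  refine (hfin1.union hfin2).subset ?_
  rintro q (⟨g, hg⟩ | ⟨σ, σ', g, hne, hn⟩)
  · left
    by_contra hcon
    have h1 : ¬ (q : ℕ) ∣ m := fun hd => hcon (Nat.mem_primeFactors.mpr ⟨q.2, hd, hm0⟩)
    exact absurd (hm q h1 g) (not_le.2 hg)
  · right
    rw [Set.mem_iUnion₂]
    exact ⟨σ θ - σ' θ, ⟨⟨(σ θ, σ' θ), ⟨⟨σ, rfl⟩, ⟨σ', rfl⟩⟩, rfl⟩, fun h => hne (sub_eq_zero.1 h)⟩,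
      g, hn⟩

/-- (FC1) S55/G3/FcSplit.lean : a place whose Frobenius is trivial on `M` splits completely
(outside a finite set of primes). -/
theorem exists_split_bound (M : IntermediateField ℚ Qbar) [FiniteDimensional ℚ M]
    (hM : StableF M) : ∃ T₀ : Finset Nat.Primes, ∀ q ∉ T₀, ∀ g τ : GQ, IsFrobPl q g τ →
      τ ∈ M.fixingSubgroup → ∀ h : Gq q, rq q h ∈ M.fixingSubgroup := by
  classical
  have hfg : M.FG := by
    apply IntermediateField.fg_of_fg_toSubalgebra
    exact (Subalgebra.fg_iff_finiteType _).2 (inferInstanceAs (Algebra.FiniteType ℚ M))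
  obtain ⟨t, ht⟩ := hfg
  have hbad : (⋃ θ ∈ t, {q : Nat.Primes | (∃ g : GQ, 1 < ‖iq q (g θ)‖) ∨
      ∃ σ σ' g : GQ, σ θ ≠ σ' θ ∧ ‖iq q (g (σ θ - σ' θ))‖ ≠ 1}).Finite :=
    (Finset.finite_toSet t).biUnion (fun θ _ => FC1_finite_bad θ)
  refine ⟨hbad.toFinset, fun q hq g τ hτ hτM h => ?_⟩
  rw [Set.Finite.mem_toFinset, Set.mem_iUnion₂] at hq
  push Not at hq
  have hfix : ∀ θ ∈ t, rq q h (g θ) = g θ := by
    intro θ hθ
    have hq' := hq θ hθ
    rw [Set.mem_ofPred_eq, not_or] at hq'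
    obtain ⟨hq1, hq2⟩ := hq'
    push Not at hq1 hq2
    have hθM : θ ∈ M := by
      rw [← ht]
      exact IntermediateField.subset_adjoin ℚ _ hθ
    set w : Om q := iq q (g θ) with hw
    have hw1 : ‖w‖ ≤ 1 := hq1 g
    have h1 := hτ θ hw1
    rw [IntermediateField.mem_fixingSubgroup_iff] at hτM
    rw [hτM θ hθM] at h1
    obtain ⟨j, hj⟩ := exists_nat_of_frob_fixed q w hw1 (LT_symm h1)
    have h2 : ‖h w - w‖ < 1 := by
      have h3 : h w - w = h (w - (j : Om q)) - (w - (j : Om q)) := by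
        rw [map_sub, map_natCast]; ring
      rw [h3]
      exact LT_sub_lt (by rw [norm_gq]; exact hj) hj
    by_contra hne
    have h4 := hq2 (rq q h * g) g 1 hne
    have h5 : iq q ((1 : GQ) ((rq q h * g) θ - g θ)) = h w - w := by
      rw [AlgEquiv.one_apply, map_sub, AlgEquiv.mul_apply, iq_rq]
    rw [h5] at h4
    exact absurd h4 h2.ne
  have hs : g⁻¹ * rq q h * g ∈ M.fixingSubgroup := by
    rw [IntermediateField.mem_fixingSubgroup_iff, ← ht]
    intro x hx
    induction hx using IntermediateField.adjoin_induction with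
    | mem x hx =>
      show g⁻¹ (rq q h (g x)) = x
      rw [hfix x hx]
      exact g.symm_apply_apply x
    | algebraMap x => exact AlgEquiv.commutes _ x
    | add x y _ _ hx hy => rw [map_add, hx, hy]
    | inv x _ hx => rw [map_inv₀, hx]
    | mul x y _ _ hx hy => rw [map_mul, hx, hy]
  have := (normal_fix M hM).conj_mem _ hs g
  have e : g * (g⁻¹ * rq q h * g) * g⁻¹ = rq q h := by group
  rwa [e] at this

end

end Fermat.Agent.S55Lib
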