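import Fermat.Agent.S55.G3.FundNorm
import Fermat.Agent.S55.G3.ClassMod
import Fermat.Agent.S55.L.InfRes

/-!
# S55, chapter G3 (abstract part): (FA) construction of the fundamental class
-/

set_option autoImplicit false
set_option linter.unusedSectionVars false
set_option linter.unusedVariables false
set_option linter.style.haveILetI false

namespace Fermat.Agent.S55Lib

open groupCohomology

/-- arithmetic of the orders -/
lemma FA_dvd_of (p : ℕ) (hp : p.Prime) (a b c idx : ℕ) (hab : a ≤ b) (hidx : idx ≠ 0)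
    (ha : a = (p ^ c * idx).factorization p) (k : ℤ)
    (h : ((p ^ b : ℕ) : ℤ) ∣ (idx : ℤ) * k * ((p ^ (b - a) : ℕ) : ℤ)) : ((p ^ c : ℕ) : ℤ) ∣ k := by
  obtain ⟨e, m, hm, rfl⟩ := Nat.exists_eq_pow_mul_and_not_dvd hidx p hp.ne_one
  have hm0 : m ≠ 0 := by
    rintro rfl
    exact hm (dvd_zero p)
  have hae : a = c + e := by
    rw [ha, ← mul_assoc, ← pow_add, Nat.factorization_mul (pow_ne_zero _ hp.ne_zero) hm0,
      Nat.factorization_pow, Finsupp.add_apply, Finsupp.smul_apply, hp.factorization_self,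
      Nat.factorization_eq_zero_of_not_dvd hm]
    simp
  have hb : p ^ b = p ^ c * (p ^ e * p ^ (b - a)) := by
    rw [← pow_add, ← pow_add]
    congr 1
    omega
  have hpos : ((p ^ e * p ^ (b - a) : ℕ) : ℤ) ≠ 0 := by
    have := hp.pos
    positivity
  have h2 : ((p ^ c : ℕ) : ℤ) * ((p ^ e * p ^ (b - a) : ℕ) : ℤ) ∣
      ((m : ℤ) * k) * ((p ^ e * p ^ (b - a) : ℕ) : ℤ) := by
    have e1 : ((p ^ b : ℕ) : ℤ) = ((p ^ c : ℕ) : ℤ) * ((p ^ e * p ^ (b - a) : ℕ) : ℤ) := by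
      rw [hb]; push_cast; ring
    have e2 : (((p ^ e * m : ℕ) : ℤ)) * k * ((p ^ (b - a) : ℕ) : ℤ) =
        ((m : ℤ) * k) * ((p ^ e * p ^ (b - a) : ℕ) : ℤ) := by
      push_cast; ring
    rw [← e1, ← e2]
    exact h
  have h3 : ((p ^ c : ℕ) : ℤ) ∣ (m : ℤ) * k := (mul_dvd_mul_iff_right hpos).1 h2
  have hcop : IsCoprime ((p ^ c : ℕ) : ℤ) (m : ℤ) := by
    rw [Nat.isCoprime_iff_coprime]
    exact Nat.Coprime.pow_left c ((Nat.Prime.coprime_iff_not_dvd hp).2 hm)
  exact hcop.dvd_of_dvd_mul_left h3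

variable {G' : Type} [Group G'] [Finite G'] {C' : Type} [AddCommGroup C'] [DistribMulAction G' C']

/-- (FA) **the fundamental class, abstract form** (`π : G' ↠ Q`, `ι : B ≅ C'^{ker π}`). -/
theorem fund_class_abs (p : ℕ) [Fact p.Prime] (a b : ℕ) (hab : a ≤ b) (χ : G' → ZMod (p ^ b))
    (hχ : ∀ g h, χ (g * h) = χ g + χ h)
    {Q : Type} [Group Q] {B : Type} [AddCommGroup B] [DistribMulAction Q B]
    (π : G' →* Q) (hπ : Function.Surjective π) (ι : B →+ C') (hι : Function.Injective ι)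
    (hcomp : ∀ (g : G') (x : B), ι (π g • x) = g • ι x)
    (himg : ∀ c : C', (∀ ν ∈ π.ker, ν • c = c) → ∃ x, ι x = c)
    (hN1 : Function.Bijective (fun z : π.ker => χ (z : G')))
    (ha : a = (Nat.card Q).factorization p)
    (hdev : DevOut p G' C')
    (Λ : inv (⊤ : Subgroup G') C' →+ ZMod (p ^ b))
    (hΛN : ∀ z : inv (⊤ : Subgroup G') C',
      (∃ y ∈ inv (kerχ χ hχ) C', (z : C') = nrm (kerχ χ hχ) ⊤ y) → Λ z = 0)
    (hΛs : ∃ z : inv (⊤ : Subgroup G') C', (∃ y ∈ inv π.ker C', (z : C') = nrm π.ker ⊤ y) ∧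
      Λ z = 1) :
    ∃ u : Q × Q → B, IsCocycle₂ u ∧
      ∀ H : Subgroup Q, IsPGroup p H → ∀ k : ℤ,
        IsCoboundary₂ (k • fun x : H × H => u ((x.1 : Q), (x.2 : Q))) → (Nat.card H : ℤ) ∣ k := by
  have hp : p.Prime := Fact.out
  haveI : NeZero (p ^ b) := ⟨pow_ne_zero _ hp.ne_zero⟩
  haveI : Finite Q := Finite.of_surjective π hπ
  obtain ⟨z, hzN, hz1⟩ := id hΛs
  -- `ker π` is a `p`-group
  have hcardN : Nat.card π.ker = p ^ b := by
    rw [Nat.card_congr (Equiv.ofBijective _ hN1), Nat.card_zmod]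
  have hNp : IsPGroup p π.ker := IsPGroup.of_card hcardN
  -- the class `c0`
  set c0 : inv (⊤ : Subgroup G') C' := (p ^ (b - a)) • z with hc0
  have hΛc0 : Λ c0 = ((p ^ (b - a) : ℕ) : ZMod (p ^ b)) := by
    rw [hc0, map_nsmul, hz1, nsmul_eq_mul, mul_one]
  have hidxQ : π.ker.index = Nat.card Q := Subgroup.index_ker π ▸ by
    rw [MonoidHom.range_eq_top.2 hπ]
    exact Nat.card_congr Subgroup.topEquiv.toEquiv
  have hpa : p ^ a ∣ Nat.card Q := by
    rw [ha]
    exact Nat.ordProj_dvd _ _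
  have hidx0 : π.ker.index • Λ c0 = 0 := by
    rw [hΛc0, hidxQ, nsmul_eq_mul, ← Nat.cast_mul, ZMod.natCast_eq_zero_iff]
    obtain ⟨m, hm⟩ := hpa
    rw [hm]
    refine ⟨m, ?_⟩
    have : p ^ b = p ^ a * p ^ (b - a) := by rw [← pow_add]; congr 1; omega
    rw [this]; ring
  obtain ⟨y, hy⟩ := c0_mem_norm (p ^ b) χ hχ π.ker hN1 (hdev π.ker hNp).2 c0 Λ hidx0 hΛN hΛs
  have hc : ∀ g : G', g • (c0 : C') = c0 := fun g => c0.2 g trivial
  have hcoc : IsCocycle₂ (carry (p ^ b) χ (c0 : C')) := carry_isCocycle _ χ hχ _ hc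
  have hres : IsCoboundary₂ (resC π.ker (carry (p ^ b) χ (c0 : C'))) := by
    have := carry_cob_of_norm (p ^ b) χ hχ π.ker hN1 y
    rw [← hy] at this
    exact this
  obtain ⟨u, hu, hcu⟩ := infRes_descend π hπ ι hι hcomp himg (hdev π.ker hNp).1 _ hcoc hres
  refine ⟨u, hu, fun H hH k hk => ?_⟩
  have hH' : IsPGroup p (H.comap π) := hH.comap_of_ker_isPGroup π hNp
  -- `k • u'|H'` is a coboundary
  have h1 : IsCoboundary₂ (k • resC (H.comap π)
      (carry (p ^ b) χ (c0 : C') - fun x : G' × G' => ι (u (π x.1, π x.2)))) := by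
    obtain ⟨x, hx⟩ := hcu
    have h0 : IsCoboundary₂ (resC (H.comap π)
        (carry (p ^ b) χ (c0 : C') - fun x : G' × G' => ι (u (π x.1, π x.2)))) :=
      ⟨fun h => x (h : G'), fun g h => hx (g : G') (h : G')⟩
    exact (B2 (H.comap π) C').zsmul_mem h0 k
  have h2 : IsCoboundary₂ (k • resC (H.comap π)
      (fun x : G' × G' => ι (u (π x.1, π x.2)))) := by
    obtain ⟨x, hx⟩ := hk
    refine ⟨fun g => ι (x ⟨π (g : G'), g.2⟩), fun g h => ?_⟩
    have := hx ⟨π (g : G'), g.2⟩ ⟨π (h : G'), h.2⟩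
    have h3 := congrArg ι this
    rw [map_add, map_sub] at h3
    have h4 : ι ((⟨π (g : G'), g.2⟩ : H) • x ⟨π (h : G'), h.2⟩) =
        g • ι (x ⟨π (h : G'), h.2⟩) := hcomp (g : G') _
    rw [h4] at h3
    have h5 : (⟨π (g : G'), g.2⟩ : H) * ⟨π (h : G'), h.2⟩ = ⟨π ((g * h : H.comap π) : G'),
        (g * h).2⟩ := Subtype.ext (map_mul π _ _).symm
    rw [h5] at h3
    rw [h3]
    show ι (k • u (π (g : G'), π (h : G'))) = k • ι (u (π (g : G'), π (h : G')))
    rw [map_zsmul]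
  have h3 := (B2 (H.comap π) C').add_mem h1 h2
  have h4 : k • resC (H.comap π)
      (carry (p ^ b) χ (c0 : C') - fun x : G' × G' => ι (u (π x.1, π x.2))) +
      k • resC (H.comap π) (fun x : G' × G' => ι (u (π x.1, π x.2))) =
      k • resC (H.comap π) (carry (p ^ b) χ (c0 : C')) := by
    funext x
    simp only [Pi.add_apply, Pi.smul_apply, resC_apply, Pi.sub_apply]
    rw [zsmul_sub, sub_add_cancel]
  rw [h4] at h3
  have key := carry_order p (p ^ b) χ hχ (fun H hH => (hdev H hH).1) c0 Λ hΛN (H.comap π) hH' k h3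
  rw [hΛc0, Subgroup.index_comap_of_surjective H hπ, zsmul_eq_mul, ← Int.cast_natCast (p ^ (b - a)),
    ← Int.cast_mul, ZMod.intCast_zmod_eq_zero_iff_dvd] at key
  obtain ⟨c, hcH⟩ := hH.exists_card_eq
  rw [hcH]
  have hidxne : H.index ≠ 0 := Subgroup.index_ne_zero_of_finite
  refine FA_dvd_of p hp a b c H.index hab hidxne ?_ k key
  rw [ha, ← hcH, Subgroup.card_mul_index]

end Fermat.Agent.S55Lib
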