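import Fermat.Agent.S55.G3.FundOrder
import Fermat.Agent.S55.B.Defs

/-!
# S55, chapter G3 (abstract part): (FA2) the descent step `c0 ∈ N_{N1} C'`
-/

set_option autoImplicit false
set_option linter.unusedSectionVars false
set_option linter.unusedVariables false
set_option linter.style.haveILetI false

namespace Fermat.Agent.S55Lib

open groupCohomology

variable {G' : Type} [Group G'] [Finite G'] {C' : Type} [AddCommGroup C'] [DistribMulAction G' C']

/-- the norm of a subgroup on which `χ` is bijective -/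
lemma FA_nrm_bot_eq (n : ℕ) [NeZero n] (χ : G' → ZMod n)
    (hχ : ∀ g h, χ (g * h) = χ g + χ h) (Z : Subgroup G')
    (hZ : Function.Bijective (fun z : Z => χ (z : G'))) (t : Z) (ht : χ (t : G') = 1) (y : C') :
    nrm ⊥ Z y = ∑ i ∈ Finset.range n, t ^ i • y := by
  have hχ' : ∀ g h : Z, (fun z : Z => χ (z : G')) (g * h)
      = (fun z : Z => χ (z : G')) g + (fun z : Z => χ (z : G')) h := fun g h => hχ _ _
  have hy' : y ∈ inv (⊥ : Subgroup G') C' := by
    intro g hg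
    rw [Subgroup.mem_bot.mp hg, one_smul]
  have hpow : ∀ i : ℕ, χ ((t ^ i : Z) : G') = (i : ZMod n) := by
    intro i
    have := CA_pow (fun z : Z => χ (z : G')) hχ' t i
    rw [ht, mul_one] at this
    exact this
  have hr : Function.Bijective (fun i : Fin n =>
      (QuotientGroup.mk (t ^ (i : ℕ)) : Z ⧸ (⊥ : Subgroup G').subgroupOf Z)) := by
    constructor
    · intro i j hij
      have e1 : (t ^ (i : ℕ))⁻¹ * t ^ (j : ℕ) ∈ (⊥ : Subgroup G').subgroupOf Z :=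
        QuotientGroup.eq.mp hij
      rw [Subgroup.mem_subgroupOf, Subgroup.mem_bot] at e1
      have e2 : (t ^ (i : ℕ))⁻¹ * t ^ (j : ℕ) = 1 := Subtype.ext e1
      have e3 : t ^ (i : ℕ) = t ^ (j : ℕ) := inv_mul_eq_one.mp e2
      have e4 : ((i : ℕ) : ZMod n) = ((j : ℕ) : ZMod n) := by
        rw [← hpow, ← hpow, e3]
      have e5 := congrArg ZMod.val e4
      rw [ZMod.val_natCast, ZMod.val_natCast, Nat.mod_eq_of_lt i.2, Nat.mod_eq_of_lt j.2] at e5
      exact Fin.ext e5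
    · intro z
      induction z using QuotientGroup.induction_on with
      | H z =>
        refine ⟨⟨(χ (z : G')).val, ZMod.val_lt _⟩, ?_⟩
        show (QuotientGroup.mk (t ^ (χ (z : G')).val) : Z ⧸ (⊥ : Subgroup G').subgroupOf Z)
          = QuotientGroup.mk z
        congr 1
        apply hZ.1
        show χ ((t ^ (χ (z : G')).val : Z) : G') = χ (z : G')
        rw [hpow, ZMod.natCast_zmod_val]
  rw [NR_sum_bij ⊥ Z hy' (fun i : Fin n => t ^ (i : ℕ)) hr,
    ← Fin.sum_univ_eq_sum_range (fun i => t ^ i • y) n]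
  rfl

/-- coboundary ⇒ norm on a subgroup on which `χ` is bijective -/
lemma FA_norm_of_cob (n : ℕ) [NeZero n] (χ : G' → ZMod n)
    (hχ : ∀ g h, χ (g * h) = χ g + χ h) (Z : Subgroup G')
    (hZ : Function.Bijective (fun z : Z => χ (z : G'))) (c : C') (hc : c ∈ inv Z C')
    (hcob : IsCoboundary₂ (carry n (fun z : Z => χ (z : G')) c)) :
    ∃ y : C', c = nrm ⊥ Z y := by
  have hχ' : ∀ g h : Z, (fun z : Z => χ (z : G')) (g * h)
      = (fun z : Z => χ (z : G')) g + (fun z : Z => χ (z : G')) h := fun g h => hχ _ _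
  obtain ⟨t, ht⟩ := hZ.2 1
  have ht' : χ (t : G') = 1 := ht
  by_cases hn1 : n = 1
  · subst hn1
    refine ⟨c, ?_⟩
    rw [FA_nrm_bot_eq 1 χ hχ Z hZ t ht' c]
    simp
  have hn2 : 1 < n := by
    have := NeZero.ne n
    omega
  haveI : Fact (1 < n) := ⟨hn2⟩
  have hker : ∀ κ : kerχ (fun z : Z => χ (z : G')) hχ', κ = 1 := by
    intro κ
    apply Subtype.ext
    apply hZ.1
    show χ ((κ : Z) : G') = χ ((1 : Z) : G')
    rw [Subgroup.coe_one, CA_one χ hχ]
    exact κ.2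
  have h1 : ∀ f : kerχ (fun z : Z => χ (z : G')) hχ' → C', IsCocycle₁ f →
      IsCoboundary₁ (1 • f) := by
    intro f hf
    have hf1 : f 1 = 0 := by
      have := hf 1 1
      simpa using this
    refine ⟨0, fun g => ?_⟩
    rw [hker g]
    show (1 : kerχ (fun z : Z => χ (z : G')) hχ') • (0 : C') - 0 = 1 • f 1
    rw [hf1]
    simp
  obtain ⟨y, -, hy⟩ := carry_cob_norm n (fun z : Z => χ (z : G')) hχ' c
    (fun g => hc (g : G') g.2) 1 h1 t n (by
      show (χ (t : G')).val * n = n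
      rw [ht', ZMod.val_one, one_mul]) hcob
  refine ⟨y, ?_⟩
  rw [FA_nrm_bot_eq n χ hχ Z hZ t ht' y, ← hy, one_smul]

/-- the carry map `C'^Z → H²(Z, C')` -/
noncomputable def FA_Psi (n : ℕ) [NeZero n] (χ : G' → ZMod n)
    (hχ : ∀ g h, χ (g * h) = χ g + χ h) (Z : Subgroup G') : inv Z C' →+ H2 Z C' where
  toFun c := H2.mk ⟨carry n (fun z : Z => χ (z : G')) (c : C'),
    carry_isCocycle n (fun z : Z => χ (z : G')) (fun g h => hχ _ _) (c : C')
      (fun g => c.2 (g : G') g.2)⟩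
  map_zero' := by
    rw [H2.mk_eq_zero]
    refine ⟨0, fun g h => ?_⟩
    simp [carry]
  map_add' a b := by
    rw [← H2.mk_add]
    congr 1
    apply Subtype.ext
    funext x
    simp [carry]

/-- (FA2) **descent step**: `c0` is a norm from `N1`. -/
theorem c0_mem_norm (n : ℕ) [NeZero n] (χ : G' → ZMod n)
    (hχ : ∀ g h, χ (g * h) = χ g + χ h) (N1 : Subgroup G')
    (hN1 : Function.Bijective (fun z : N1 => χ (z : G')))
    (hH2 : Finite (H2 N1 C') ∧ Nat.card (H2 N1 C') ≤ Nat.card N1)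
    (c0 : inv (⊤ : Subgroup G') C') (Λ : inv (⊤ : Subgroup G') C' →+ ZMod n)
    (hc0 : N1.index • Λ c0 = 0)
    (hΛN : ∀ z : inv (⊤ : Subgroup G') C',
      (∃ y ∈ inv (kerχ χ hχ) C', (z : C') = nrm (kerχ χ hχ) ⊤ y) → Λ z = 0)
    (hΛs : ∃ z : inv (⊤ : Subgroup G') C', (∃ y ∈ inv N1 C', (z : C') = nrm N1 ⊤ y) ∧ Λ z = 1) :
    ∃ y : C', (c0 : C') = nrm ⊥ N1 y := by
  haveI := hH2.1
  set K := kerχ χ hχ with hK
  -- the map `Λ'`
  let ν : inv N1 C' →+ inv (⊤ : Subgroup G') C' :=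
    AddMonoidHom.mk' (fun c => ⟨nrm N1 ⊤ (c : C'), nrm_mem_inv (FA_relIndex_ne_zero _ _) c.2⟩)
      (fun a b => Subtype.ext (nrm_add N1 ⊤ (FA_relIndex_ne_zero _ _) (a : C') (b : C')))
  let Λ' : inv N1 C' →+ ZMod n := Λ.comp ν
  let Ψ : inv N1 C' →+ H2 N1 C' := FA_Psi n χ hχ N1
  have hbot : ∀ y : C', y ∈ inv (⊥ : Subgroup G') C' := by
    intro y g hg
    rw [Subgroup.mem_bot.mp hg, one_smul]
  -- `ker Ψ ≤ ker Λ'`
  have hle : Ψ.ker ≤ Λ'.ker := by
    intro c hc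
    rw [AddMonoidHom.mem_ker] at hc ⊢
    have hc' : IsCoboundary₂ (carry n (fun z : N1 => χ (z : G')) (c : C')) := H2.mk_eq_zero.1 hc
    obtain ⟨y, hy⟩ := FA_norm_of_cob n χ hχ N1 hN1 (c : C') c.2 hc'
    apply hΛN
    refine ⟨nrm ⊥ K y, nrm_mem_inv (FA_relIndex_ne_zero _ _) (hbot y), ?_⟩
    show nrm N1 ⊤ (c : C') = _
    rw [hy, nrm_trans bot_le le_top (FA_relIndex_ne_zero _ _) (FA_relIndex_ne_zero _ _) (hbot y),
      nrm_trans bot_le le_top (FA_relIndex_ne_zero _ _) (FA_relIndex_ne_zero _ _) (hbot y)]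
  -- surjectivity of `Λ'`
  have hsurj : Function.Surjective Λ' := by
    obtain ⟨z, ⟨y, hy, hzy⟩, hz1⟩ := hΛs
    have h1 : Λ' ⟨y, hy⟩ = 1 := by
      show Λ ⟨nrm N1 ⊤ y, _⟩ = 1
      rw [← hz1]
      congr 1
      exact Subtype.ext hzy.symm
    intro a
    refine ⟨a.val • ⟨y, hy⟩, ?_⟩
    rw [map_nsmul, h1, nsmul_eq_mul, mul_one, ZMod.natCast_zmod_val]
  have hcardN : Nat.card N1 = n := by
    rw [Nat.card_congr (Equiv.ofBijective _ hN1), Nat.card_zmod]
  have i1 : Λ'.ker.index = n := by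
    rw [AddSubgroup.index_ker, AddMonoidHom.range_eq_top.2 hsurj]
    rw [Nat.card_congr (AddSubgroup.topEquiv.toEquiv), Nat.card_zmod]
  have i2 : Ψ.ker.index ≤ n := by
    rw [AddSubgroup.index_ker]
    calc Nat.card Ψ.range ≤ Nat.card (H2 N1 C') := Nat.card_le_card_of_injective _
          Subtype.val_injective
      _ ≤ n := hcardN ▸ hH2.2
  have i3 : Ψ.ker.index ≠ 0 := by
    rw [AddSubgroup.index_ker]
    exact Nat.card_pos.ne'
  have i4 : Ψ.ker.relIndex Λ'.ker * Λ'.ker.index = Ψ.ker.index :=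
    AddSubgroup.relIndex_mul_index hle
  have hn0 : 0 < n := Nat.pos_of_ne_zero (NeZero.ne n)
  have i5 : Ψ.ker.relIndex Λ'.ker = 1 := by
    rw [i1] at i4
    have h0 : Ψ.ker.relIndex Λ'.ker ≠ 0 := by
      intro h
      rw [h, zero_mul] at i4
      exact i3 i4.symm
    have h2 : Ψ.ker.relIndex Λ'.ker * n ≤ 1 * n := by rw [i4, one_mul]; exact i2
    have := Nat.le_of_mul_le_mul_right h2 hn0
    omega
  have hge : Λ'.ker ≤ Ψ.ker := AddSubgroup.relIndex_eq_one.1 i5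
  -- `c0 ∈ ker Λ'`
  have hc0N : (c0 : C') ∈ inv N1 C' := fun g _ => c0.2 g trivial
  have hmem : (⟨(c0 : C'), hc0N⟩ : inv N1 C') ∈ Λ'.ker := by
    rw [AddMonoidHom.mem_ker]
    show Λ ⟨nrm N1 ⊤ (c0 : C'), _⟩ = 0
    rw [← hc0, ← map_nsmul]
    congr 1
    apply Subtype.ext
    show nrm N1 ⊤ (c0 : C') = N1.index • (c0 : C')
    rw [nrm_of_mem_inv N1 ⊤ c0.2, Subgroup.relIndex_top_right]
  have h3 := hge hmem
  rw [AddMonoidHom.mem_ker] at h3
  exact FA_norm_of_cob n χ hχ N1 hN1 (c0 : C') hc0N (H2.mk_eq_zero.1 h3)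

end Fermat.Agent.S55Lib
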