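import Fermat.Agent.S55.G3.Carry

/-!
# S55, chapter G3 (abstract part): (FA3) the order of the restrictions of the carry cocycle
-/

set_option autoImplicit false
set_option linter.unusedSectionVars false
set_option linter.unusedVariables false

namespace Fermat.Agent.S55Lib

open groupCohomology

variable {G' : Type} [Group G'] [Finite G'] {C' : Type} [AddCommGroup C'] [DistribMulAction G' C']

omit [AddCommGroup C'] [DistribMulAction G' C'] in
lemma FA_relIndex_ne_zero (K H : Subgroup G') : K.relIndex H ≠ 0 :=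
  Subgroup.index_ne_zero_of_finite

/-- (FA3) **order of the restrictions** of the carry cocycle to `p`-subgroups of `G'`. -/
theorem carry_order (p : ℕ) [Fact p.Prime] (n : ℕ) [NeZero n] (χ : G' → ZMod n)
    (hχ : ∀ g h, χ (g * h) = χ g + χ h)
    (hH1 : ∀ H : Subgroup G', IsPGroup p H → ∀ f : H → C', IsCocycle₁ f → IsCoboundary₁ f)
    (c0 : inv (⊤ : Subgroup G') C') (Λ : inv (⊤ : Subgroup G') C' →+ ZMod n)
    (hΛN : ∀ z : inv (⊤ : Subgroup G') C',
      (∃ y ∈ inv (kerχ χ hχ) C', (z : C') = nrm (kerχ χ hχ) ⊤ y) → Λ z = 0)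
    (H : Subgroup G') (hH : IsPGroup p H) (k : ℤ)
    (hcob : IsCoboundary₂ (k • fun x : H × H => carry n χ (c0 : C') ((x.1 : G'), (x.2 : G')))) :
    ((H.index : ℤ) * k) • Λ c0 = 0 := by
  set K := kerχ χ hχ with hK
  have hc : ∀ g : G', g • (c0 : C') = c0 := fun g => c0.2 g trivial
  have hHK : IsPGroup p (H ⊓ K : Subgroup G') := hH.to_le inf_le_left
  obtain ⟨y, hy, hky⟩ := carry_cob_nrm n χ hχ (c0 : C') hc H (hH1 _ hHK) k hcob
  have hkc : k • (c0 : C') ∈ inv (⊤ : Subgroup G') C' := fun g _ => by rw [smul_comm, hc]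
  have e1 : nrm H ⊤ (k • (c0 : C')) = H.index • (k • (c0 : C')) := by
    rw [nrm_of_mem_inv H ⊤ hkc, Subgroup.relIndex_top_right]
  have e2 : nrm H ⊤ (nrm (H ⊓ K) H y) = nrm (H ⊓ K) ⊤ y :=
    nrm_trans inf_le_left le_top (FA_relIndex_ne_zero _ _) (FA_relIndex_ne_zero _ _) hy
  have e3 : nrm K ⊤ (nrm (H ⊓ K) K y) = nrm (H ⊓ K) ⊤ y :=
    nrm_trans inf_le_right le_top (FA_relIndex_ne_zero _ _) (FA_relIndex_ne_zero _ _) hy
  have hy' : nrm (H ⊓ K) K y ∈ inv K C' := nrm_mem_inv (FA_relIndex_ne_zero _ _) hy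
  have hz : ((((H.index : ℤ) * k) • c0 : inv (⊤ : Subgroup G') C') : C')
      = nrm K ⊤ (nrm (H ⊓ K) K y) := by
    rw [e3, ← e2, ← hky, e1]
    show ((H.index : ℤ) * k) • (c0 : C') = _
    rw [mul_smul, natCast_zsmul]
  have := hΛN _ ⟨_, hy', hz⟩
  rwa [map_zsmul] at this

end Fermat.Agent.S55Lib
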