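import Fermat.Agent.S55.G3.Carry
import Fermat.Agent.S55.G3.InfRes

/-!
# S55, chapter G3 (abstract part): local-global compatibility (LG), abstract form

`G' = Gal(L''Σ/ℚ)`, `N1 = Gal(L''Σ/L'')`, `χ : G' → Gal(Σ/ℚ) = ℤ/p`, `Σ/ℚ` cyclic of degree `p` in
which the prime `q` is inert; `A' = J_q(L''Σ)`, `C' = C(L''Σ)`, `a0` = the idele `q` at `q`.
-/

set_option autoImplicit false
set_option linter.unusedSectionVars false
set_option linter.unusedVariables false

namespace Fermat.Agent.S55Lib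

open groupCohomology

/-- (RC1) restriction-corestriction in degree 1, by hand.  `f|P = d a`; subtract `d a`: `f|P = 0`,
so `f (g x) = f g` for `x ∈ P`; `b := ∑_{y ∈ K/P} f y`; `g • b = b - [K:P] • f g`. -/
theorem index_smul_isCoboundary₁ {K : Type} [Group K] [Finite K] {C : Type} [AddCommGroup C]
    [DistribMulAction K C] (P : Subgroup K)
    (h1 : ∀ f : P → C, IsCocycle₁ f → IsCoboundary₁ f) (f : K → C) (hf : IsCocycle₁ f) :
    IsCoboundary₁ (P.index • f) := by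
  classical
  have := Fintype.ofFinite (K ⧸ P)
  obtain ⟨y, hy⟩ := h1 (fun ν => f (ν : K)) (fun a b => hf a b)
  obtain ⟨f₂, hdef₂⟩ : ∃ f₂ : K → C, ∀ g, f₂ g = f g - (g • y - y) := ⟨_, fun _ => rfl⟩
  have hf₂ : IsCocycle₁ f₂ := by
    intro a b
    rw [hdef₂, hdef₂, hdef₂, hf, mul_smul, smul_sub, smul_sub]; abel
  have hk₂ : ∀ ν ∈ P, f₂ ν = 0 := by
    intro ν hν
    have := hy ⟨ν, hν⟩
    rw [hdef₂, sub_eq_zero]; exact this.symm
  have hr : ∀ g : K, ∀ ν ∈ P, f₂ (g * ν) = f₂ g := by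
    intro g ν hν
    rw [hf₂, hk₂ ν hν, smul_zero, zero_add]
  let F : K ⧸ P → C := fun x => Quotient.liftOn' x f₂ (fun a b hab => by
    have h1 : a⁻¹ * b ∈ P := QuotientGroup.leftRel_apply.1 hab
    rw [← hr a _ h1]
    congr 1
    group)
  have hF : ∀ g : K, F (g : K ⧸ P) = f₂ g := fun g => rfl
  have hFs : ∀ (g : K) (x : K ⧸ P), F (g • x) = g • F x + f₂ g := by
    intro g x
    induction x using QuotientGroup.induction_on with
    | H x => exact hf₂ g x
  obtain ⟨b, hb⟩ : ∃ b : C, b = ∑ x : K ⧸ P, F x := ⟨_, rfl⟩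
  have hsum : ∀ g : K, b = g • b + P.index • f₂ g := by
    intro g
    have h2 : ∑ x : K ⧸ P, F (g • x) = ∑ x : K ⧸ P, F x := Equiv.sum_comp (MulAction.toPerm g) F
    rw [Finset.sum_congr rfl (fun x _ => hFs g x), Finset.sum_add_distrib,
      ← Finset.smul_sum, Finset.sum_const, Finset.card_univ, ← hb] at h2
    rw [Subgroup.index, Nat.card_eq_fintype_card]
    exact h2.symm
  refine ⟨P.index • y - b, fun g => ?_⟩
  have h3 := hsum g
  show _ = P.index • f g
  have h4 : f g = f₂ g + (g • y - y) := by rw [hdef₂]; abel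
  rw [h4, smul_add, smul_sub, smul_sub, smul_comm g P.index y]
  have h5 : P.index • f₂ g = b - g • b := by
    rw [eq_sub_iff_add_eq, add_comm]
    exact h3.symm
  rw [h5]
  abel

variable {G' : Type} [Group G'] [Finite G'] {A' C' : Type} [AddCommGroup A']
  [DistribMulAction G' A'] [AddCommGroup C'] [DistribMulAction G' C']

omit [Finite G'] in
lemma LG_gen (p : ℕ) [Fact p.Prime] (χ : G' → ZMod p) (hχ : ∀ g h, χ (g * h) = χ g + χ h)
    (t : G') (ht : χ t = 1) (h : G') : (t ^ (χ h).val)⁻¹ * h ∈ kerχ χ hχ := by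
  rw [CA_mem_ker, hχ, CA_inv χ hχ, CA_pow χ hχ, ht, mul_one, ZMod.natCast_zmod_val]
  simp

omit [Finite G'] in
lemma LG_relIndex (p : ℕ) [Fact p.Prime] (χ : G' → ZMod p) (hχ : ∀ g h, χ (g * h) = χ g + χ h)
    (t : G') (ht : χ t = 1) : (kerχ χ hχ).relIndex ⊤ = p := by
  let φ : G' →* Multiplicative (ZMod p) :=
    MonoidHom.mk' (fun g => Multiplicative.ofAdd (χ g)) (fun a b => by rw [hχ]; rfl)
  have hker : φ.ker = kerχ χ hχ := by
    ext g
    rw [MonoidHom.mem_ker, CA_mem_ker]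
    exact Multiplicative.ofAdd.injective.eq_iff' rfl
  have hsurj : Function.Surjective φ := by
    intro z
    refine ⟨t ^ (Multiplicative.toAdd z).val, ?_⟩
    show Multiplicative.ofAdd (χ _) = z
    rw [CA_pow χ hχ, ht, mul_one, ZMod.natCast_zmod_val]
    rfl
  rw [Subgroup.relIndex_top_right, ← hker, Subgroup.index_ker, MonoidHom.range_eq_top.2 hsurj,
    Subgroup.card_top, Nat.card_eq_fintype_card]
  simp [ZMod.card]

omit [Finite G'] in
lemma LG_sum_fixed (p : ℕ) (t : G') (a : A') (ha : ∀ g : G', g • a = a) :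
    ∑ i ∈ Finset.range p, t ^ i • a = p • a := by
  rw [Finset.sum_congr rfl (fun i _ => ha (t ^ i)), Finset.sum_const, Finset.card_range]

/-- (LGA) **abstract (LG)**. -/
theorem lg_abs (p : ℕ) [Fact p.Prime] (π' : A' →+ C') (eπ' : ∀ (g : G') a, π' (g • a) = g • π' a)
    (N1 : Subgroup G') [N1.Normal] (χ : G' → ZMod p) (hχ : ∀ g h, χ (g * h) = χ g + χ h)
    (t : G') (ht : χ t = 1)
    (hA1 : ∀ f : N1 → A', IsCocycle₁ f → IsCoboundary₁ f)
    (m : ℕ) (hm : m.Coprime p)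
    (hCK : ∀ f : kerχ χ hχ → C', IsCocycle₁ f → IsCoboundary₁ (m • f))
    (a0 : A') (ha0 : ∀ g : G', g • a0 = a0)
    (hloc : ∀ f : G' × G' → A', IsCocycle₂ f → IsCoboundary₂ (p • f) →
      ∃ k : ℤ, IsCoboundary₂ (f - k • carry p χ a0))
    (Λ : inv (⊤ : Subgroup G') C' →+ ZMod p)
    (hΛN : ∀ z : inv (⊤ : Subgroup G') C',
      (∃ y ∈ inv (kerχ χ hχ) C', (z : C') = nrm (kerχ χ hχ) ⊤ y) → Λ z = 0)
    (hΛa0 : ∀ z : inv (⊤ : Subgroup G') C', (z : C') = π' a0 → Λ z ≠ 0)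
    (f : (G' ⧸ N1) × (G' ⧸ N1) → inv N1 A') (hf : IsCocycle₂ f) (hpf : IsCoboundary₂ (p • f))
    (hπf : IsCoboundary₂ (fun x : G' × G' => π' (infl2 N1 f x))) :
    IsCoboundary₂ f := by
  have hpp : p.Prime := Fact.out
  have : Fact (1 < p) := ⟨hpp.one_lt⟩
  apply infl2_injective N1 hA1 hf
  have hFc := infl2_isCocycle N1 hf
  have hpF : IsCoboundary₂ (p • infl2 N1 f) := infl2_isCoboundary N1 hpf
  obtain ⟨k, hk⟩ := hloc _ hFc hpF
  -- push to `C'`
  have hpush : ∀ F : G' × G' → A', IsCoboundary₂ F → IsCoboundary₂ (fun x => π' (F x)) := by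
    rintro F ⟨β, hβ⟩
    refine ⟨fun g => π' (β g), fun g h => ?_⟩
    show g • π' (β h) - π' (β (g * h)) + π' (β g) = π' (F (g, h))
    rw [← eπ', ← map_sub, ← map_add, hβ]
  have hc0 : ∀ g : G', g • (k • π' a0) = k • π' a0 := by
    intro g
    rw [smul_comm, ← eπ', ha0]
  have hcar : IsCoboundary₂ (carry p χ (k • π' a0)) := by
    have h1 := hpush _ hk
    have e : carry p χ (k • π' a0) = (fun x => π' (infl2 N1 f x)) -
        fun x => π' ((infl2 N1 f - k • carry p χ a0) x) := by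
      funext x
      simp only [Pi.sub_apply, Pi.smul_apply, map_sub, map_zsmul, carry, map_nsmul]
      rw [smul_comm]
      abel
    rw [e]
    exact (B2 G' C').sub_mem hπf h1
  obtain ⟨y, hy, hmy⟩ := carry_cob_norm p χ hχ _ hc0 m hCK t p
    (by rw [ht, ZMod.val_one, one_mul]) hcar
  rw [← nrm_cyclic (K := kerχ χ hχ) (H := ⊤) le_top (Subgroup.mem_top t)
    (LG_relIndex p χ hχ t ht) (fun h _ => ⟨_, LG_gen p χ hχ t ht h⟩) hy] at hmy
  let z0 : inv (⊤ : Subgroup G') C' := ⟨π' a0, fun g _ => by rw [← eπ', ha0]⟩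
  have hz : Λ (m • k • z0) = 0 := hΛN _ ⟨y, hy, hmy⟩
  have hz0 : Λ z0 ≠ 0 := hΛa0 z0 rfl
  rw [map_nsmul, map_zsmul, nsmul_eq_mul, zsmul_eq_mul, ← mul_assoc] at hz
  have hmk : ((m : ZMod p) * (k : ZMod p)) = 0 := by
    rcases mul_eq_zero.1 hz with h | h
    · exact h
    · exact absurd h hz0
  have hm0 : (m : ZMod p) ≠ 0 := by
    intro h
    rw [ZMod.natCast_eq_zero_iff] at h
    have := Nat.Coprime.eq_one_of_dvd hm.symm h
    exact hpp.one_lt.ne' this
  have hk0 : (k : ZMod p) = 0 := by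
    rcases mul_eq_zero.1 hmk with h | h
    · exact absurd h hm0
    · exact h
  obtain ⟨k', rfl⟩ := (ZMod.intCast_zmod_eq_zero_iff_dvd k p).1 hk0
  have hcob : IsCoboundary₂ (((p : ℤ) * k') • carry p χ a0) := by
    rw [carry_zsmul, mul_smul, natCast_zsmul,
      ← LG_sum_fixed p t (k' • a0) (fun g => by rw [smul_comm, ha0])]
    exact carry_cob_of_norm' p χ hχ t ht _ (fun g _ => by rw [smul_comm, ha0])
  have e : infl2 N1 f = (infl2 N1 f - ((p : ℤ) * k') • carry p χ a0) +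
      ((p : ℤ) * k') • carry p χ a0 := by abel
  rw [e]
  exact (B2 G' A').add_mem hk hcob

/-- (LGB) the hypothesis `hloc` from: the `p`-torsion of `H²(G',A')` is cyclic of order `≤ p`
(`hcyc`, from Shapiro + the local class module) and `carry p χ a0` is not a coboundary
(`a0` is not a norm: `hnn`; use `carry_cob_norm` with `m = 1`, `e = p`). -/
theorem hloc_of_cyclic (p : ℕ) [Fact p.Prime] (χ : G' → ZMod p)
    (hχ : ∀ g h, χ (g * h) = χ g + χ h) (t : G') (ht : χ t = 1)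
    (hAK : ∀ f : kerχ χ hχ → A', IsCocycle₁ f → IsCoboundary₁ f)
    (a0 : A') (ha0 : ∀ g : G', g • a0 = a0)
    (hnn : ∀ y ∈ inv (kerχ χ hχ) A', a0 ≠ ∑ i ∈ Finset.range p, t ^ i • y)
    (hcyc : ∀ f g : G' × G' → A', IsCocycle₂ f → IsCocycle₂ g → IsCoboundary₂ (p • f) →
      IsCoboundary₂ (p • g) → ¬ IsCoboundary₂ g → ∃ k : ℤ, IsCoboundary₂ (f - k • g)) :
    ∀ f : G' × G' → A', IsCocycle₂ f → IsCoboundary₂ (p • f) →
      ∃ k : ℤ, IsCoboundary₂ (f - k • carry p χ a0) := by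
  have hpp : p.Prime := Fact.out
  have : Fact (1 < p) := ⟨hpp.one_lt⟩
  intro f hf hpf
  apply hcyc f _ hf (carry_isCocycle p χ hχ a0 ha0) hpf
  · have e : p • carry p χ a0 = carry p χ (∑ i ∈ Finset.range p, t ^ i • a0) := by
      rw [LG_sum_fixed p t a0 ha0, ← natCast_zsmul, carry_zsmul, natCast_zsmul]
    rw [e]
    exact carry_cob_of_norm' p χ hχ t ht _ (fun g _ => ha0 g)
  · intro hcob
    obtain ⟨y, hy, h1y⟩ := carry_cob_norm p χ hχ a0 ha0 1
      (fun f hf => by rw [one_smul]; exact hAK f hf) t p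
      (by rw [ht, ZMod.val_one, one_mul]) hcob
    rw [one_smul] at h1y
    exact hnn y hy h1y

end Fermat.Agent.S55Lib
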