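import Fermat.Agent.S55.G3.LaRes
import Fermat.Agent.S55.G.G1Defs

/-!
# S55, chapter G3, (LA3): the units of `ℤ`
-/

set_option autoImplicit false
set_option linter.unusedSectionVars false
set_option linter.unusedVariables false

namespace Fermat.Agent.S55Lib

noncomputable section

section LA

lemma LA3_rat (r : ℚ) (h : ∀ q : Nat.Primes, ‖(r : ℚ_[(q : ℕ)])‖ = 1) : r = 1 ∨ r = -1 := by
  have key : ∀ q : Nat.Primes, ((q : ℕ) ∣ r.den ↔ (q : ℕ) ∣ r.num.natAbs) := by
    intro q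
    have h1 : (r : ℚ_[(q : ℕ)]) * (r.den : ℚ_[(q : ℕ)]) = (r.num : ℚ_[(q : ℕ)]) := by
      exact_mod_cast congrArg (fun x : ℚ => (x : ℚ_[(q : ℕ)])) (Rat.mul_den_eq_num r)
    have h2 := congrArg norm h1
    rw [norm_mul, h q, one_mul] at h2
    rw [← Padic.norm_natCast_lt_one_iff (p := (q : ℕ)), h2, Padic.norm_intCast_lt_one_iff,
      Int.natCast_dvd]
  have hno : ∀ q : ℕ, q.Prime → ¬ (q ∣ r.den) := by
    intro q hq hd
    have h1 := (key ⟨q, hq⟩).1 hd
    have h2 := Nat.dvd_gcd h1 hd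
    rw [Nat.Coprime.gcd_eq_one r.reduced] at h2
    exact hq.one_lt.ne' (Nat.dvd_one.1 h2)
  have hden : r.den = 1 := Nat.eq_one_iff_not_exists_prime_dvd.2 hno
  have hnum : r.num.natAbs = 1 :=
    Nat.eq_one_iff_not_exists_prime_dvd.2 fun q hq hd => hno q hq ((key ⟨q, hq⟩).2 hd)
  have hr : r = r.num := by
    conv_lhs => rw [← Rat.num_div_den r, hden]
    simp
  rcases Int.natAbs_eq r.num with h1 | h1
  · left; rw [hr, h1, hnum]; simp
  · right; rw [hr, h1, hnum]; simp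

/-- (LA3) S55/G3/LaSign.lean : the units of `ℤ`. -/
theorem eq_one_or_neg_one_of_isUnitId (a : Qbarˣ) (ha : a ∈ FX ⊥) (hu : IsUnitId (diag a)) :
    a = 1 ∨ a = -1 := by
  obtain ⟨r, hr⟩ := IntermediateField.mem_bot.1 (show (a : Qbar) ∈ (⊥ : IntermediateField ℚ Qbar) from ha)
  have h : ∀ q : Nat.Primes, ‖(r : ℚ_[(q : ℕ)])‖ = 1 := by
    intro q
    have h1 := hu q 1
    rw [diag_comp, ← hr] at h1
    have h2 : iq q ((1 : GQ) (algebraMap ℚ Qbar r)) =
        algebraMap ℚ_[(q : ℕ)] (Om q) (r : ℚ_[(q : ℕ)]) := by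
      rw [AlgEquiv.one_apply, (iq q).commutes, eq_ratCast, map_ratCast]
    rwa [h2, LA1_norm_algebraMap] at h1
  rcases LA3_rat r h with h1 | h1
  · left
    apply Units.ext
    rw [← hr, h1, map_one, Units.val_one]
  · right
    apply Units.ext
    rw [← hr, h1, map_neg, map_one, Units.val_neg, Units.val_one]

end LA

end

end Fermat.Agent.S55Lib
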