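import Fermat.Agent.S55.G3.LaRat
import Fermat.Agent.S55.G3.LaSign
import Fermat.Agent.S55.G.Descent

/-!
# S55, chapter G3, (LA4): `Λ` on the ideles of `ℚ`
-/

set_option autoImplicit false
set_option linter.unusedSectionVars false
set_option linter.unusedVariables false

namespace Fermat.Agent.S55Lib

noncomputable section

section LA

lemma IsUnitId.one : IsUnitId 1 := fun q g => by rw [cmp_one, Units.val_one, norm_one]

lemma IsUnitId.mul {u v : JJ} (hu : IsUnitId u) (hv : IsUnitId v) : IsUnitId (u * v) :=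
  fun q g => by rw [cmp_mul, Units.val_mul, norm_mul, hu q g, hv q g, one_mul]

lemma IsUnitId.inv {u : JJ} (hu : IsUnitId u) : IsUnitId u⁻¹ :=
  fun q g => by rw [cmp_inv, Units.val_inv_eq_inv_val, norm_inv, hu q g, inv_one]

lemma IsUnitId.div {u v : JJ} (hu : IsUnitId u) (hv : IsUnitId v) : IsUnitId (u / v) := by
  rw [div_eq_mul_inv]
  exact hu.mul hv.inv

variable (l : Nat.Primes)

/-- `x = diag a * u`, `u` a unit idele with residue `t` at `l` -/
def LA4_Rel (x : JJ) (a : Qbarˣ) (t : (ZMod (l : ℕ))ˣ) : Prop :=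
  a ∈ FX ⊥ ∧ IsUnitId (x / diag a) ∧ HasRes l ((cmp (x / diag a) l 1 : (Om l)ˣ) : Om l) t

lemma LA4_exists (x : JJ) (hx : x ∈ JF ⊥) : ∃ a t, LA4_Rel l x a t := by
  obtain ⟨a, ha, hu⟩ := exists_rat_of_JFbot x hx
  have h1 : x / diag a ∈ JF ⊥ := div_mem hx ((diag_mem_JF_iff ⊥ a).2 ha)
  obtain ⟨t, ht⟩ := exists_hasRes l _ (LA2_cmp_mem_bot h1 l 1) (hu l 1)
  exact ⟨a, t, ha, hu, ht⟩

variable {l}

lemma LA4_Rel.mul {x x' : JJ} {a a' : Qbarˣ} {t t' : (ZMod (l : ℕ))ˣ} (h : LA4_Rel l x a t)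
    (h' : LA4_Rel l x' a' t') : LA4_Rel l (x * x') (a * a') (t * t') := by
  have e : x * x' / diag (a * a') = (x / diag a) * (x' / diag a') := by
    rw [map_mul, mul_div_mul_comm]
  refine ⟨mul_mem h.1 h'.1, ?_, ?_⟩
  · rw [e]; exact h.2.1.mul h'.2.1
  · rw [e, cmp_mul, Units.val_mul]; exact h.2.2.mul h'.2.2

lemma LA4_lam_neg_one (n : ℕ) (hn : Odd n) (lam : (ZMod (l : ℕ))ˣ →* Multiplicative (ZMod n)) :
    lam (-1) = 1 := by
  have h1 : lam (-1) * lam (-1) = 1 := by rw [← map_mul, neg_mul_neg, one_mul, map_one]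
  have h2 : Multiplicative.toAdd (lam (-1)) + Multiplicative.toAdd (lam (-1)) = 0 :=
    congrArg Multiplicative.toAdd h1
  have h3 : IsUnit ((2 : ℕ) : ZMod n) :=
    (ZMod.isUnit_iff_coprime 2 n).2 (Nat.coprime_two_left.2 hn)
  have h4 : ((2 : ℕ) : ZMod n) * Multiplicative.toAdd (lam (-1)) = 0 := by
    rw [Nat.cast_two, two_mul]; exact h2
  have h5 : Multiplicative.toAdd (lam (-1)) = 0 := (h3.mul_right_eq_zero).1 h4
  exact congrArg Multiplicative.ofAdd h5

lemma LA4_Rel.unique (n : ℕ) (hn : Odd n) (lam : (ZMod (l : ℕ))ˣ →* Multiplicative (ZMod n))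
    {x : JJ} {a a' : Qbarˣ} {t t' : (ZMod (l : ℕ))ˣ} (h : LA4_Rel l x a t)
    (h' : LA4_Rel l x a' t') : lam t = lam t' := by
  have e : x / diag a = (x / diag a') * diag (a' / a) := by
    rw [map_div, div_mul_div_cancel]
  have hu : IsUnitId (diag (a' / a)) := by
    have : diag (a' / a) = (x / diag a) / (x / diag a') := by
      rw [e, mul_div_cancel_left]
    rw [this]
    exact h.2.1.div h'.2.1
  rcases eq_one_or_neg_one_of_isUnitId _ (div_mem h'.1 h.1) hu with h1 | h1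
  · have h2 := h.2.2
    rw [e, h1, map_one, mul_one] at h2
    rw [h2.unique h'.2.2]
  · have h2 := h.2.2
    rw [e, h1, cmp_mul, Units.val_mul, diag_comp] at h2
    have h3 : iq l ((1 : GQ) ((-1 : Qbarˣ) : Qbar)) = -1 := by
      rw [AlgEquiv.one_apply, Units.val_neg, Units.val_one, map_neg, map_one]
    rw [h3] at h2
    rw [h2.unique (h'.2.2.mul hasRes_neg_one), map_mul, LA4_lam_neg_one n hn lam, mul_one]

/-- (LA4) S55/G3/LaJ.lean : `Λ` on the ideles of `ℚ`. -/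
theorem exists_LambdaJ (n : ℕ) (hn : Odd n) (lam : (ZMod (l : ℕ))ˣ →* Multiplicative (ZMod n)) :
    ∃ Λ : JF (⊥ : IntermediateField ℚ Qbar) →* Multiplicative (ZMod n),
      (∀ x : JF (⊥ : IntermediateField ℚ Qbar), (∃ a, (x : JJ) = diag a) → Λ x = 1) ∧
      (∀ (u : JF (⊥ : IntermediateField ℚ Qbar)) (t : (ZMod (l : ℕ))ˣ), IsUnitId (u : JJ) →
        HasRes l ((cmp (u : JJ) l 1 : (Om l)ˣ) : Om l) t → Λ u = (lam t)⁻¹) := by
  choose A T hAT using fun x : JF (⊥ : IntermediateField ℚ Qbar) => LA4_exists l (x : JJ) x.2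
  have spec : ∀ (x : JF (⊥ : IntermediateField ℚ Qbar)) (a : Qbarˣ) (t : (ZMod (l : ℕ))ˣ),
      LA4_Rel l (x : JJ) a t → (lam (T x))⁻¹ = (lam t)⁻¹ := by
    intro x a t h
    rw [(hAT x).unique n hn lam h]
  refine ⟨MonoidHom.mk' (fun x => (lam (T x))⁻¹) ?_, ?_, ?_⟩
  · intro x x'
    rw [spec (x * x') _ _ ((hAT x).mul (hAT x')), map_mul, mul_inv]
  · rintro x ⟨a, ha⟩
    show (lam (T x))⁻¹ = 1
    have h1 : LA4_Rel l (x : JJ) a 1 := by
      refine ⟨(diag_mem_JF_iff ⊥ a).1 (ha ▸ x.2), ?_, ?_⟩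
      · rw [ha, div_self']; exact IsUnitId.one
      · rw [ha, div_self', cmp_one, Units.val_one]; exact hasRes_one
    rw [spec x a 1 h1, map_one, inv_one]
  · intro u t hu ht
    show (lam (T u))⁻¹ = (lam t)⁻¹
    apply spec u 1 t
    refine ⟨one_mem _, ?_, ?_⟩
    · rw [map_one, div_one]; exact hu
    · rw [map_one, div_one]; exact ht

end LA

end

end Fermat.Agent.S55Lib
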