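import Fermat.Agent.S55.G3.ArtDefs
import Fermat.Agent.S55.G2.PlaceDense
import Fermat.Agent.S55.G2.TameFix

/-!
# S55, chapter G3, (LR3): value groups of the components of ideles (density)
-/

set_option autoImplicit false
set_option linter.unusedSectionVars false
set_option linter.unusedVariables false

namespace Fermat.Agent.S55Lib

noncomputable section

section LR

/-- (LR3) S55/G3/LrCmp.lean : the same for the components of ideles (density). -/
theorem norm_cmp_eq_zpow (q : Nat.Primes) (F : IntermediateField ℚ Qbar) [FiniteDimensional ℚ F]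
    (hF : ValZ q F) (y : JJ) (hy : y ∈ JF F) (g : GQ) :
    ∃ k : ℤ, ‖((cmp y q g : (Om q)ˣ) : Om q)‖ = ((q : ℕ) : ℝ) ^ k := by
  have hz0 : 0 < ‖((cmp y q g : (Om q)ˣ) : Om q)‖ := norm_pos_iff.2 (cmp y q g).ne_zero
  obtain ⟨x, hxF, hx⟩ := dense_locF F q g _ (cmp_mem_locF F y hy q g) _ hz0
  rw [norm_sub_rev] at hx
  have h1 := LT_norm_eq_of_sub_lt hx
  have hx0 : x ≠ 0 := by
    rintro rfl
    rw [map_zero, map_zero, norm_zero] at h1
    exact hz0.ne h1
  obtain ⟨k, hk⟩ := hF x hxF hx0 g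
  exact ⟨k, by rw [← h1, hk]⟩

end LR

end

end Fermat.Agent.S55Lib
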