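import Mathlib

/-!
# S55, chapter G3, (LR4): sums of functions invariant under a subgroup
-/

set_option autoImplicit false
set_option linter.unusedSectionVars false
set_option linter.unusedVariables false

namespace Fermat.Agent.S55Lib

/-- (LR4) S55/G3/LrSum.lean : abstract. -/
theorem card_dvd_sum_of_invariant {𝔊 : Type} [CommGroup 𝔊] [Fintype 𝔊] (D : Subgroup 𝔊)
    (ν : 𝔊 → ℤ) (hν : ∀ d ∈ D, ∀ t, ν (d * t) = ν t) : (Nat.card D : ℤ) ∣ ∑ t, ν t := by
  classical
  let f : (𝔊 ⧸ D) × D → 𝔊 := fun x => (x.2 : 𝔊) * x.1.out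
  have hmk : ∀ x, (QuotientGroup.mk (f x) : 𝔊 ⧸ D) = x.1 := by
    intro x
    show (((x.2 : 𝔊) * x.1.out : 𝔊) : 𝔊 ⧸ D) = x.1
    rw [QuotientGroup.mk_mul, (QuotientGroup.eq_one_iff _).2 x.2.2, one_mul, QuotientGroup.out_eq']
  have hf : Function.Bijective f := by
    constructor
    · intro x y hxy
      have h1 : x.1 = y.1 := by rw [← hmk x, ← hmk y, hxy]
      have h2 : (x.2 : 𝔊) = y.2 := by
        have : (x.2 : 𝔊) * x.1.out = (y.2 : 𝔊) * y.1.out := hxy
        rw [h1] at this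
        exact mul_right_cancel this
      exact Prod.ext h1 (Subtype.ext h2)
    · intro t
      refine ⟨((t : 𝔊 ⧸ D), ⟨t * ((t : 𝔊 ⧸ D).out)⁻¹, ?_⟩), ?_⟩
      · rw [← QuotientGroup.eq_one_iff, QuotientGroup.mk_mul, QuotientGroup.mk_inv,
          QuotientGroup.out_eq', mul_inv_cancel]
      · simp [f]
  rw [← hf.sum_comp, Fintype.sum_prod_type]
  apply Finset.dvd_sum
  intro c _
  have : ∀ d : D, ν (f (c, d)) = ν c.out := fun d => hν d d.2 _
  simp only [this, Finset.sum_const, Finset.card_univ, Nat.card_eq_fintype_card, nsmul_eq_mul]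
  exact dvd_mul_right _ _

end Fermat.Agent.S55Lib
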