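import Fermat.Agent.S55.G3.ArtDefs
import Fermat.Agent.S55.P.Places
import Fermat.Agent.S36.K0a

/-!
# S55, chapter G3, (LR2): value groups of unramified fields
-/

set_option autoImplicit false
set_option linter.unusedSectionVars false
set_option linter.unusedVariables false

namespace Fermat.Agent.S55Lib

noncomputable section

open scoped Pointwise

section LR

/-- (LR2) S55/G3/LrVal.lean : value groups of unramified fields (from `S36Lib.exists_zpow_mul_unit`,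
in main). -/
theorem norm_eq_zpow_of_inertia (q : Nat.Primes) (g : GQ) (x : Qbar) (hx : x ≠ 0)
    (hfix : ∀ A : ValuationSubring Qbar, A.LiesOverPrime (q : ℕ) →
      ∀ σ ∈ A.inertiaSubgroupIn ℚ, σ x = x) :
    ∃ k : ℤ, ‖iq q (g x)‖ = ((q : ℕ) : ℝ) ^ k := by
  have hA : (g⁻¹ • padicPlace (q : ℕ)).LiesOverPrime (q : ℕ) :=
    PL_liesOver_smul g⁻¹ (PL_padicPlace_liesOver q)
  have hmem : ∀ y : Qbar, y ∈ g⁻¹ • padicPlace (q : ℕ) ↔ ‖iq q (g y)‖ ≤ 1 := by
    intro y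
    rw [PL_mem_smul, inv_inv, PL_mem_padicPlace]
  obtain ⟨n, u, -, hu, hxu⟩ := S36Lib.exists_zpow_mul_unit (g⁻¹ • padicPlace (q : ℕ)) q.2 hA
    (S36Lib.mem_K0_iff.2 (hfix _ hA)) hx
  have hu1 : ‖iq q (g u)‖ ≤ 1 := (hmem u).1 hu.1
  have hu2 : ‖iq q (g u)‖⁻¹ ≤ 1 := by
    have := (hmem u⁻¹).1 hu.2
    rwa [map_inv₀, map_inv₀, norm_inv] at this
  have hu0 : 0 < ‖iq q (g u)‖ := by
    rcases (norm_nonneg (iq q (g u))).lt_or_eq with h | h
    · exact h
    · exfalso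
      rw [← h, inv_zero] at hu2
      have hu0 : u = 0 := by
        have h1 : iq q (g u) = 0 := norm_eq_zero.1 h.symm
        have h2 : g u = 0 := (map_eq_zero (iq q)).1 h1
        exact (map_eq_zero g).1 h2
      rw [hu0, mul_zero] at hxu
      exact hx hxu
  have hu3 : ‖iq q (g u)‖ = 1 := le_antisymm hu1 ((inv_le_one₀ hu0).1 hu2)
  refine ⟨-n, ?_⟩
  rw [hxu, map_mul, map_mul, norm_mul, hu3, mul_one, map_zpow₀, map_zpow₀, map_natCast,
    map_natCast, norm_zpow, PL_norm_q, inv_zpow, zpow_neg]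

/-- (LR2) -/
theorem valZ_of_unramified (S : Finset Nat.Primes) (F : IntermediateField ℚ Qbar)
    (hF : F.IsUnramifiedOutside S) (q : Nat.Primes) (hq : q ∉ S) : ValZ q F := by
  intro x hxF hx g
  refine norm_eq_zpow_of_inertia q g x hx fun A hA σ hσ => ?_
  exact (IntermediateField.mem_fixingSubgroup_iff _ _).1 (hF.2 q hq A hA hσ) x hxF

variable (l r : Nat.Primes)

/-- (LR2) -/
theorem norm_eq_zpow_cyc (hrl : r ≠ l) (x : Qbar) (hx : x ≠ 0) (hfix : ∀ s ∈ Ucyc l, s x = x)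
    (g : GQ) : ∃ k : ℤ, ‖iq r (g x)‖ = ((r : ℕ) : ℝ) ^ k := by
  have hnd : ¬ (r : ℕ) ∣ (l : ℕ) := fun h =>
    hrl (Subtype.ext ((Nat.prime_dvd_prime_iff_eq r.2 l.2).1 h))
  refine norm_eq_zpow_of_inertia r g x hx fun A hA σ hσ => hfix σ fun ζ hζ => ?_
  exact PL_root_fixed r.2 hnd A hA ζ (by rw [hζ]; exact S36Lib.isU_one A)
    (fun g _ => by rw [hζ, map_one]) σ hσ

end LR

end

end Fermat.Agent.S55Lib
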