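import Fermat.Agent.S55.G3.LrFrob
import Fermat.Agent.S55.G3.LrVal
import Fermat.Agent.S55.G3.LrCmp
import Fermat.Agent.S55.G3.LrSum
import Fermat.Agent.S55.G3.NQ
import Fermat.Agent.S55.G3.LlTrans
import Fermat.Agent.S55.G3.CyLevel

/-!
# S55, chapter G3, (LR5): the valuation at `r` of a norm from `ℚ(ζ_l)`
-/

set_option autoImplicit false
set_option linter.unusedSectionVars false
set_option linter.unusedVariables false

namespace Fermat.Agent.S55Lib

noncomputable section

section LR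

lemma LR5_prod_zpow {ι : Type*} (T : Finset ι) (a : ℝ) (ha : a ≠ 0) (ν : ι → ℤ) :
    ∏ i ∈ T, a ^ ν i = a ^ ∑ i ∈ T, ν i := by
  classical
  induction T using Finset.induction_on with
  | empty => simp
  | insert i T hi ih => rw [Finset.prod_insert hi, Finset.sum_insert hi, ih, zpow_add₀ ha]

variable (l r : Nat.Primes)

/-- (LR5) S55/G3/LrNorm.lean : **Claim 1**: the valuation at `r` of a norm from `ℚ(ζ_l)` is
divisible by the order of `r` mod `l`. -/
theorem norm_r_eq (hrl : r ≠ l) (t : (ZMod (l : ℕ))ˣ)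
    (ht : (((r : ℕ) : ℕ) : ZMod (l : ℕ)) = (t : ZMod (l : ℕ)))
    (y : JJ) (hy : ∀ s ∈ Ucyc l, s • y = y) :
    ∃ k : ℤ, ‖((cmp (NQ (Ucyc l) y) r 1 : (Om r)ˣ) : Om r)‖ = ((r : ℕ) : ℝ) ^ k ∧ t ^ k = 1 := by
  classical
  -- representatives
  choose h0 hh0 using exists_local_actsMu l
  let s : (ZMod (l : ℕ))ˣ → GQ := fun u => rq l (h0 u)
  have hs : ∀ u, ActsMu l (s u) u := hh0
  have hN := cmp_NQ (Ucyc l) s (reps_Ucyc l s hs) y hy r 1
  -- the value group
  have hV : ValZ r (CY2_field l) := by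
    intro x hxF hx g
    refine norm_eq_zpow_cyc l r hrl x hx (fun σ hσ => ?_) g
    rw [← CY2_fix_eq] at hσ
    exact (IntermediateField.mem_fixingSubgroup_iff _ _).1 hσ x hxF
  have hyJ : y ∈ JF (CY2_field l) := by
    intro σ hσ
    rw [CY2_fix_eq] at hσ
    exact hy σ hσ
  choose ν hν using fun u => norm_cmp_eq_zpow r (CY2_field l) hV y hyJ (s u)
  -- invariance under the Frobenius
  obtain ⟨h, hh⟩ := exists_local_frob l r hrl t ht
  have hr1 : (1 : ℝ) < ((r : ℕ) : ℝ) := by exact_mod_cast r.2.one_lt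
  have hr0 : (0 : ℝ) < ((r : ℕ) : ℝ) := by linarith
  have hinv : ∀ u, ν (t * u) = ν u := by
    intro u
    have hU : (s (t * u))⁻¹ * (rq r h * s u) ∈ Ucyc l := by
      rw [← actsMu_one_iff]
      have := (NQ_actsMu_inv (hs (t * u))).mul (hh.mul (hs u))
      rwa [inv_mul_cancel] at this
    have h1 : cmp y r (rq r h * s u) = h • cmp y r (s u) := cmp_rq y r h (s u)
    have h2 : cmp y r (s (t * u) * ((s (t * u))⁻¹ * (rq r h * s u))) = cmp y r (s (t * u)) := by
      rw [← cmp_smul, hy _ hU]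
    rw [mul_inv_cancel_left, h1] at h2
    have h3 : ‖((cmp y r (s (t * u)) : (Om r)ˣ) : Om r)‖
        = ‖((cmp y r (s u) : (Om r)ˣ) : Om r)‖ := by
      rw [← h2]; exact norm_gq r h _
    rw [hν, hν] at h3
    exact zpow_right_injective₀ hr0 hr1.ne' h3
  have hinv' : ∀ d ∈ Subgroup.zpowers t, ∀ u, ν (d * u) = ν u := by
    let H : Subgroup (ZMod (l : ℕ))ˣ :=
      { carrier := {d | ∀ u, ν (d * u) = ν u}
        one_mem' := fun u => by rw [one_mul]
        mul_mem' := fun {a b} ha hb u => by rw [mul_assoc, ha, hb]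
        inv_mem' := fun {a} ha u => by
          have := ha (a⁻¹ * u)
          rw [mul_inv_cancel_left] at this
          exact this.symm }
    have hle : Subgroup.zpowers t ≤ H := (Subgroup.zpowers_le).2 hinv
    exact fun d hd => hle hd
  have hdvd := card_dvd_sum_of_invariant (Subgroup.zpowers t) ν hinv'
  refine ⟨∑ u, ν u, ?_, ?_⟩
  · rw [hN, Units.coe_prod, norm_prod]
    simp only [one_mul]
    rw [Finset.prod_congr rfl (fun u _ => hν u)]
    exact LR5_prod_zpow _ _ hr0.ne' ν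
  · rw [Nat.card_zpowers] at hdvd
    exact (orderOf_dvd_iff_zpow_eq_one).1 hdvd

end LR

end

end Fermat.Agent.S55Lib
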