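import Fermat.Agent.S55.G3.LlDecomp

/-!
# S55, chapter G3, (LL4): norms from `ℚ_l(ω)` are `l^k · (1-unit)`
-/

set_option autoImplicit false
set_option linter.unusedSectionVars false
set_option linter.unusedVariables false

namespace Fermat.Agent.S55Lib

noncomputable section

section LL

variable (l : Nat.Primes)

lemma LL4_prod_congr {ι : Type*} (s : Finset ι) (a b : ι → Om l) (ha : ∀ i ∈ s, ‖a i‖ ≤ 1)
    (hb : ∀ i ∈ s, ‖b i‖ ≤ 1) (h : ∀ i ∈ s, ‖a i - b i‖ < 1) :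
    ‖∏ i ∈ s, a i - ∏ i ∈ s, b i‖ < 1 := by
  classical
  induction s using Finset.induction_on with
  | empty => simp
  | insert i s hi ih =>
    rw [Finset.prod_insert hi, Finset.prod_insert hi]
    refine LT_mul_congr (ha i (Finset.mem_insert_self i s)) ?_ (h i (Finset.mem_insert_self i s))
      (ih (fun k hk => ha k (Finset.mem_insert_of_mem hk))
        (fun k hk => hb k (Finset.mem_insert_of_mem hk))
        (fun k hk => h k (Finset.mem_insert_of_mem hk)))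
    rw [norm_prod]
    exact Finset.prod_le_one (fun k _ => norm_nonneg _)
      (fun k hk => hb k (Finset.mem_insert_of_mem hk))

/-- `∏_t (1 - ω^t) = l` -/
lemma LL4_prod_units (ω : Om l) (hω : ω ^ (l : ℕ) = 1) (hω1 : ω ≠ 1) :
    ∏ t : (ZMod (l : ℕ))ˣ, (1 - ω ^ (t : ZMod (l : ℕ)).val) = (((l : ℕ) : ℕ) : Om l) := by
  obtain ⟨n, hn⟩ : ∃ n, (l : ℕ) = n + 1 := ⟨(l : ℕ) - 1, by have := l.2.pos; omega⟩
  have hprim : IsPrimitiveRoot ω (n + 1) := hn ▸ LL1_prim hω hω1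
  have h1 := hprim.prod_one_sub_pow_eq_order
  have h4 : ((n : Om l) + 1) = (((l : ℕ) : ℕ) : Om l) := by
    have : (((l : ℕ) : ℕ) : Om l) = ((n + 1 : ℕ) : Om l) := congrArg _ hn
    rw [this]; push_cast; rfl
  rw [← h4, ← h1]
  have hpos : ∀ t : (ZMod (l : ℕ))ˣ, 0 < (t : ZMod (l : ℕ)).val := by
    intro t
    rw [Nat.pos_iff_ne_zero, Ne, ZMod.val_eq_zero]
    exact t.ne_zero
  refine Finset.prod_bij (fun t _ => (t : ZMod (l : ℕ)).val - 1) ?_ ?_ ?_ ?_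
  · intro t _
    have h2 := ZMod.val_lt (t : ZMod (l : ℕ))
    have h3 := hpos t
    rw [Finset.mem_range]
    omega
  · intro t _ t' _ h
    have h2 := hpos t
    have h3 := hpos t'
    have h5 : (t : ZMod (l : ℕ)).val = (t' : ZMod (l : ℕ)).val := by omega
    exact Units.ext (ZMod.val_injective _ h5)
  · intro k hk
    have hk' := Finset.mem_range.1 hk
    have hcop : Nat.Coprime (k + 1) (l : ℕ) := by
      rw [Nat.coprime_comm, Nat.Prime.coprime_iff_not_dvd l.2]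
      intro hd
      have := Nat.le_of_dvd (Nat.succ_pos k) hd
      omega
    refine ⟨ZMod.unitOfCoprime (k + 1) hcop, Finset.mem_univ _, ?_⟩
    rw [ZMod.coe_unitOfCoprime, ZMod.val_natCast_of_lt (by omega)]
    rfl
  · intro t _
    have h3 := hpos t
    congr 2
    omega

lemma LL4_fermat (j : ℕ) (hj : ‖(j : Om l)‖ = 1) : ‖(j : Om l) ^ ((l : ℕ) - 1) - 1‖ < 1 := by
  have hl1 : (1 : ℝ) < ((l : ℕ) : ℝ) := by exact_mod_cast l.2.one_lt
  have hlt : ‖(((l : ℕ) : ℕ) : Om l)‖ < 1 := by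
    rw [LL1_norm_l]; exact inv_lt_one_of_one_lt₀ hl1
  have hnd : ¬ (l : ℕ) ∣ j := by
    rintro ⟨c, rfl⟩
    rw [Nat.cast_mul, norm_mul] at hj
    have h1 : ‖(c : Om l)‖ ≤ 1 := nm_natCast_le_one (l : ℕ) (F := Om l) c
    have : ‖(((l : ℕ) : ℕ) : Om l)‖ * ‖(c : Om l)‖ < 1 :=
      mul_lt_one_of_nonneg_of_lt_one_left (norm_nonneg _) hlt h1
    exact absurd hj this.ne
  have hj0 : (j : ZMod (l : ℕ)) ≠ 0 := by
    rwa [Ne, ZMod.natCast_eq_zero_iff]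
  have h1 : ((j ^ ((l : ℕ) - 1) : ℕ) : ZMod (l : ℕ)) = ((1 : ℕ) : ZMod (l : ℕ)) := by
    rw [Nat.cast_pow, ZMod.pow_card_sub_one_eq_one hj0, Nat.cast_one]
  have h2 := (ZMod.natCast_eq_natCast_iff _ _ _).1 h1
  have hj1 : 1 ≤ j ^ ((l : ℕ) - 1) := Nat.one_le_pow _ _ (Nat.pos_of_ne_zero (by
    rintro rfl; exact hnd (dvd_zero _)))
  obtain ⟨c, hc⟩ := (Nat.modEq_iff_dvd' hj1).1 h2.symm
  have h3 : (j : Om l) ^ ((l : ℕ) - 1) - 1 = (((l : ℕ) : ℕ) : Om l) * (c : Om l) := by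
    rw [← Nat.cast_mul, ← hc, Nat.cast_sub hj1, Nat.cast_pow, Nat.cast_one]
  rw [h3, norm_mul]
  exact mul_lt_one_of_nonneg_of_lt_one_left (norm_nonneg _) hlt
    (nm_natCast_le_one (l : ℕ) (F := Om l) c)

/-- (LL4) S55/G3/LlNorm.lean : norms from `ℚ_l(ω)` are `l^k · (1-unit)`. -/
theorem norm_l_eq (ω : Om l) (hω : ω ^ (l : ℕ) = 1) (hω1 : ω ≠ 1)
    (h : (ZMod (l : ℕ))ˣ → Gq l) (hh : ∀ t, h t ω = ω ^ (t : ZMod (l : ℕ)).val) (z : Om l)
    (hz : z ∈ IntermediateField.adjoin ℚ_[(l : ℕ)] {ω}) (hz0 : z ≠ 0) :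
    ∃ k : ℤ, ‖(∏ t : (ZMod (l : ℕ))ˣ, h t z) / ((l : ℕ) : Om l) ^ k - 1‖ < 1 := by
  obtain ⟨k, j, hj, hj1⟩ := exists_decomp_l l ω hω hω1 z hz hz0
  have hπ0 : (1 : Om l) - ω ≠ 0 := fun h => hω1 (sub_eq_zero.1 h).symm
  have hl0 : (((l : ℕ) : ℕ) : Om l) ≠ 0 := by exact_mod_cast l.2.ne_zero
  set u := z / (1 - ω) ^ k with hu
  have hzu : z = (1 - ω) ^ k * u := by
    rw [hu, mul_div_cancel₀ _ (zpow_ne_zero _ hπ0)]
  have hu1 : ‖u‖ = 1 := LT_norm_eq_one hj hj1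
  refine ⟨k, ?_⟩
  have h1 : ∏ t : (ZMod (l : ℕ))ˣ, h t z = (((l : ℕ) : ℕ) : Om l) ^ k * ∏ t : (ZMod (l : ℕ))ˣ, h t u := by
    rw [← LL4_prod_units l ω hω hω1, ← Finset.prod_zpow, ← Finset.prod_mul_distrib]
    refine Finset.prod_congr rfl fun t _ => ?_
    rw [hzu, map_mul, map_zpow₀, map_sub, map_one, hh]
  rw [h1, mul_div_cancel_left₀ _ (zpow_ne_zero _ hl0)]
  have h2 : ‖∏ t : (ZMod (l : ℕ))ˣ, h t u - ∏ _t : (ZMod (l : ℕ))ˣ, (j : Om l)‖ < 1 := by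
    apply LL4_prod_congr
    · intro t _
      rw [norm_gq, hu1]
    · intro t _
      exact hj1.le
    · intro t _
      have : h t u - (j : Om l) = h t (u - (j : Om l)) := by rw [map_sub, map_natCast]
      rw [this, norm_gq]
      exact hj
  rw [Finset.prod_const, Finset.card_univ, ZMod.card_units] at h2
  exact LT_trans h2 (LL4_fermat l j hj1)

end LL

end

end Fermat.Agent.S55Lib
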