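import Fermat.Agent.S55.G3.NQ
import Fermat.Agent.S55.G3.LlTrans
import Fermat.Agent.S55.G3.LlNorm

/-!
# S55, chapter G3, (NQ5): the component at `l` of a norm from `ℚ(ζ_l)`
-/

set_option autoImplicit false
set_option linter.unusedSectionVars false
set_option linter.unusedVariables false

namespace Fermat.Agent.S55Lib

noncomputable section

/-- (NQ5) **Claim 2**: the component at `l` of a norm from `ℚ(ζ_l)` is `l^k · (1-unit)`. -/
theorem norm_l_cmp (l : Nat.Primes) (y : JJ) (hy : ∀ s ∈ Ucyc l, s • y = y) :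
    ∃ k : ℤ, ‖((cmp (NQ (Ucyc l) y) l 1 : (Om l)ˣ) : Om l) / ((l : ℕ) : Om l) ^ k - 1‖ < 1 := by
  obtain ⟨ζ₀, hζ₀⟩ := CY1_exists_prim l
  have hω : (iq l ζ₀) ^ (l : ℕ) = 1 := by rw [← map_pow, hζ₀.pow_eq_one, map_one]
  have hω1 : iq l ζ₀ ≠ 1 := by
    intro h
    have h1 : ζ₀ = 1 := (iq l).toRingHom.injective (h.trans (map_one _).symm)
    exact hζ₀.ne_one l.2.one_lt h1
  choose h hh using exists_local_actsMu l
  have hh' : ∀ t, h t (iq l ζ₀) = (iq l ζ₀) ^ (t : ZMod (l : ℕ)).val := by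
    intro t
    rw [← iq_rq, hh t ζ₀ hζ₀.pow_eq_one, map_pow]
  obtain ⟨k, hk⟩ := norm_l_eq l (iq l ζ₀) hω hω1 h hh' ((cmp y l 1 : (Om l)ˣ) : Om l)
    (cmp_mem_adjoin_l l y hy 1 _ hω hω1) (Units.ne_zero _)
  refine ⟨k, ?_⟩
  have h1 := cmp_NQ (Ucyc l) (fun t => rq l (h t)) (reps_Ucyc l _ hh) y hy l 1
  have h2 : ((cmp (NQ (Ucyc l) y) l 1 : (Om l)ˣ) : Om l) =
      ∏ t : (ZMod (l : ℕ))ˣ, h t ((cmp y l 1 : (Om l)ˣ) : Om l) := by
    rw [h1, Units.coe_prod]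
    apply Finset.prod_congr rfl
    intro t _
    have h3 : cmp y l (1 * rq l (h t)) = h t • cmp y l 1 := by
      rw [one_mul, ← cmp_rq, mul_one]
    rw [h3]
    rfl
  rw [h2]
  exact hk

end

end Fermat.Agent.S55Lib
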