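import Fermat.Agent.S55.G3.LaJ
import Fermat.Agent.S55.G3.NQL
import Fermat.Agent.S55.G3.LrNorm

/-!
# S55, chapter G3, (LA7): `Λ` kills the norms from `ℚ(ζ_l)`
-/

set_option autoImplicit false
set_option linter.unusedSectionVars false
set_option linter.unusedVariables false

namespace Fermat.Agent.S55Lib

noncomputable section

section LA

variable {l : Nat.Primes}

lemma LA7_local (y : JJ) (hy : ∀ s ∈ Ucyc l, s • y = y) (q : Nat.Primes) :
    ∃ k : ℤ, ‖((cmp (NQ (Ucyc l) y) q 1 : (Om q)ˣ) : Om q)‖ = ((q : ℕ) : ℝ) ^ k ∧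
      (q ≠ l → HasRes l ((((q : ℕ) : ℕ) : Om l) ^ k) 1) ∧
      (q = l → ‖((cmp (NQ (Ucyc l) y) l 1 : (Om l)ˣ) : Om l) * (((l : ℕ) : ℕ) : Om l) ^ k - 1‖
        < 1) := by
  by_cases hq : q = l
  · subst hq
    obtain ⟨k₀, hk₀⟩ := norm_l_cmp q y hy
    have hl0 : (((q : ℕ) : ℕ) : Om q) ≠ 0 := by exact_mod_cast q.2.ne_zero
    refine ⟨-k₀, ?_, fun h => absurd rfl h, fun _ => ?_⟩
    · have h1 := LT_norm_eq_one hk₀ norm_one
      rw [norm_div, norm_zpow, LA1_norm_l, div_eq_one_iff_eq (zpow_ne_zero _ (by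
        have : (0 : ℝ) < ((q : ℕ) : ℝ) := by exact_mod_cast q.2.pos
        positivity))] at h1
      rw [h1, inv_zpow', ]
    · rw [zpow_neg, ← div_eq_mul_inv]
      exact hk₀
  · have h0 : (((q : ℕ) : ℕ) : ZMod (l : ℕ)) ≠ 0 := by
      intro h
      rw [ZMod.natCast_eq_zero_iff] at h
      exact hq (Subtype.ext ((Nat.prime_dvd_prime_iff_eq l.2 q.2).1 h).symm)
    obtain ⟨k, hk1, hk2⟩ := norm_r_eq l q hq (Units.mk0 _ h0) rfl y hy
    refine ⟨k, hk1, fun _ => ?_, fun h => absurd h hq⟩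
    have := (hasRes_natCast (l := l) (q : ℕ) (Units.mk0 _ h0) rfl).zpow k
    rwa [hk2] at this

/-- (LA7) S55/G3/LaNorm.lean : `Λ` kills the norms from `ℚ(ζ_l)`. -/
theorem LambdaJ_norm (n : ℕ) (lam : (ZMod (l : ℕ))ˣ →* Multiplicative (ZMod n))
    (Λ : JF (⊥ : IntermediateField ℚ Qbar) →* Multiplicative (ZMod n))
    (h1 : ∀ x : JF (⊥ : IntermediateField ℚ Qbar), (∃ a, (x : JJ) = diag a) → Λ x = 1)
    (h2 : ∀ (u : JF (⊥ : IntermediateField ℚ Qbar)) (t : (ZMod (l : ℕ))ˣ), IsUnitId (u : JJ) →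
        HasRes l ((cmp (u : JJ) l 1 : (Om l)ˣ) : Om l) t → Λ u = (lam t)⁻¹)
    (y : JJ) (hy : ∀ s ∈ Ucyc l, s • y = y) (x : JF (⊥ : IntermediateField ℚ Qbar))
    (hx : (x : JJ) = NQ (Ucyc l) y) : Λ x = 1 := by
  classical
  choose k hk1 hk2 hk3 using LA7_local y hy
  rw [← hx] at hk3
  have hk1' : ∀ q, ‖((cmp (x : JJ) q 1 : (Om q)ˣ) : Om q)‖ = ((q : ℕ) : ℝ) ^ (k q) := by
    intro q; rw [hx]; exact hk1 q
  have hfin : {q : Nat.Primes | ((x : JJ) : ∀ q : Nat.Primes, Jq q) q ∉ Uq q}.Finite := (x : JJ).2.2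
  set T : Finset Nat.Primes := insert l hfin.toFinset with hTdef
  have hT : ∀ q ∉ T, k q = 0 := by
    intro q hq
    rw [hTdef, Finset.mem_insert, not_or, Set.Finite.mem_toFinset, Set.mem_ofPred_eq, not_not] at hq
    have h3 : ‖((cmp (x : JJ) q 1 : (Om q)ˣ) : Om q)‖ = 1 := hq.2 1
    rw [hk1' q] at h3
    have h4 : (1 : ℝ) < ((q : ℕ) : ℝ) := by exact_mod_cast q.2.one_lt
    exact (zpow_eq_one_iff_right₀ (by positivity) h4.ne').1 h3
  have h0 : (∏ q ∈ T, (((q : ℕ) : ℕ) : Qbar) ^ (- k q)) ≠ 0 :=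
    Finset.prod_ne_zero_iff.2 fun q _ => zpow_ne_zero _ (by exact_mod_cast q.2.ne_zero)
  obtain ⟨a, ha⟩ : ∃ a : Qbarˣ, (a : Qbar) = ∏ q ∈ T, (((q : ℕ) : ℕ) : Qbar) ^ (- k q) :=
    ⟨Units.mk0 _ h0, rfl⟩
  obtain ⟨haF, hu⟩ := isUnitId_div_diag (x : JJ) x.2 T k hk1' hT a ha
  obtain ⟨d, hd⟩ : ∃ d : JF (⊥ : IntermediateField ℚ Qbar), (d : JJ) = diag a :=
    ⟨⟨diag a, (diag_mem_JF_iff ⊥ a).2 haF⟩, rfl⟩
  have hxd : ((x / d : JF _) : JJ) = (x : JJ) / diag a := by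
    rw [Subgroup.coe_div, hd]
  rw [← hxd] at hu
  have hres : HasRes l ((cmp ((x / d : JF _) : JJ) l 1 : (Om l)ˣ) : Om l) 1 := by
    have e1 : ((cmp ((x / d : JF _) : JJ) l 1 : (Om l)ˣ) : Om l) =
        (((cmp (x : JJ) l 1 : (Om l)ˣ) : Om l) * (((l : ℕ) : ℕ) : Om l) ^ (k l)) *
          ∏ q ∈ T.erase l, (((q : ℕ) : ℕ) : Om l) ^ (k q) := by
      rw [hxd, div_eq_mul_inv, cmp_mul, cmp_inv, Units.val_mul, Units.val_inv_eq_inv_val,
        diag_comp, ha]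
      simp only [map_prod, map_zpow₀, map_natCast]
      rw [← Finset.prod_inv_distrib, ← Finset.mul_prod_erase T _ (Finset.mem_insert_self l _),
        mul_assoc]
      congr 1
      rw [zpow_neg, inv_inv]
      congr 1
      apply Finset.prod_congr rfl
      intro q _
      rw [zpow_neg, inv_inv]
    rw [e1]
    have h3 := (hasRes_one_of_lt (hk3 l rfl)).mul
      (HasRes.prod (T.erase l) (fun q => (((q : ℕ) : ℕ) : Om l) ^ (k q)) (fun _ => 1)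
        (fun q hq => hk2 q (Finset.ne_of_mem_erase hq)))
    simpa using h3
  have e : x = d * (x / d) := by rw [mul_div_cancel]
  rw [e, map_mul, h1 d ⟨a, hd⟩, h2 _ _ hu hres, one_mul, map_one, inv_one]

end LA

end

end Fermat.Agent.S55Lib
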