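import Fermat.Agent.S55.G3.LaRes
import Fermat.Agent.S55.G.LocFix
import Fermat.Agent.S55.G.G1Defs

/-!
# S55, chapter G3, (LA2): `ℚ` has class number one
-/

set_option autoImplicit false
set_option linter.unusedSectionVars false
set_option linter.unusedVariables false

namespace Fermat.Agent.S55Lib

noncomputable section

section LA

lemma LA2_mem_fix_bot (g : GQ) : g ∈ (⊥ : IntermediateField ℚ Qbar).fixingSubgroup := by
  rw [IntermediateField.mem_fixingSubgroup_iff]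
  intro x hx
  obtain ⟨r, rfl⟩ := IntermediateField.mem_bot.1 hx
  exact g.commutes r

lemma LA2_cmp_eq {x : JJ} (hx : x ∈ JF ⊥) (q : Nat.Primes) (g : GQ) : cmp x q g = cmp x q 1 := by
  have h := mem_JF_iff.mp hx g (LA2_mem_fix_bot g) q 1
  rwa [one_mul] at h

lemma LA2_locF_bot (q : Nat.Primes) (g : GQ) : locF q g ⊥ = ⊥ := by
  rw [locF, IntermediateField.adjoin_eq_bot_iff]
  rintro _ ⟨x, hx, rfl⟩
  obtain ⟨r, rfl⟩ := IntermediateField.mem_bot.1 hx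
  show iq q (g (algebraMap ℚ Qbar r)) ∈ (⊥ : IntermediateField ℚ_[(q : ℕ)] (Om q))
  rw [g.commutes, (iq q).commutes, eq_ratCast]
  exact SubfieldClass.ratCast_mem _ r

lemma LA2_cmp_mem_bot {x : JJ} (hx : x ∈ JF ⊥) (q : Nat.Primes) (g : GQ) :
    ((cmp x q g : (Om q)ˣ) : Om q) ∈ (⊥ : IntermediateField ℚ_[(q : ℕ)] (Om q)) := by
  have := cmp_mem_locF ⊥ x hx q g
  rwa [LA2_locF_bot] at this

lemma LA2_exists_zpow {x : JJ} (hx : x ∈ JF ⊥) (q : Nat.Primes) :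
    ∃ k : ℤ, ‖((cmp x q 1 : (Om q)ˣ) : Om q)‖ = ((q : ℕ) : ℝ) ^ k := by
  obtain ⟨z, hz⟩ := IntermediateField.mem_bot.1 (LA2_cmp_mem_bot hx q 1)
  have hz0 : z ≠ 0 := by
    rintro rfl
    rw [map_zero] at hz
    exact (Units.ne_zero _) hz.symm
  exact ⟨-z.valuation, by rw [← hz, LA1_norm_algebraMap, Padic.norm_eq_zpow_neg_valuation hz0]⟩

lemma LA2_norm_prime (q q' : Nat.Primes) (h : q' ≠ q) : ‖(((q' : ℕ) : ℕ) : Om q)‖ = 1 := by
  apply norm_natCast_Om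
  intro hd
  exact h (Subtype.ext ((Nat.prime_dvd_prime_iff_eq q.2 q'.2).1 hd).symm)

lemma LA2_norm_prod (T : Finset Nat.Primes) (k : Nat.Primes → ℤ) (hT : ∀ q ∉ T, k q = 0)
    (q : Nat.Primes) :
    ‖∏ q' ∈ T, (((q' : ℕ) : ℕ) : Om q) ^ (- k q')‖ = ((q : ℕ) : ℝ) ^ (k q) := by
  rw [norm_prod, Finset.prod_eq_single q]
  · rw [norm_zpow, LA1_norm_l, inv_zpow', neg_neg]
  · intro b _ hb
    rw [norm_zpow, LA2_norm_prime q b hb, one_zpow]
  · intro hq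
    rw [hT q hq, neg_zero, zpow_zero, norm_one]

/-- (LA2) explicit form: if `‖x_q‖ = q^(k q)` for all `q` (almost all `k q = 0`) then
`a = ∏ q^(- k q)` works. -/
theorem isUnitId_div_diag (x : JJ) (hx : x ∈ JF ⊥) (T : Finset Nat.Primes) (k : Nat.Primes → ℤ)
    (hk : ∀ q, ‖((cmp x q 1 : (Om q)ˣ) : Om q)‖ = ((q : ℕ) : ℝ) ^ (k q)) (hT : ∀ q ∉ T, k q = 0)
    (a : Qbarˣ) (ha : (a : Qbar) = ∏ q ∈ T, (((q : ℕ) : ℕ) : Qbar) ^ (- k q)) :
    a ∈ FX ⊥ ∧ IsUnitId (x / diag a) := by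
  refine ⟨?_, fun q g => ?_⟩
  · show (a : Qbar) ∈ (⊥ : IntermediateField ℚ Qbar)
    rw [ha]
    exact prod_mem fun q _ => zpow_mem (natCast_mem _ _) _
  · rw [div_eq_mul_inv, cmp_mul, cmp_inv, Units.val_mul, Units.val_inv_eq_inv_val, diag_comp,
      LA2_cmp_eq hx, norm_mul, norm_inv, hk q, ha]
    simp only [map_prod, map_zpow₀, map_natCast]
    rw [LA2_norm_prod T k hT q]
    exact mul_inv_cancel₀ (zpow_ne_zero _ (by exact_mod_cast q.2.ne_zero))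

/-- (LA2) S55/G3/LaRat.lean : `ℚ` has class number one. -/
theorem exists_rat_of_JFbot (x : JJ) (hx : x ∈ JF ⊥) :
    ∃ a ∈ FX ⊥, IsUnitId (x / diag a) := by
  choose k hk using LA2_exists_zpow hx
  have hfin : {q : Nat.Primes | (x : ∀ q : Nat.Primes, Jq q) q ∉ Uq q}.Finite := x.2.2
  have hT : ∀ q ∉ hfin.toFinset, k q = 0 := by
    intro q hq
    rw [Set.Finite.mem_toFinset, Set.mem_ofPred_eq, not_not] at hq
    have h1 : ‖((cmp x q 1 : (Om q)ˣ) : Om q)‖ = 1 := hq 1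
    rw [hk q] at h1
    have h2 : (1 : ℝ) < ((q : ℕ) : ℝ) := by exact_mod_cast q.2.one_lt
    exact (zpow_eq_one_iff_right₀ (by positivity) h2.ne').1 h1
  have h0 : (∏ q ∈ hfin.toFinset, (((q : ℕ) : ℕ) : Qbar) ^ (- k q)) ≠ 0 :=
    Finset.prod_ne_zero_iff.2 fun q _ => zpow_ne_zero _ (by exact_mod_cast q.2.ne_zero)
  obtain ⟨h1, h2⟩ := isUnitId_div_diag x hx hfin.toFinset k hk hT (Units.mk0 _ h0) rfl
  exact ⟨_, h1, h2⟩

end LA

end

end Fermat.Agent.S55Lib
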