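import Fermat.Agent.S55.G3.ArtDefs
import Fermat.Agent.S55.G2.TameFix

/-!
# S55, chapter G3, (LA1): residues in `(ℤ/l)^×` of elements of `Ω_l`
-/

set_option autoImplicit false
set_option linter.unusedSectionVars false
set_option linter.unusedVariables false

namespace Fermat.Agent.S55Lib

noncomputable section

section LA

variable (l : Nat.Primes)

lemma LA1_norm_algebraMap (x : ℚ_[(l : ℕ)]) : ‖algebraMap ℚ_[(l : ℕ)] (Om l) x‖ = ‖x‖ :=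
  PadicAlgCl.norm_extends _ x

lemma LA1_norm_intCast (a : ℤ) : ‖(a : Om l)‖ = ‖(a : ℚ_[(l : ℕ)])‖ := by
  rw [← LA1_norm_algebraMap, map_intCast]

lemma LA1_norm_natCast (a : ℕ) : ‖(a : Om l)‖ = ‖(a : ℚ_[(l : ℕ)])‖ := by
  rw [← LA1_norm_algebraMap, map_natCast]

lemma LA1_norm_natCast_le (a : ℕ) : ‖(a : Om l)‖ ≤ 1 := by
  rw [LA1_norm_natCast]
  exact_mod_cast Padic.norm_int_le_one (p := (l : ℕ)) (a : ℤ)

lemma LA1_norm_intCast_lt_iff (a : ℤ) : ‖(a : Om l)‖ < 1 ↔ ((l : ℕ) : ℤ) ∣ a := by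
  rw [LA1_norm_intCast, Padic.norm_intCast_lt_one_iff]

lemma LA1_norm_natCast_lt_iff (a : ℕ) : ‖(a : Om l)‖ < 1 ↔ (l : ℕ) ∣ a := by
  rw [LA1_norm_natCast, Padic.norm_natCast_lt_one_iff]

lemma LA1_norm_l : ‖(((l : ℕ) : ℕ) : Om l)‖ = (((l : ℕ) : ℝ))⁻¹ := by
  rw [LA1_norm_natCast, Padic.norm_p]

/-- congruent natural numbers -/
lemma LA1_cast_eq_iff (j j' : ℕ) :
    ‖(j : Om l) - (j' : Om l)‖ < 1 ↔ (j : ZMod (l : ℕ)) = (j' : ZMod (l : ℕ)) := by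
  have h1 : (j : Om l) - (j' : Om l) = (((j : ℤ) - (j' : ℤ) : ℤ) : Om l) := by push_cast; ring
  rw [h1, LA1_norm_intCast_lt_iff, ← ZMod.intCast_zmod_eq_zero_iff_dvd]
  push_cast
  exact sub_eq_zero

lemma LA1_not_dvd {j : ℕ} {t : (ZMod (l : ℕ))ˣ} (h : (j : ZMod (l : ℕ)) = (t : ZMod (l : ℕ))) :
    ¬ (l : ℕ) ∣ j := by
  intro hd
  rw [(ZMod.natCast_eq_zero_iff j (l : ℕ)).2 hd] at h
  exact t.ne_zero h.symm

lemma LA1_norm_eq_one {j : ℕ} {t : (ZMod (l : ℕ))ˣ}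
    (h : (j : ZMod (l : ℕ)) = (t : ZMod (l : ℕ))) : ‖(j : Om l)‖ = 1 :=
  norm_natCast_Om l (LA1_not_dvd l h)

/-- every unit of `ℤ/l` is the class of a natural number -/
lemma LA1_exists_nat (t : (ZMod (l : ℕ))ˣ) : ∃ j : ℕ, (j : ZMod (l : ℕ)) = (t : ZMod (l : ℕ)) :=
  ⟨(t : ZMod (l : ℕ)).val, ZMod.natCast_zmod_val _⟩

/-- (LA1) S55/G3/LaRes.lean -/
theorem exists_hasRes (z : Om l) (hz : z ∈ (⊥ : IntermediateField ℚ_[(l : ℕ)] (Om l)))
    (hz1 : ‖z‖ = 1) : ∃ t, HasRes l z t := by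
  obtain ⟨x, rfl⟩ := IntermediateField.mem_bot.1 hz
  rw [LA1_norm_algebraMap] at hz1
  set X : ℤ_[(l : ℕ)] := ⟨x, hz1.le⟩ with hX
  obtain ⟨n, -, hn⟩ := PadicInt.exists_mem_range X
  rw [IsLocalRing.mem_maximalIdeal, PadicInt.mem_nonunits] at hn
  have h1 : ‖x - (n : ℚ_[(l : ℕ)])‖ < 1 := by
    have : ‖X - (n : ℤ_[(l : ℕ)])‖ = ‖x - (n : ℚ_[(l : ℕ)])‖ := by
      rw [PadicInt.norm_def]
      push_cast
      rfl
    rwa [← this]
  have h2 : ‖algebraMap ℚ_[(l : ℕ)] (Om l) x - (n : Om l)‖ < 1 := by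
    rw [← map_natCast (algebraMap ℚ_[(l : ℕ)] (Om l)), ← map_sub, LA1_norm_algebraMap]
    exact h1
  have h3 : (n : ZMod (l : ℕ)) ≠ 0 := by
    intro h0
    have h4 := (LA1_norm_natCast_lt_iff l n).2 ((ZMod.natCast_eq_zero_iff n (l : ℕ)).1 h0)
    have h5 : ‖algebraMap ℚ_[(l : ℕ)] (Om l) x‖ < 1 := by
      have : algebraMap ℚ_[(l : ℕ)] (Om l) x =
          (algebraMap ℚ_[(l : ℕ)] (Om l) x - (n : Om l)) + (n : Om l) := by ring
      rw [this]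
      exact LT_add_lt h2 h4
    rw [LA1_norm_algebraMap, hz1] at h5
    exact lt_irrefl _ h5
  exact ⟨Units.mk0 _ h3, n, h2, rfl⟩

variable {l}

lemma HasRes.norm_eq_one {z : Om l} {t : (ZMod (l : ℕ))ˣ} (h : HasRes l z t) : ‖z‖ = 1 := by
  obtain ⟨j, h1, h2⟩ := h
  exact LT_norm_eq_one h1 (LA1_norm_eq_one l h2)

/-- (LA1) -/
theorem HasRes.unique {z : Om l} {t t' : (ZMod (l : ℕ))ˣ} (h : HasRes l z t) (h' : HasRes l z t') :
    t = t' := by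
  obtain ⟨j, h1, h2⟩ := h
  obtain ⟨j', h1', h2'⟩ := h'
  apply Units.ext
  rw [← h2, ← h2', ← LA1_cast_eq_iff]
  exact LT_trans (LT_symm h1) h1'

/-- (LA1) -/
theorem HasRes.mul {z z' : Om l} {t t' : (ZMod (l : ℕ))ˣ} (h : HasRes l z t) (h' : HasRes l z' t') :
    HasRes l (z * z') (t * t') := by
  have hz := h.norm_eq_one
  obtain ⟨j, h1, h2⟩ := h
  obtain ⟨j', h1', h2'⟩ := h'
  refine ⟨j * j', ?_, by rw [Nat.cast_mul, h2, h2', Units.val_mul]⟩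
  rw [Nat.cast_mul]
  exact LT_mul_congr hz.le (LA1_norm_natCast_le l j') h1 h1'

/-- (LA1) -/
theorem hasRes_natCast (j : ℕ) (t : (ZMod (l : ℕ))ˣ) (h : (j : ZMod (l : ℕ)) = (t : ZMod (l : ℕ))) :
    HasRes l (j : Om l) t :=
  ⟨j, by rw [sub_self, norm_zero]; exact one_pos, h⟩

/-- (LA1) -/
theorem hasRes_one_of_lt {z : Om l} (h : ‖z - 1‖ < 1) : HasRes l z 1 :=
  ⟨1, by rwa [Nat.cast_one], by rw [Nat.cast_one, Units.val_one]⟩

/-- (LA1) -/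
theorem HasRes.inv {z : Om l} {t : (ZMod (l : ℕ))ˣ} (h : HasRes l z t) : HasRes l z⁻¹ t⁻¹ := by
  have hz := h.norm_eq_one
  have hz0 : z ≠ 0 := by
    intro h0
    rw [h0, norm_zero] at hz
    exact zero_ne_one hz
  obtain ⟨j', hj'⟩ := LA1_exists_nat l t⁻¹
  refine ⟨j', ?_, hj'⟩
  have h1 := h.mul (hasRes_natCast j' t⁻¹ hj')
  rw [mul_inv_cancel] at h1
  obtain ⟨k, hk1, hk2⟩ := h1
  have hk3 : ‖(k : Om l) - ((1 : ℕ) : Om l)‖ < 1 := by
    rw [LA1_cast_eq_iff, hk2, Nat.cast_one, Units.val_one]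
  rw [Nat.cast_one] at hk3
  have h2 : ‖z * (j' : Om l) - 1‖ < 1 := LT_trans hk1 hk3
  have h3 : z⁻¹ - (j' : Om l) = - (z⁻¹ * (z * (j' : Om l) - 1)) := by
    field_simp
    ring
  rw [h3, norm_neg, norm_mul, norm_inv, hz, inv_one, one_mul]
  exact h2

lemma hasRes_one : HasRes l (1 : Om l) 1 := hasRes_one_of_lt (by rw [sub_self, norm_zero]; exact one_pos)

lemma HasRes.pow {z : Om l} {t : (ZMod (l : ℕ))ˣ} (h : HasRes l z t) (n : ℕ) :
    HasRes l (z ^ n) (t ^ n) := by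
  induction n with
  | zero => rw [pow_zero, pow_zero]; exact hasRes_one
  | succ n ih => rw [pow_succ, pow_succ]; exact ih.mul h

lemma HasRes.zpow {z : Om l} {t : (ZMod (l : ℕ))ˣ} (h : HasRes l z t) (n : ℤ) :
    HasRes l (z ^ n) (t ^ n) := by
  cases n with
  | ofNat n => simpa using h.pow n
  | negSucc n =>
    rw [zpow_negSucc, zpow_negSucc]
    exact (h.pow (n + 1)).inv

lemma HasRes.prod {ι : Type} (T : Finset ι) (z : ι → Om l) (t : ι → (ZMod (l : ℕ))ˣ)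
    (h : ∀ i ∈ T, HasRes l (z i) (t i)) : HasRes l (∏ i ∈ T, z i) (∏ i ∈ T, t i) := by
  classical
  induction T using Finset.induction_on with
  | empty => simpa using hasRes_one
  | insert a T ha ih =>
    rw [Finset.prod_insert ha, Finset.prod_insert ha]
    exact (h a (Finset.mem_insert_self a T)).mul
      (ih fun i hi => h i (Finset.mem_insert_of_mem hi))

lemma hasRes_neg_one : HasRes l (-1 : Om l) (-1) := by
  refine ⟨(l : ℕ) - 1, ?_, ?_⟩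
  · rw [Nat.cast_sub l.2.pos, Nat.cast_one]
    have : (-1 : Om l) - ((((l : ℕ) : ℕ) : Om l) - 1) = - (((l : ℕ) : ℕ) : Om l) := by ring
    rw [this, norm_neg, LA1_norm_natCast_lt_iff]
  · rw [Nat.cast_sub l.2.pos, Nat.cast_one, ZMod.natCast_self, zero_sub, Units.val_neg,
      Units.val_one]

end LA

end

end Fermat.Agent.S55Lib
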