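import Fermat.Agent.S55.G3.LgDefs

/-!
# S55, chapter G3, leaf (LGP): pull-back of coboundaries / cocycles along a compatible pair
-/

set_option autoImplicit false
set_option linter.unusedSectionVars false
set_option linter.unusedVariables false

namespace Fermat.Agent.S55Lib

noncomputable section

open groupCohomology

/-- (LGP) S55/G3/LgPull.lean : pull-back of coboundaries / cocycles along a compatible pair. -/
theorem cob2_pull {G D A K : Type} [Group G] [Group D] [AddCommGroup A] [DistribMulAction G A]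
    [AddCommGroup K] [DistribMulAction D K] (ρ : D →* G) (ev : A →+ K)
    (hev : ∀ (d : D) a, ev (ρ d • a) = d • ev a) (F : G × G → A) (hF : IsCoboundary₂ F) :
    IsCoboundary₂ (fun x : D × D => ev (F (ρ x.1, ρ x.2))) := by
  obtain ⟨x, hx⟩ := hF
  refine ⟨fun d => ev (x (ρ d)), fun g h => ?_⟩
  show g • ev (x (ρ h)) - ev (x (ρ (g * h))) + ev (x (ρ g)) = ev (F (ρ g, ρ h))
  rw [← hx, map_add, map_sub, hev, map_mul]

/-- (LGP) -/
theorem coc2_pull {G D A K : Type} [Group G] [Group D] [AddCommGroup A] [DistribMulAction G A]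
    [AddCommGroup K] [DistribMulAction D K] (ρ : D →* G) (ev : A →+ K)
    (hev : ∀ (d : D) a, ev (ρ d • a) = d • ev a) (F : G × G → A) (hF : IsCocycle₂ F) :
    IsCocycle₂ (fun x : D × D => ev (F (ρ x.1, ρ x.2))) := by
  intro g h j
  show ev (F (ρ (g * h), ρ j)) + ev (F (ρ g, ρ h)) =
    g • ev (F (ρ h, ρ j)) + ev (F (ρ g, ρ (h * j)))
  rw [← hev, ← map_add, ← map_add, map_mul, map_mul, hF]

end

end Fermat.Agent.S55Lib
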