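import Fermat.Agent.S55.G3.FundOrder
import Fermat.Agent.S55.G3.LgPull

/-! # S55 G3 (LGA2): abstract (LG) at one level -/

set_option autoImplicit false
set_option linter.unusedSectionVars false
set_option linter.unusedVariables false

namespace Fermat.Agent.S55Lib

noncomputable section

open groupCohomology

lemma LGA2_sum_fixed {G A : Type} [Group G] [AddCommGroup A] [DistribMulAction G A] (t : G) (c : A)
    (hc : ∀ g : G, g • c = c) (n : ℕ) : ∑ i ∈ Finset.range n, t ^ i • c = n • c := by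
  rw [Finset.sum_congr rfl (fun i _ => hc (t ^ i)), Finset.sum_const, Finset.card_range]

/-- (LGA2) S55/G3/LgAbs2.lean : **abstract (LG)** at one level `G' = Gal(LΣ/ℚ)`; `n = p`,
`χ : G' → Gal(Σ/ℚ) = ℤ/n`, `A' = J_q(LΣ)`, `C' = C(LΣ)`, `D'` = decomposition group,
`K' = (LΣ)_w^×`, `a0` = the prime idele. -/
theorem lg_abs2 (p n : ℕ) [Fact p.Prime] [NeZero n] (hn : n = p)
    {G' : Type} [Group G'] [Finite G'] {A' C' : Type} [AddCommGroup A'] [DistribMulAction G' A']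
    [AddCommGroup C'] [DistribMulAction G' C']
    (π' : A' →+ C') (eπ' : ∀ (g : G') a, π' (g • a) = g • π' a)
    (χ : G' → ZMod n) (hχ : ∀ g h, χ (g * h) = χ g + χ h)
    (hC1 : ∀ H : Subgroup G', IsPGroup p H → ∀ f : H → C', IsCocycle₁ f → IsCoboundary₁ f)
    (Λ : inv (⊤ : Subgroup G') C' →+ ZMod n)
    (hΛN : ∀ z : inv (⊤ : Subgroup G') C',
      (∃ y ∈ inv (kerχ χ hχ) C', (z : C') = nrm (kerχ χ hχ) ⊤ y) → Λ z = 0)
    (a0 : A') (ha0 : ∀ g : G', g • a0 = a0)
    (hΛa0 : ∀ z : inv (⊤ : Subgroup G') C', (z : C') = π' a0 → Λ z ≠ 0)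
    {D' : Type} [Group D'] [Finite D'] {K' : Type} [AddCommGroup K'] [DistribMulAction D' K']
    (ρ' : D' →* G') (ev' : A' →+ K') (hev' : ∀ (d : D') a, ev' (ρ' d • a) = d • ev' a)
    (hSh' : ∀ F : G' × G' → A', IsCocycle₂ F →
      IsCoboundary₂ (fun x : D' × D' => ev' (F (ρ' x.1, ρ' x.2))) → IsCoboundary₂ F)
    (t : D') (ht : χ (ρ' t) = 1)
    (hK1 : ∀ H : Subgroup D', ∀ f : H → K', IsCocycle₁ f → IsCoboundary₁ f)
    (hcyc : ∀ f g : D' × D' → K', IsCocycle₂ f → IsCocycle₂ g → IsCoboundary₂ (p • f) →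
      IsCoboundary₂ (p • g) → ¬ IsCoboundary₂ g → ∃ k : ℤ, IsCoboundary₂ (f - k • g))
    (hnn : ∀ y : K', (∀ d : D', χ (ρ' d) = 0 → d • y = y) →
      ev' a0 ≠ ∑ i ∈ Finset.range n, t ^ i • y)
    (F : G' × G' → A') (hF : IsCocycle₂ F) (hpF : IsCoboundary₂ (p • F))
    (hπF : IsCoboundary₂ (fun x => π' (F x))) : IsCoboundary₂ F := by
  subst hn
  have hp : n.Prime := Fact.out
  have : Fact (1 < n) := ⟨hp.one_lt⟩
  -- the local character and the local carry cocycle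
  have hχD : ∀ g h : D', (fun d : D' => χ (ρ' d)) (g * h) =
      (fun d : D' => χ (ρ' d)) g + (fun d : D' => χ (ρ' d)) h := fun g h => by
    show χ (ρ' (g * h)) = _
    rw [map_mul, hχ]
  have hc : ∀ d : D', d • ev' a0 = ev' a0 := fun d => by rw [← hev', ha0]
  have hgc : IsCocycle₂ (carry n (fun d : D' => χ (ρ' d)) (ev' a0)) :=
    carry_isCocycle n _ hχD _ hc
  have hpg : IsCoboundary₂ (n • carry n (fun d : D' => χ (ρ' d)) (ev' a0)) := by
    have h1 := carry_cob_of_norm' n (fun d : D' => χ (ρ' d)) hχD t ht (ev' a0)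
      (fun d _ => hc d)
    rw [LGA2_sum_fixed t _ hc, ← natCast_zsmul, ← carry_zsmul, natCast_zsmul] at h1
    exact h1
  have hg0 : ¬ IsCoboundary₂ (carry n (fun d : D' => χ (ρ' d)) (ev' a0)) := by
    intro hcob
    obtain ⟨y, hy, hy1⟩ := carry_cob_norm n (fun d : D' => χ (ρ' d)) hχD (ev' a0) hc 1
      (fun f hf => by rw [one_smul]; exact hK1 _ f hf) t n
      (by show (χ (ρ' t)).val * n = n; rw [ht, ZMod.val_one, one_mul]) hcob
    rw [one_smul] at hy1
    exact hnn y (fun d hd => hy d hd) hy1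
  have hFl : IsCocycle₂ (fun x : D' × D' => ev' (F (ρ' x.1, ρ' x.2))) :=
    coc2_pull ρ' ev' hev' F hF
  have hpFl : IsCoboundary₂ (n • fun x : D' × D' => ev' (F (ρ' x.1, ρ' x.2))) := by
    have h1 := cob2_pull ρ' ev' hev' (n • F) hpF
    have h2 : (fun x : D' × D' => ev' ((n • F) (ρ' x.1, ρ' x.2))) =
        n • fun x : D' × D' => ev' (F (ρ' x.1, ρ' x.2)) := by
      funext x
      exact map_nsmul ev' n _
    rw [h2] at h1
    exact h1
  obtain ⟨k, hk⟩ := hcyc _ _ hFl hgc hpFl hpg hg0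
  -- step 2
  have hcar : IsCocycle₂ (carry n χ a0) := carry_isCocycle n χ hχ a0 ha0
  have hF2c : IsCocycle₂ (F - k • carry n χ a0) :=
    (Z2 G' A').sub_mem (mem_Z2.2 hF) ((Z2 G' A').zsmul_mem (mem_Z2.2 hcar) k)
  have hF2 : IsCoboundary₂ (F - k • carry n χ a0) := by
    apply hSh' _ hF2c
    have h2 : (fun x : D' × D' => ev' ((F - k • carry n χ a0) (ρ' x.1, ρ' x.2))) =
        (fun x : D' × D' => ev' (F (ρ' x.1, ρ' x.2))) -
          k • carry n (fun d : D' => χ (ρ' d)) (ev' a0) := by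
      funext x
      show ev' (F (ρ' x.1, ρ' x.2) - k • carry n χ a0 (ρ' x.1, ρ' x.2)) = _
      rw [map_sub, map_zsmul]
      simp only [carry, map_nsmul, Pi.sub_apply, Pi.smul_apply]
    rw [h2]
    exact hk
  -- step 3
  have hπ2 : IsCoboundary₂ (k • carry n χ (π' a0)) := by
    have h1 := cob2_pull (MonoidHom.id G') π' eπ' _ hF2
    have h2 : (fun x : G' × G' => π' ((F - k • carry n χ a0) ((MonoidHom.id G') x.1,
        (MonoidHom.id G') x.2))) = (fun x => π' (F x)) - k • carry n χ (π' a0) := by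
      funext x
      show π' (F x - k • carry n χ a0 x) = _
      rw [map_sub, map_zsmul]
      simp only [carry, map_nsmul, Pi.sub_apply, Pi.smul_apply]
    rw [h2] at h1
    have h3 : (fun x => π' (F x)) - ((fun x => π' (F x)) - k • carry n χ (π' a0)) ∈ B2 G' C' :=
      (B2 G' C').sub_mem (mem_B2.2 hπF) (mem_B2.2 h1)
    rwa [sub_sub_cancel] at h3
  obtain ⟨P⟩ : Nonempty (Sylow n G') := inferInstance
  have hN : ¬ n ∣ (P : Subgroup G').index := P.not_dvd_index
  have hc0 : π' a0 ∈ inv (⊤ : Subgroup G') C' := fun g _ => by rw [← eπ', ha0]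
  have hord := carry_order n n χ hχ hC1 ⟨π' a0, hc0⟩ Λ hΛN (P : Subgroup G') P.isPGroup' k (by
    obtain ⟨z, hz⟩ := hπ2
    exact ⟨fun d => z (d : G'), fun g h => hz (g : G') (h : G')⟩)
  have hdvd : (n : ℤ) ∣ k := by
    rw [zsmul_eq_mul] at hord
    rcases mul_eq_zero.1 hord with h | h
    · rw [ZMod.intCast_zmod_eq_zero_iff_dvd] at h
      rcases (Nat.prime_iff_prime_int.1 hp).dvd_or_dvd h with h' | h'
      · exact absurd (Int.natCast_dvd_natCast.1 h') hN
      · exact h'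
    · exact absurd h (hΛa0 _ rfl)
  -- step 4
  obtain ⟨k', rfl⟩ := hdvd
  have h4 : IsCoboundary₂ (((n : ℤ) * k') • carry n χ a0) := by
    have h1 := carry_cob_of_norm' n χ hχ (ρ' t) ht (k' • a0)
      (fun g _ => by rw [smul_comm, ha0])
    rw [LGA2_sum_fixed (ρ' t) _ (fun g => by rw [smul_comm, ha0]), ← natCast_zsmul, ← mul_smul,
      ← carry_zsmul] at h1
    exact h1
  have h5 : F - ((n : ℤ) * k') • carry n χ a0 + ((n : ℤ) * k') • carry n χ a0 ∈ B2 G' A' :=
    (B2 G' A').add_mem (mem_B2.2 hF2) (mem_B2.2 h4)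
  rwa [sub_add_cancel] at h5

end

end Fermat.Agent.S55Lib
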