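import Fermat.Agent.S55.G3.LgDefs
import Fermat.Agent.S55.B.ClassTorsion

/-!
# S55, chapter G3, leaf (LGC): the `p`-torsion of `H²` of a class module is cyclic
-/

set_option autoImplicit false
set_option linter.unusedSectionVars false
set_option linter.unusedVariables false

namespace Fermat.Agent.S55Lib

noncomputable section

open groupCohomology

/-- (LGC) S55/G3/LgCyc.lean : the `p`-torsion of `H²` of a class module is cyclic of order `≤ p`. -/
theorem ptors_cyclic_of_classModule (p : ℕ) [Fact p.Prime] {D : Type} [Group D] [Finite D]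
    {K : Type} [AddCommGroup K] [DistribMulAction D K] (u : D × D → K)
    (hK : IsClassModule p D K u) (f g : D × D → K) (hf : IsCocycle₂ f) (hg : IsCocycle₂ g)
    (hpf : IsCoboundary₂ (p • f)) (hpg : IsCoboundary₂ (p • g)) (hg0 : ¬ IsCoboundary₂ g) :
    ∃ k : ℤ, IsCoboundary₂ (f - k • g) := by
  have hpp : p.Prime := Fact.out
  set X : H2 D K := H2.mk ⟨f, hf⟩ with hX
  set Y : H2 D K := H2.mk ⟨g, hg⟩ with hY
  have hpX : p • X = 0 := by
    rw [hX, ← H2.mk_nsmul, H2.mk_eq_zero]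
    exact hpf
  have hpY : p • Y = 0 := by
    rw [hY, ← H2.mk_nsmul, H2.mk_eq_zero]
    exact hpg
  have hY0 : Y ≠ 0 := by
    intro h
    rw [hY, H2.mk_eq_zero] at h
    exact hg0 h
  suffices h : ∃ k : ℤ, X = k • Y by
    obtain ⟨k, hk⟩ := h
    refine ⟨k, ?_⟩
    have h1 : H2.mk ((⟨f, hf⟩ : Z2 D K) - k • ⟨g, hg⟩) = 0 := by
      rw [H2.mk_sub, H2.mk_zsmul, ← hX, ← hY, hk, sub_self]
    rw [H2.mk_eq_zero] at h1
    exact h1
  by_cases hp : p ∣ Nat.card D
  · obtain ⟨q0, -, hpq0, hall⟩ := classModule_ptorsion p u hK hp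
    obtain ⟨i, hi⟩ := hall X hpX
    obtain ⟨j, hj⟩ := hall Y hpY
    have hpj : ¬ p ∣ j := by
      rintro ⟨j', rfl⟩
      apply hY0
      rw [hj, mul_comm, mul_smul, hpq0, smul_zero]
    have hcop : IsCoprime (j : ℤ) (p : ℤ) := by
      rw [Nat.isCoprime_iff_coprime]
      exact ((Nat.Prime.coprime_iff_not_dvd hpp).2 hpj).symm
    obtain ⟨a, b, hab⟩ := hcop
    have hq0 : q0 = a • Y := by
      have h1 : ((a * j + b * p : ℤ)) • q0 = q0 := by rw [hab, one_smul]
      rw [add_zsmul, mul_zsmul, mul_zsmul, natCast_zsmul, natCast_zsmul, hpq0, smul_zero, add_zero,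
        ← hj] at h1
      exact h1.symm
    refine ⟨i * a, ?_⟩
    rw [hi, mul_zsmul, ← hq0, natCast_zsmul]
  · exfalso
    apply hY0
    have h1 : Nat.card D • Y = 0 := Q_card_smul Y
    have hcop : IsCoprime ((Nat.card D : ℕ) : ℤ) (p : ℤ) := by
      rw [Nat.isCoprime_iff_coprime]
      exact ((Nat.Prime.coprime_iff_not_dvd hpp).2 hp).symm
    obtain ⟨a, b, hab⟩ := hcop
    have h2 : ((a * (Nat.card D : ℕ) + b * p : ℤ)) • Y = Y := by rw [hab, one_smul]
    rw [add_zsmul, mul_zsmul, mul_zsmul, natCast_zsmul, natCast_zsmul, hpY, h1, smul_zero, smul_zero,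
      add_zero] at h2
    exact h2.symm

end

end Fermat.Agent.S55Lib
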