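import Fermat.Agent.S55.G3.LgPull

/-!
# S55, chapter G3, leaf (LGI): inflation between levels
-/

set_option autoImplicit false
set_option linter.unusedSectionVars false
set_option linter.unusedVariables false

namespace Fermat.Agent.S55Lib

noncomputable section

open groupCohomology

theorem LGI_compat {Γ : Type} [Group Γ] {A : Type} [AddCommGroup A] [DistribMulAction Γ A]
    {U U' : Subgroup Γ} [U.Normal] [U'.Normal] (hle : U' ≤ U) (d : Γ ⧸ U') (a : inv U A) :
    invIncl hle (qMapLe hle d • a) = d • invIncl hle a := by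
  induction d using QuotientGroup.induction_on with
  | H g => rfl

/-- (LGI) S55/G3/LgInfl.lean : inflation between levels. -/
theorem inflLev_isCocycle {Γ : Type} [Group Γ] {A : Type} [AddCommGroup A] [DistribMulAction Γ A]
    {U U' : Subgroup Γ} [U.Normal] [U'.Normal] (hle : U' ≤ U)
    (f : (Γ ⧸ U) × (Γ ⧸ U) → inv U A) (hf : IsCocycle₂ f) : IsCocycle₂ (inflLev hle f) :=
  coc2_pull (qMapLe hle) (invIncl hle) (LGI_compat hle) f hf

/-- (LGI) -/
theorem inflLev_isCoboundary {Γ : Type} [Group Γ] {A : Type} [AddCommGroup A]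
    [DistribMulAction Γ A] {U U' : Subgroup Γ} [U.Normal] [U'.Normal] (hle : U' ≤ U)
    (f : (Γ ⧸ U) × (Γ ⧸ U) → inv U A) (hf : IsCoboundary₂ f) :
    IsCoboundary₂ (inflLev hle f) :=
  cob2_pull (qMapLe hle) (invIncl hle) (LGI_compat hle) f hf

end

end Fermat.Agent.S55Lib
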