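import Fermat.Agent.S55.G3.LgShapiro
import Fermat.Agent.S55.G3.LgInfl
import Fermat.Agent.S55.L.InfRes

/-! # S55 G3 (LGD): inflation is injective on `H²` of the semi-local modules -/

set_option autoImplicit false
set_option linter.unusedSectionVars false
set_option linter.unusedVariables false

namespace Fermat.Agent.S55Lib

noncomputable section

open groupCohomology

lemma LGD_Wev1_compat {Γ H : Type} [Group Γ] [Group H] (r : H →* Γ) (B : Type) [AddCommGroup B]
    [DistribMulAction H B] (𝓤 : Lev Γ) (U : Subgroup Γ) [U.Normal]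
    (d : H ⧸ U.comap r) (a : inv U (SCoind r B 𝓤)) :
    Wev1 r B 𝓤 U (quotMap r U d • a) = d • Wev1 r B 𝓤 U a := by
  induction d using QuotientGroup.induction_on with
  | H h =>
    apply Subtype.ext
    show ((a : SCoind r B 𝓤) : Γ → B) (1 * r h) = h • ((a : SCoind r B 𝓤) : Γ → B) 1
    rw [one_mul, ← SCoind.equivar, mul_one]

/-- (LGD) S55/G3/LgDescend.lean : inflation is injective on `H²` of the semi-local modules.
(LGS) at `U`; helper29's `inf_injective` for `π = qMapLe : H/r⁻¹U' → H/r⁻¹U`,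
`ι = invIncl : B^{r⁻¹U} → B^{r⁻¹U'}` (`h1` at `π.ker`); the inflated local cocycle is
`Wev1 ∘ inflLev f ∘ quotMap` (definitionally), a coboundary by (LGP). -/
theorem lg_descend {Γ H : Type} [Group Γ] [Group H] (r : H →* Γ) (B : Type) [AddCommGroup B]
    [DistribMulAction H B] (𝓤 : Lev Γ) (U U' : Subgroup Γ) [U.Normal] [U'.Normal]
    (hU : U ∈ 𝓤.mem) (hU' : U' ∈ 𝓤.mem) (hle : U' ≤ U)
    (h1 : ∀ (K : Subgroup (H ⧸ U'.comap r)) (f : K → inv (U'.comap r) B),
      IsCocycle₁ f → IsCoboundary₁ f)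
    (f : (Γ ⧸ U) × (Γ ⧸ U) → inv U (SCoind r B 𝓤)) (hf : IsCocycle₂ f)
    (hF : IsCoboundary₂ (inflLev hle f)) : IsCoboundary₂ f := by
  apply shapiro_inj_lev r B 𝓤 U hU f hf
  have hle' : U'.comap r ≤ U.comap r := Subgroup.comap_mono hle
  refine inf_injective (qMapLe hle') ?_ (invIncl hle') ?_ (LGI_compat hle') ?_ (h1 _) _
    (coc2_pull (quotMap r U) (Wev1 r B 𝓤 U) (LGD_Wev1_compat r B 𝓤 U) f hf) ?_
  · intro q
    induction q using QuotientGroup.induction_on with
    | H h => exact ⟨(h : H ⧸ U'.comap r), rfl⟩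
  · intro a b hab
    apply Subtype.ext
    exact congrArg (fun z : inv (U'.comap r) B => (z : B)) hab
  · intro a ha
    refine ⟨⟨(a : B), fun s hs => ?_⟩, rfl⟩
    have h2 : ((s : H) : H ⧸ U'.comap r) ∈ (qMapLe hle').ker := by
      rw [MonoidHom.mem_ker]
      exact (QuotientGroup.eq_one_iff s).2 hs
    exact congrArg (fun z : inv (U'.comap r) B => (z : B)) (ha _ h2)
  · have h3 := cob2_pull (quotMap r U') (Wev1 r B 𝓤 U') (LGD_Wev1_compat r B 𝓤 U')
      (inflLev hle f) hF
    have hfun : (fun x : (H ⧸ U'.comap r) × (H ⧸ U'.comap r) =>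
        invIncl hle' (Wev1 r B 𝓤 U (f (quotMap r U (qMapLe hle' x.1),
          quotMap r U (qMapLe hle' x.2))))) =
        (fun x : (H ⧸ U'.comap r) × (H ⧸ U'.comap r) =>
          Wev1 r B 𝓤 U' (inflLev hle f (quotMap r U' x.1, quotMap r U' x.2))) := by
      funext x
      obtain ⟨x1, x2⟩ := x
      induction x1 using QuotientGroup.induction_on with
      | H a =>
        induction x2 using QuotientGroup.induction_on with
        | H b => rfl
    show IsCoboundary₂ (fun x : (H ⧸ U'.comap r) × (H ⧸ U'.comap r) =>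
        invIncl hle' (Wev1 r B 𝓤 U (f (quotMap r U (qMapLe hle' x.1),
          quotMap r U (qMapLe hle' x.2)))))
    rw [hfun]
    exact h3

end

end Fermat.Agent.S55Lib
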