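import Fermat.Agent.S55.G3.LgDefs
import Fermat.Agent.S55.E.H90

/-! # S55 G3 (LG4): Hilbert 90 at a finite level -/

set_option autoImplicit false
set_option linter.unusedSectionVars false
set_option linter.unusedVariables false
set_option linter.style.haveILetI false

namespace Fermat.Agent.S55Lib

noncomputable section

open groupCohomology

/-- (LG4) -/
theorem local_h90_quot (q : Nat.Primes) (U' : Subgroup GQ) [U'.Normal] (hU' : U' ∈ levAll.mem)
    (H : Subgroup (Gq q ⧸ U'.comap (rq q)))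
    (f : H → inv (U'.comap (rq q)) (Additive (Om q)ˣ)) (hf : IsCocycle₁ f) :
    IsCoboundary₁ f := by
  classical
  have hfin := (levAll.comap (rq q)).finiteIndex (U'.comap (rq q)) ⟨U', hU', rfl⟩
  obtain ⟨F₁, hF₁, hn₁, -, hUF⟩ := hU'
  have hfix : (locF q 1 F₁).fixingSubgroup = U'.comap (rq q) := by
    ext h
    rw [mem_fixingSubgroup_locF_iff, Subgroup.mem_comap, hUF]
    simp
  haveI : (locF q 1 F₁).fixingSubgroup.FiniteIndex := by rw [hfix]; exact hfin
  have hf1 : f 1 = 0 := by
    have := hf 1 1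
    rw [mul_one, one_smul] at this
    exact left_eq_add.mp this
  let W : Subgroup (Gq q) := H.comap (QuotientGroup.mk' (U'.comap (rq q)))
  have hle : U'.comap (rq q) ≤ W := by
    intro t ht
    have h1 : (t : Gq q ⧸ U'.comap (rq q)) = 1 := (QuotientGroup.eq_one_iff t).mpr ht
    show (t : Gq q ⧸ U'.comap (rq q)) ∈ H
    exact h1 ▸ one_mem H
  let a : Gq q → (Om q)ˣ := fun s => if hs : s ∈ W then
    Additive.toMul ((f ⟨(s : Gq q ⧸ U'.comap (rq q)), hs⟩ :
      inv (U'.comap (rq q)) (Additive (Om q)ˣ)) : Additive (Om q)ˣ) else 1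
  obtain ⟨b, hb⟩ := E2_hilbert90 W (locF q 1 F₁) (by rw [hfix]; exact hle) a
    (by
      intro s hs t ht
      simp only [a, dif_pos hs, dif_pos ht, dif_pos (mul_mem hs ht)]
      have := hf ⟨(s : Gq q ⧸ U'.comap (rq q)), hs⟩ ⟨(t : Gq q ⧸ U'.comap (rq q)), ht⟩
      have h2 := congrArg (fun z : inv (U'.comap (rq q)) (Additive (Om q)ˣ) =>
        Additive.toMul (z : Additive (Om q)ˣ)) this
      simp only [AddSubgroup.coe_add, toMul_add] at h2
      rw [mul_comm] at h2
      exact h2)
    (by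
      intro t ht
      rw [hfix] at ht
      simp only [a, dif_pos (hle ht)]
      have h1 : (⟨(t : Gq q ⧸ U'.comap (rq q)), hle ht⟩ : H) = 1 :=
        Subtype.ext ((QuotientGroup.eq_one_iff t).mpr ht)
      rw [h1, hf1]
      rfl)
  have hbinv : Additive.ofMul b⁻¹ ∈ inv (U'.comap (rq q)) (Additive (Om q)ˣ) := by
    intro t ht
    have h1 := hb t (hle ht)
    have h2 : a t = 1 := by
      simp only [a, dif_pos (hle ht)]
      have h1 : (⟨(t : Gq q ⧸ U'.comap (rq q)), hle ht⟩ : H) = 1 :=
        Subtype.ext ((QuotientGroup.eq_one_iff t).mpr ht)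
      rw [h1, hf1]
      rfl
    rw [h2] at h1
    have h3 : t • b = b := (div_eq_one.mp h1.symm).symm
    show Additive.ofMul (t • b⁻¹) = Additive.ofMul b⁻¹
    rw [smul_inv', h3]
  refine ⟨⟨Additive.ofMul b⁻¹, hbinv⟩, fun g => ?_⟩
  obtain ⟨g, hg⟩ := g
  induction g using QuotientGroup.induction_on with
  | H s =>
    have h1 := hb s hg
    simp only [a, dif_pos (show s ∈ W from hg)] at h1
    apply Subtype.ext
    apply Additive.toMul.injective
    rw [h1]
    show (s • b⁻¹) / b⁻¹ = b / s • b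
    rw [smul_inv', div_eq_mul_inv, inv_inv, div_eq_mul_inv, mul_comm]

end

end Fermat.Agent.S55Lib
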