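import Fermat.Agent.S55.G3.ArtDefs

/-!
# S55, chapter G3, leaf (LG5): `lam t ≠ 1` for a non-`p`-th power `t`
-/

set_option autoImplicit false
set_option linter.unusedSectionVars false
set_option linter.unusedVariables false

namespace Fermat.Agent.S55Lib

noncomputable section

variable (p : ℕ) [Fact p.Prime]

/-- (LG5) S55/G3/LgLam.lean : `lam t ≠ 1` for a non-`p`-th power `t`. -/
theorem IsArt.lam_ne_one {l : Nat.Primes} {lam : (ZMod (l : ℕ))ˣ →* Multiplicative (ZMod (p ^ 1))}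
    {χ : GQ →* Multiplicative (ZMod (p ^ 1))} (h : IsArt p (p ^ 1) l lam χ)
    (t : (ZMod (l : ℕ))ˣ) (ht : ∀ s : (ZMod (l : ℕ))ˣ, t ≠ s ^ p) : lam t ≠ 1 := by
  intro h1
  have hmem : t ∈ lam.ker := h1
  have h2 : (⟨t, hmem⟩ : lam.ker) ^ Nat.card lam.ker = 1 := pow_card_eq_one'
  have h3 : t ^ Nat.card lam.ker = 1 := congrArg Subtype.val h2
  have hcop : IsCoprime ((Nat.card lam.ker : ℕ) : ℤ) (p : ℤ) :=
    Nat.isCoprime_iff_coprime.2 h.cop
  obtain ⟨a, b, hab⟩ := hcop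
  apply ht (t ^ b)
  have h4 : t ^ (a * (Nat.card lam.ker : ℕ) + b * p : ℤ) = t := by rw [hab, zpow_one]
  rw [zpow_add, mul_comm a, zpow_mul, zpow_natCast, h3, one_zpow, one_mul, zpow_mul,
    zpow_natCast] at h4
  exact h4.symm

end

end Fermat.Agent.S55Lib
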