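import Fermat.Agent.S55.G3.ArtDefs
import Fermat.Agent.S55.G2.PlaceDense

/-! # S55 G3 (LR3'): value group of a completion -/

set_option autoImplicit false
set_option linter.unusedSectionVars false
set_option linter.unusedVariables false

namespace Fermat.Agent.S55Lib

noncomputable section

/-- (LR3') value group of a completion (`dense_locF`). -/
theorem norm_eq_zpow_locF (q : Nat.Primes) (F : IntermediateField ℚ Qbar) [FiniteDimensional ℚ F]
    (hF : ValZ q F) (g : GQ) (z : Om q) (hz : z ∈ locF q g F) (hz0 : z ≠ 0) :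
    ∃ k : ℤ, ‖z‖ = ((q : ℕ) : ℝ) ^ k := by
  obtain ⟨x, hx, hlt⟩ := dense_locF F q g z hz ‖z‖ (norm_pos_iff.mpr hz0)
  have h1 : ‖iq q (g x)‖ = ‖z‖ := by
    have h2 : iq q (g x) = z + (iq q (g x) - z) := by ring
    have h3 : ‖iq q (g x) - z‖ < ‖z‖ := by rw [norm_sub_rev]; exact hlt
    rw [h2]
    have h4 := IsUltrametricDist.norm_add_eq_max_of_norm_ne_norm (x := z) (y := iq q (g x) - z)
      h3.ne'
    rw [h4, max_eq_left h3.le]
  have hx0 : x ≠ 0 := by
    rintro rfl
    rw [map_zero, map_zero, norm_zero] at h1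
    exact hz0 (norm_eq_zero.mp h1.symm)
  obtain ⟨k, hk⟩ := hF x hx hx0 g
  exact ⟨k, by rw [← h1, hk]⟩

end

end Fermat.Agent.S55Lib
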