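import Fermat.Agent.S55.G3.LgDefs
import Fermat.Agent.S55.G3.LrLoc
import Fermat.Agent.S55.G3.LrVal
import Fermat.Agent.S55.G3.CyLevel
import Fermat.Agent.S55.G2.TameFix
import Fermat.Agent.S55.G.LocFix
import Fermat.Agent.S55.G.CRT

/-! # S55 G3 (LG3): `q` is not a norm from the unramified extension of degree `p` -/

set_option autoImplicit false
set_option linter.unusedSectionVars false
set_option linter.unusedVariables false

namespace Fermat.Agent.S55Lib

noncomputable section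

theorem LG3_valZ (q l : Nat.Primes) (hql : q ≠ l) : ValZ q (CY2_field l) := by
  intro x hx hx0 g
  refine norm_eq_zpow_cyc l q hql x hx0 (fun s hs => ?_) g
  rw [← CY2_fix_eq] at hs
  exact (IntermediateField.mem_fixingSubgroup_iff _ s).1 hs x hx

theorem LG3_mem_locF (q l : Nat.Primes) (y : (Om q)ˣ)
    (hy : ∀ h : Gq q, rq q h ∈ Ucyc l → h • y = y) : (y : Om q) ∈ locF q 1 (CY2_field l) := by
  apply mem_of_fixed
  intro h hh
  have h1 : h ∈ (locF q 1 (CY2_field l)).fixingSubgroup :=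
    (IntermediateField.mem_fixingSubgroup_iff _ h).2 hh
  rw [mem_fixingSubgroup_locF_iff, CY2_fix_eq, inv_one, one_mul, mul_one] at h1
  exact congrArg Units.val (hy h h1)

variable (p : ℕ) [Fact p.Prime]

/-- (LG3) -/
theorem prime_not_norm (q l : Nat.Primes) (hql : q ≠ l) (h₀ : Gq q) (y : (Om q)ˣ)
    (hy : ∀ h : Gq q, rq q h ∈ Ucyc l → h • y = y) :
    primeOm q ≠ ∏ i ∈ Finset.range p, h₀ ^ i • y := by
  intro heq
  have hp : p.Prime := Fact.out
  obtain ⟨k, hk⟩ := norm_eq_zpow_locF q (CY2_field l) (LG3_valZ q l hql) 1 (y : Om q)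
    (LG3_mem_locF q l y hy) y.ne_zero
  have h1 := congrArg (fun z : (Om q)ˣ => ‖(z : Om q)‖) heq
  have h2 : ‖((∏ i ∈ Finset.range p, h₀ ^ i • y : (Om q)ˣ) : Om q)‖ = ‖(y : Om q)‖ ^ p := by
    rw [Units.coe_prod, norm_prod]
    have h3 : ∀ i ∈ Finset.range p, ‖((h₀ ^ i • y : (Om q)ˣ) : Om q)‖ = ‖(y : Om q)‖ :=
      fun i _ => norm_gq q (h₀ ^ i) (y : Om q)
    rw [Finset.prod_congr rfl h3, Finset.prod_const, Finset.card_range]
  have h4 : ‖((primeOm q : (Om q)ˣ) : Om q)‖ = ((q : ℕ) : ℝ)⁻¹ := norm_q_Om q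
  simp only [h2, h4, hk] at h1
  have hq1 : (1 : ℝ) < ((q : ℕ) : ℝ) := by exact_mod_cast q.2.one_lt
  have h5 : ((q : ℕ) : ℝ) ^ (-1 : ℤ) = ((q : ℕ) : ℝ) ^ (k * p) := by
    rw [zpow_neg_one, h1, zpow_mul, zpow_natCast]
  have h6 : (-1 : ℤ) = k * p := zpow_right_injective₀ (by linarith) hq1.ne' h5
  have h7 : (p : ℤ) ∣ 1 := ⟨-k, by linarith⟩
  have h8 : p ∣ 1 := by exact_mod_cast h7
  exact hp.one_lt.ne' (Nat.dvd_one.mp h8)

end

end Fermat.Agent.S55Lib
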