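import Fermat.Agent.S55.G3.LgFrobMu
import Fermat.Agent.S55.G.CRT

/-!
# S55, chapter G3, leaf (LG1c): Frobenius moves `q^(1/p)` ⇒ `q` is not a `p`-th power mod `l`
-/

set_option autoImplicit false
set_option linter.unusedSectionVars false
set_option linter.unusedVariables false

namespace Fermat.Agent.S55Lib

noncomputable section

variable (p : ℕ) [Fact p.Prime]

theorem LG1c_norm_lt_one_of_zmod_eq (l : Nat.Primes) {a b : ℕ}
    (h : (a : ZMod (l : ℕ)) = (b : ZMod (l : ℕ))) : ‖(a : Om l) - (b : Om l)‖ < 1 := by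
  have hl1 : ‖(((l : ℕ) : ℕ) : Om l)‖ < 1 := by
    rw [norm_q_Om]
    exact inv_lt_one_of_one_lt₀ (by exact_mod_cast l.2.one_lt)
  have key : ∀ {a b : ℕ}, a ≤ b → (a : ZMod (l : ℕ)) = (b : ZMod (l : ℕ)) →
      ‖(b : Om l) - (a : Om l)‖ < 1 := by
    intro a b hab h
    have h1 : (l : ℕ) ∣ b - a := (Nat.modEq_iff_dvd' hab).1 ((ZMod.natCast_eq_natCast_iff _ _ _).1 h)
    rw [← Nat.cast_sub hab]
    exact (norm_natCast_Om_le_of_dvd l h1).trans_lt hl1
  rcases le_total a b with hab | hab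
  · rw [norm_sub_rev]
    exact key hab h
  · exact key hab h.symm

/-- (LG1c) S55/G3/LgFrobKum.lean -/
theorem not_pow_of_frob_moves (q l : Nat.Primes) (hlp : (l : ℕ) ≠ p) (hlq : l ≠ q)
    (hl1 : p ∣ (l : ℕ) - 1) (g τ : GQ) (hτ : IsFrobPl l g τ) (β : Qbar)
    (hβ : β ^ p = (((q : ℕ) : ℕ) : Qbar)) (hmv : τ β ≠ β) (t s : (ZMod (l : ℕ))ˣ)
    (ht : (((q : ℕ) : ℕ) : ZMod (l : ℕ)) = (t : ZMod (l : ℕ))) : t ≠ s ^ p := by
  intro hts
  have hpp : p.Prime := Fact.out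
  obtain ⟨m, hm⟩ := hl1
  have hlq' : ¬ (l : ℕ) ∣ (q : ℕ) := fun h =>
    hlq (Subtype.ext ((Nat.prime_dvd_prime_iff_eq l.2 q.2).1 h))
  set w : Om l := iq l (g β) with hw
  have hwp : w ^ p = (((q : ℕ) : ℕ) : Om l) := by
    rw [hw, ← map_pow, ← map_pow, hβ, map_natCast, map_natCast]
  have hw1 : ‖w‖ = 1 := by
    have h1 : ‖w‖ ^ p = 1 := by rw [← norm_pow, hwp, norm_natCast_Om l hlq']
    exact (pow_eq_one_iff_of_nonneg (norm_nonneg w) hpp.ne_zero).1 h1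
  have hw0 : w ≠ 0 := by
    intro h0
    rw [h0, norm_zero] at hw1
    exact zero_ne_one hw1
  set w' : Om l := iq l (g (τ β)) with hw'
  have hwp' : w' ^ p = (((q : ℕ) : ℕ) : Om l) := by
    rw [hw', ← map_pow, ← map_pow, ← map_pow, hβ, map_natCast, map_natCast, map_natCast]
  have hne : w' ≠ w := fun h => hmv (g.injective ((iq l).injective h))
  set Z : Om l := w' / w with hZ
  have hZp : Z ^ p = 1 := by
    rw [hZ, div_pow, hwp, hwp']
    exact div_self (by rw [← hwp]; exact pow_ne_zero _ hw0)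
  have hZ1 : Z ≠ 1 := by
    intro h
    rw [hZ, div_eq_one_iff_eq hw0] at h
    exact hne h
  have hnorm := norm_root_sub_one l p hlp Z hZp hZ1
  -- Frobenius
  have hF := hτ β hw1.le
  have h1 : ‖Z - w ^ ((l : ℕ) - 1)‖ < 1 := by
    have h2 : Z - w ^ ((l : ℕ) - 1) = (w' - w ^ (l : ℕ)) / w := by
      have h3 : w ^ (l : ℕ) = w ^ ((l : ℕ) - 1) * w := by
        rw [← pow_succ, Nat.sub_add_cancel l.2.one_le]
      rw [hZ, h3]
      field_simp
    rw [h2, norm_div, hw1, div_one]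
    exact hF
  have h4 : w ^ ((l : ℕ) - 1) = (((q : ℕ) ^ m : ℕ) : Om l) := by
    rw [hm, pow_mul, hwp, Nat.cast_pow]
  -- `q ^ m = 1` mod `l`
  have h5 : (((q : ℕ) ^ m : ℕ) : ZMod (l : ℕ)) = ((1 : ℕ) : ZMod (l : ℕ)) := by
    rw [Nat.cast_pow, ht, hts, Nat.cast_one, Units.val_pow_eq_pow_val, ← pow_mul, ← hm]
    exact ZMod.pow_card_sub_one_eq_one s.ne_zero
  have h6 := LG1c_norm_lt_one_of_zmod_eq l h5
  rw [← h4, Nat.cast_one] at h6
  have h7 := LT_trans h1 h6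
  rw [hnorm] at h7
  exact lt_irrefl _ h7

end

end Fermat.Agent.S55Lib
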