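import Fermat.Agent.S55.G3.LgTau
import Fermat.Agent.S55.G3.LgFrobKum
import Fermat.Agent.S55.G2.PlaceCheb

/-!
# S55, chapter G3, leaf (LG1): a prime `l = 1 mod p`, `l ≠ 1 mod p²`, `q` not a `p`-th power mod `l`
-/

set_option autoImplicit false
set_option linter.unusedSectionVars false
set_option linter.unusedVariables false

namespace Fermat.Agent.S55Lib

noncomputable section

variable (p : ℕ) [Fact p.Prime]

theorem LG1_pow_fix {τ : GQ} {x : Qbar} (h : τ x = x) (k : ℕ) : (τ ^ k) x = x := by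
  induction k with
  | zero => rfl
  | succ k ih =>
    rw [pow_succ]
    show (τ ^ k) (τ x) = x
    rw [h, ih]

theorem LG1_fix_of {M : IntermediateField ℚ Qbar} {τ τ₀ : GQ} {k : ℕ}
    (h : τ₀⁻¹ * τ ^ k ∈ M.fixingSubgroup) {x : Qbar} (hx : x ∈ M) (hτ : τ x = x) : τ₀ x = x := by
  have h1 : (τ₀⁻¹ * τ ^ k) x = x := (IntermediateField.mem_fixingSubgroup_iff M _).1 h x hx
  have h2 : τ₀⁻¹ ((τ ^ k) x) = x := h1
  rw [LG1_pow_fix hτ k] at h2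
  have h3 := congrArg τ₀ h2
  rw [← h3]
  exact (τ₀.apply_symm_apply x).symm ▸ rfl

/-- (LG1) S55/G3/LgPrime.lean -/
theorem exists_inert_prime (q : Nat.Primes) :
    ∃ l : Nat.Primes, (l : ℕ) ≠ p ∧ l ≠ q ∧ p ^ 1 ∣ (l : ℕ) - 1 ∧ ¬ p ^ (1 + 1) ∣ (l : ℕ) - 1 ∧
      ∀ t s : (ZMod (l : ℕ))ˣ, (((q : ℕ) : ℕ) : ZMod (l : ℕ)) = (t : ZMod (l : ℕ)) → t ≠ s ^ p := by
  classical
  have hpp : p.Prime := Fact.out
  have : NeZero (p ^ 2) := ⟨pow_ne_zero _ hpp.ne_zero⟩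
  obtain ⟨τ₀, h0a, ⟨z, hz, hz'⟩, h0c⟩ := exists_tau0 p q
  obtain ⟨Z, hZ⟩ := HasEnoughRootsOfUnity.exists_primitiveRoot Qbar (p ^ 2)
  obtain ⟨β, hβ⟩ : ∃ β : Qbar, β ^ p = (((q : ℕ) : ℕ) : Qbar) :=
    IsAlgClosed.exists_pow_nat_eq _ hpp.pos
  have hτ₀Z : τ₀ Z ≠ Z := by
    intro h
    obtain ⟨i, -, rfl⟩ := hZ.eq_pow_of_pow_eq_one hz
    apply hz'
    rw [map_pow, h]
  obtain ⟨F₁, hF₁, hn₁, hZ₁⟩ := exists_stableF Z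
  obtain ⟨F₂, hF₂, hn₂, hβ₂⟩ := exists_stableF β
  have hfd : FiniteDimensional ℚ (F₁ ⊔ F₂ : IntermediateField ℚ Qbar) :=
    IntermediateField.finiteDimensional_sup F₁ F₂
  have hZM : Z ∈ F₁ ⊔ F₂ := (le_sup_left : F₁ ≤ F₁ ⊔ F₂) hZ₁
  have hβM : β ∈ F₁ ⊔ F₂ := (le_sup_right : F₂ ≤ F₁ ⊔ F₂) hβ₂
  obtain ⟨l, hl, g, τ, k, j, hFr, h1, h2⟩ :=
    weak_cheb_place (F₁ ⊔ F₂) (hn₁.sup hn₂) τ₀ {pP p, q}
  have hlp : (l : ℕ) ≠ p := by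
    intro h
    apply hl
    rw [Finset.mem_insert]
    exact Or.inl (Subtype.ext h : l = pP p)
  have hlq : l ≠ q := by
    intro h
    apply hl
    rw [Finset.mem_insert, Finset.mem_singleton]
    exact Or.inr h
  have hlp' : ¬ (l : ℕ) ∣ p := fun h => hlp ((Nat.prime_dvd_prime_iff_eq l.2 hpp).1 h)
  have hlp2 : ¬ (l : ℕ) ∣ p ^ 2 := fun h => hlp' (l.2.dvd_of_dvd_pow h)
  have hl1 : 1 ≤ (l : ℕ) := l.2.one_le
  -- `τ` fixes `ζ_p`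
  have hζ : IsPrimitiveRoot (Z ^ p) p := hZ.pow (pow_pos hpp.pos 2) (by ring)
  have hζM : Z ^ p ∈ F₁ ⊔ F₂ := pow_mem hZM p
  have hτζ : τ (Z ^ p) = Z ^ p := LG1_fix_of h2 hζM (h0a _ hζ.pow_eq_one)
  have hdvd : p ∣ (l : ℕ) - 1 := by
    have h3 := frob_root_of_unity l g τ hFr p hlp' (Z ^ p) hζ.pow_eq_one
    rw [hτζ] at h3
    rw [← hζ.pow_eq_one_iff_dvd]
    have h4 : (Z ^ p) ^ (l : ℕ) = (Z ^ p) ^ ((l : ℕ) - 1) * Z ^ p := by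
      rw [← pow_succ, Nat.sub_add_cancel hl1]
    rw [h4] at h3
    exact (mul_eq_right₀ (hζ.ne_zero hpp.ne_zero)).1 h3.symm
  have hτZ : τ Z ≠ Z := fun h => hτ₀Z (LG1_fix_of h1 hZM h)
  have hτβ : τ β ≠ β := fun h => h0c β hβ (LG1_fix_of h1 hβM h)
  refine ⟨l, hlp, hlq, by rwa [pow_one], ?_, fun t s ht =>
    not_pow_of_frob_moves p q l hlp hlq hdvd g τ hFr β hβ hτβ t s ht⟩
  intro hd
  apply hτZ
  rw [frob_root_of_unity l g τ hFr (p ^ 2) hlp2 Z hZ.pow_eq_one]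
  have h4 : Z ^ (l : ℕ) = Z ^ ((l : ℕ) - 1) * Z := by
    rw [← pow_succ, Nat.sub_add_cancel hl1]
  rw [h4, (hZ.pow_eq_one_iff_dvd _).2 hd, one_mul]

end

end Fermat.Agent.S55Lib
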