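import Fermat.Agent.S55.G3.LgDefs
import Fermat.Agent.S55.G3.ArtDefs

/-! # S55 G3 (LG2): the prime idele -/

set_option autoImplicit false
set_option linter.unusedSectionVars false
set_option linter.unusedVariables false

namespace Fermat.Agent.S55Lib

noncomputable section

/-- (LG2) -/
theorem isPrimeId_primeA (q : Nat.Primes) : IsPrimeId q (Additive.toMul (sglq q (primeA q))) := by
  refine ⟨fun g => ?_, fun q' hq' g => cmp_sglq_of_ne q _ q' hq' g⟩
  rw [cmp_sglq]
  rfl

/-- (LG2) -/
theorem sglq_primeA_mem (q : Nat.Primes) : Additive.toMul (sglq q (primeA q)) ∈ JF ⊥ := by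
  intro s _
  have h := sglq_equivar q s (primeA q)
  rw [smul_primeA] at h
  exact (congrArg Additive.toMul h).symm

end

end Fermat.Agent.S55Lib
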