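import Fermat.Agent.S55.G3.CyChar
import Fermat.Agent.S55.G2.TameMu
import Fermat.Agent.S55.L.FrobPow

/-!
# S55, chapter G3, (LR1): the local Frobenius at `r ≠ l` on `μ_l` (Dedekind's argument)
-/

set_option autoImplicit false
set_option linter.unusedSectionVars false
set_option linter.unusedVariables false

namespace Fermat.Agent.S55Lib

noncomputable section

open Polynomial

section LR

variable (r : Nat.Primes)

/-- a `r`-adic integer is congruent to a natural number -/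
lemma LR1_exists_nat (a : ℚ_[(r : ℕ)]) (ha : ‖a‖ ≤ 1) : ∃ n : ℕ, ‖a - (n : ℚ_[(r : ℕ)])‖ < 1 := by
  obtain ⟨n, -, hn⟩ := PadicInt.exists_mem_range (⟨a, ha⟩ : ℤ_[(r : ℕ)])
  refine ⟨n, ?_⟩
  rw [PadicInt.maximalIdeal_eq_span_p, Ideal.mem_span_singleton, ← PadicInt.norm_lt_one_iff_dvd] at hn
  exact hn

/-- elements of `ℤ_r` are fixed by the Frobenius of the residue field -/
lemma LR1_red_pow (a : ℚ_[(r : ℕ)]) (ha : ‖a‖ ≤ 1)
    (hA : algebraMap ℚ_[(r : ℕ)] (Om r) a ∈ OO (r : ℕ) (Om r)) :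
    red (r : ℕ) (Om r) ⟨algebraMap ℚ_[(r : ℕ)] (Om r) a, hA⟩ ^ (r : ℕ)
      = red (r : ℕ) (Om r) ⟨algebraMap ℚ_[(r : ℕ)] (Om r) a, hA⟩ := by
  obtain ⟨n, hn⟩ := LR1_exists_nat r a ha
  have : CharP (kk (r : ℕ) (Om r)) (r : ℕ) := kk_charP (r : ℕ)
  have h1 : red (r : ℕ) (Om r) ⟨algebraMap ℚ_[(r : ℕ)] (Om r) a, hA⟩
      = red (r : ℕ) (Om r) (n : OO (r : ℕ) (Om r)) := by
    rw [red_eq_red]
    have : (algebraMap ℚ_[(r : ℕ)] (Om r) a) - ((n : OO (r : ℕ) (Om r)) : Om r)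
        = algebraMap ℚ_[(r : ℕ)] (Om r) (a - (n : ℚ_[(r : ℕ)])) := by
      simp
    show nm (r : ℕ) ((algebraMap ℚ_[(r : ℕ)] (Om r) a) - ((n : OO (r : ℕ) (Om r)) : Om r)) < 1
    rw [this, nm_padic]
    exact hn
  rw [h1, map_natCast]
  exact map_natCast (frobenius (kk (r : ℕ) (Om r)) (r : ℕ)) n

/-- Dedekind: `P(w^r) ≡ P(w)^r` for `P ∈ ℤ_r[X]` -/
lemma LR1_aeval_pow (P : ℚ_[(r : ℕ)][X]) (hP : ∀ n, ‖P.coeff n‖ ≤ 1) (w : Om r) (hw : ‖w‖ ≤ 1)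
    (h0 : aeval w P = 0) : ‖aeval (w ^ (r : ℕ)) P‖ < 1 := by
  have : CharP (kk (r : ℕ) (Om r)) (r : ℕ) := kk_charP (r : ℕ)
  have hA : ∀ i, algebraMap ℚ_[(r : ℕ)] (Om r) (P.coeff i) ∈ OO (r : ℕ) (Om r) := by
    intro i
    rw [mem_OO, nm_padic]
    exact hP i
  let A : ℕ → OO (r : ℕ) (Om r) := fun i => ⟨algebraMap ℚ_[(r : ℕ)] (Om r) (P.coeff i), hA i⟩
  let W : OO (r : ℕ) (Om r) := ⟨w, hw⟩
  have hS : ∀ V : OO (r : ℕ) (Om r),
      ((∑ i ∈ Finset.range (P.natDegree + 1), A i * V ^ i : OO (r : ℕ) (Om r)) : Om r)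
        = aeval (V : Om r) P := by
    intro V
    rw [aeval_eq_sum_range]
    simp [A, Algebra.smul_def]
  have h1 : red (r : ℕ) (Om r) (∑ i ∈ Finset.range (P.natDegree + 1), A i * W ^ i) = 0 := by
    rw [red_eq_zero, hS W]
    show nm (r : ℕ) (aeval w P) < 1
    rw [h0, nm_zero]
    exact one_pos
  have h2 : red (r : ℕ) (Om r) (∑ i ∈ Finset.range (P.natDegree + 1), A i * (W ^ (r : ℕ)) ^ i)
      = 0 := by
    have h3 : red (r : ℕ) (Om r) (∑ i ∈ Finset.range (P.natDegree + 1), A i * (W ^ (r : ℕ)) ^ i)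
        = (red (r : ℕ) (Om r) (∑ i ∈ Finset.range (P.natDegree + 1), A i * W ^ i)) ^ (r : ℕ) := by
      rw [map_sum, map_sum, sum_pow_char]
      refine Finset.sum_congr rfl fun i _ => ?_
      rw [map_mul, map_mul, mul_pow, LR1_red_pow r _ (hP i), map_pow, map_pow, map_pow, ← pow_mul,
        ← pow_mul, mul_comm (r : ℕ) i]
    rw [h3, h1, zero_pow r.2.ne_zero]
  rw [red_eq_zero, hS] at h2
  exact h2

/-- a product of norm `< 1` has a factor of norm `< 1` -/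
lemma LR1_exists_lt (s : Multiset (Om r)) (hs : ‖s.prod‖ < 1) : ∃ x ∈ s, ‖x‖ < 1 := by
  induction s using Multiset.induction_on with
  | empty => simp at hs
  | cons a s ih =>
    rw [Multiset.prod_cons, norm_mul] at hs
    by_cases ha : ‖a‖ < 1
    · exact ⟨a, Multiset.mem_cons_self a s, ha⟩
    · by_cases hs' : ‖s.prod‖ < 1
      · obtain ⟨x, hx, hx'⟩ := ih hs'
        exact ⟨x, Multiset.mem_cons_of_mem hx, hx'⟩
      · exfalso
        have := one_le_mul_of_one_le_of_one_le (not_lt.1 ha) (not_lt.1 hs')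
        linarith

/-- the local Frobenius on roots of unity of order prime to `r` -/
lemma LR1_exists_pow {N : ℕ} (hN : ¬ (r : ℕ) ∣ N) (w : Om r) (hw : w ^ N = 1) :
    ∃ h : Gq r, h w = w ^ (r : ℕ) := by
  have hN0 : N ≠ 0 := fun h0 => hN (h0 ▸ dvd_zero _)
  have hint : IsIntegral ℚ_[(r : ℕ)] w := Algebra.IsIntegral.isIntegral w
  have hw1 : ‖w‖ = 1 := LT1_norm_eq_one_of_pow r hN0 hw
  have hcoeff : ∀ n, ‖(minpoly ℚ_[(r : ℕ)] w).coeff n‖ ≤ 1 := by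
    have h := hw1.le
    change spectralNorm ℚ_[(r : ℕ)] (Om r) w ≤ 1 at h
    rwa [spectralNorm, spectralValue_le_one_iff (minpoly.monic hint)] at h
  have h1 := LR1_aeval_pow r _ hcoeff w hw1.le (minpoly.aeval _ _)
  rw [Splits.aeval_eq_prod_aroots_of_monic (IsAlgClosed.splits _) (minpoly.monic hint)] at h1
  obtain ⟨x, hx, hx1⟩ := LR1_exists_lt r _ h1
  obtain ⟨y, hy, rfl⟩ := Multiset.mem_map.1 hx
  have hy0 : aeval y (minpoly ℚ_[(r : ℕ)] w) = 0 := (mem_aroots.1 hy).2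
  obtain ⟨σ, hσ⟩ := minpoly.exists_algEquiv_of_root' (Algebra.IsAlgebraic.isAlgebraic w) hy0
  refine ⟨σ, ?_⟩
  rw [hσ]
  have hyN : y ^ N = 1 := by rw [← hσ, ← map_pow, hw, map_one]
  have hy1 : ‖y‖ = 1 := LT1_norm_eq_one_of_pow r hN0 hyN
  have hy00 : y ≠ 0 := by
    intro h0; rw [h0, norm_zero] at hy1; exact zero_ne_one hy1
  have h2 : w ^ (r : ℕ) / y = 1 := by
    apply LT1_eq_one r hN
    · rw [div_pow, hyN, div_one, ← pow_mul, mul_comm, pow_mul, hw, one_pow]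
    · have : w ^ (r : ℕ) / y - 1 = (w ^ (r : ℕ) - y) / y := by field_simp
      rw [this, norm_div, hy1, div_one]
      exact hx1
  exact ((div_eq_one_iff_eq hy00).1 h2).symm

end LR

section LR

variable (l r : Nat.Primes)

/-- (LR1) S55/G3/LrFrob.lean : the local Frobenius (Dedekind's argument). -/
theorem exists_local_frob (hrl : r ≠ l) (t : (ZMod (l : ℕ))ˣ)
    (ht : (((r : ℕ) : ℕ) : ZMod (l : ℕ)) = (t : ZMod (l : ℕ))) :
    ∃ h : Gq r, ActsMu l (rq r h) t := by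
  have hnd : ¬ (r : ℕ) ∣ (l : ℕ) := fun h =>
    hrl (Subtype.ext ((Nat.prime_dvd_prime_iff_eq r.2 l.2).1 h))
  obtain ⟨ζ₀, hζ₀⟩ := CY1_exists_prim l
  obtain ⟨h, hh⟩ := LR1_exists_pow r hnd (iq r ζ₀) (by rw [← map_pow, hζ₀.pow_eq_one, map_one])
  refine ⟨h, fun ζ hζ => ?_⟩
  have hval : (t : ZMod (l : ℕ)).val = (r : ℕ) % (l : ℕ) := by
    rw [← ht, ZMod.val_natCast]
  have h0 : rq r h ζ₀ = ζ₀ ^ (t : ZMod (l : ℕ)).val := by
    apply (iq r).injective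
    show iq r (rq r h ζ₀) = iq r (ζ₀ ^ (t : ZMod (l : ℕ)).val)
    rw [iq_rq, hh, hval, ← map_pow, ← pow_eq_pow_mod _ hζ₀.pow_eq_one]
  obtain ⟨k, -, rfl⟩ := hζ₀.eq_pow_of_pow_eq_one hζ
  rw [map_pow, h0, ← pow_mul, ← pow_mul, mul_comm]

end LR

end

end Fermat.Agent.S55Lib
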