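import Fermat.Agent.S55.G3.LgAbs2
import Fermat.Agent.S55.G3.LaMain
import Fermat.Agent.S55.G3.FcDev
import Fermat.Agent.S55.G3.LgDescend
import Fermat.Agent.S55.G3.LgCyc
import Fermat.Agent.S55.G3.LgPrime
import Fermat.Agent.S55.G3.LgQuot
import Fermat.Agent.S55.G3.LgLam
import Fermat.Agent.S55.G3.LgH90
import Fermat.Agent.S55.G3.LgNotNorm
import Fermat.Agent.S55.G3.LgPrimeId
import Fermat.Agent.S55.G3.LrFrob
import Fermat.Agent.S55.G3.CyKer
import Fermat.Agent.S55.G3.CyArt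
import Fermat.Agent.S55.L.Root

/-! # S55 G3 (LG7): (LG) for the full idele class module -/

set_option autoImplicit false
set_option linter.unusedSectionVars false
set_option linter.unusedVariables false
set_option linter.style.haveILetI false

namespace Fermat.Agent.S55Lib

noncomputable section

open groupCohomology

/-- `Wev1` is compatible with `quotMap` -/
theorem LG7_ev_compat (q : Nat.Primes) (U' : Subgroup GQ) [U'.Normal]
    (d : Gq q ⧸ U'.comap (rq q)) (a : inv U' (AQ q)) :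
    Wev1 (rq q) (Additive (Om q)ˣ) levAll U' (quotMap (rq q) U' d • a) =
      d • Wev1 (rq q) (Additive (Om q)ˣ) levAll U' a := by
  induction d using QuotientGroup.induction_on with
  | H h =>
    apply Subtype.ext
    show ((a : AQ q) : GQ → Additive (Om q)ˣ) (1 * rq q h) =
      h • ((a : AQ q) : GQ → Additive (Om q)ˣ) 1
    rw [one_mul, ← (a : AQ q).2.1 h 1, mul_one]

theorem LG7_pi_equivar (q : Nat.Primes) (U' : Subgroup GQ) [U'.Normal] (g : GQ ⧸ U')
    (a : inv U' (AQ q)) :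
    invMap U' (jq q) (jq_equivar q) (g • a) = g • invMap U' (jq q) (jq_equivar q) a := by
  induction g using QuotientGroup.induction_on with
  | H s => exact Subtype.ext (jq_equivar q s (a : AQ q))

/-- a nonzero element of `ℤ/p^1` is invertible -/
theorem LG7_exists_mul (p : ℕ) [Fact p.Prime] (c : ZMod (p ^ 1)) (hc : c ≠ 0) :
    ∃ k : ℕ, k • c = 1 := by
  have hp1 : p ^ 1 = p := pow_one p
  haveI : Fact (p ^ 1).Prime := ⟨by rw [hp1]; exact Fact.out⟩
  haveI : NeZero (p ^ 1) := ⟨(Fact.out : (p ^ 1).Prime).ne_zero⟩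
  refine ⟨(c⁻¹).val, ?_⟩
  rw [nsmul_eq_mul, ZMod.natCast_val, ZMod.cast_id', id, inv_mul_cancel₀ hc]

variable (p : ℕ) [Fact p.Prime]

/-- (LG7) -/
theorem LG_CC (hp2 : p ≠ 2) (q : Nat.Primes) (U : Subgroup GQ) [U.Normal] (hU : U ∈ levAll.mem)
    (hμ : FixesMu p U) (f : (GQ ⧸ U) × (GQ ⧸ U) → inv U (AQ q)) (hf : IsCocycle₂ f)
    (hpf : IsCoboundary₂ (p • f))
    (h0 : IsCoboundary₂ (fun x => invMap U (jq q) (jq_equivar q) (f x))) : IsCoboundary₂ f := by
  classical
  have hp : p.Prime := Fact.out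
  obtain ⟨l, hlp, hlq, hb, hb', hnp⟩ := exists_inert_prime p q
  obtain ⟨lam, χ, hArt⟩ := exists_isArt l p hlp 1 hb hb'
  obtain ⟨Λ, hΛN, -, hΛP⟩ := exists_Lambda (l := l) p hp2 1 lam χ hArt
  haveI : NeZero (p ^ 1) := ⟨pow_ne_zero _ hp.ne_zero⟩
  -- the level
  obtain ⟨U', hU'def⟩ : ∃ U' : Subgroup GQ, U' = U ⊓ χ.ker := ⟨_, rfl⟩
  have hU' : U' ∈ levAll.mem := by
    rw [hU'def]; exact inf_mem_levAll U χ.ker hU hArt.ker_mem_levAll
  haveI hn' : U'.Normal := levAll.normal U' hU'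
  haveI hfi' : U'.FiniteIndex := levAll.finiteIndex U' hU'
  have hle : U' ≤ U := by rw [hU'def]; exact inf_le_left
  have hleχ : U' ≤ χ.ker := by rw [hU'def]; exact inf_le_right
  have hμ' : FixesMu p U' := fun s hs => hμ s (hle hs)
  haveI : (U'.comap (rq q)).FiniteIndex :=
    (levAll.comap (rq q)).finiteIndex (U'.comap (rq q)) ⟨U', hU', rfl⟩
  haveI : Finite (GQ ⧸ U') := Subgroup.finite_quotient_of_finiteIndex
  haveI : Finite (Gq q ⧸ U'.comap (rq q)) := Subgroup.finite_quotient_of_finiteIndex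
  obtain ⟨χ', hχ', Λ', hχmk, hΛ'N, hΛ'eq⟩ := Lambda_quot U' (p ^ 1) χ hleχ Λ hΛN
  -- the Frobenius
  have hcop : Nat.Coprime (q : ℕ) (l : ℕ) := (Nat.coprime_primes q.2 l.2).mpr
    (fun h => hlq (Subtype.ext h.symm))
  obtain ⟨tq, htq⟩ : ∃ tq : (ZMod (l : ℕ))ˣ, (((q : ℕ) : ℕ) : ZMod (l : ℕ)) = (tq : ZMod (l : ℕ)) :=
    ⟨ZMod.unitOfCoprime (q : ℕ) hcop, (ZMod.coe_unitOfCoprime (q : ℕ) hcop).symm⟩
  obtain ⟨h₀, hh₀⟩ := exists_local_frob (r := q) (l := l) hlq.symm tq htq
  have hlam : lam tq ≠ 1 := IsArt.lam_ne_one p hArt tq (fun s => hnp tq s htq)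
  have hlam' : Multiplicative.toAdd (lam tq) ≠ 0 := fun h => hlam (toAdd_eq_zero.mp h)
  obtain ⟨k, hk⟩ := LG7_exists_mul p _ hlam'
  have hχt : χ' (quotMap (rq q) U' ((h₀ ^ k : Gq q) : Gq q ⧸ U'.comap (rq q))) = 1 := by
    have h1 : quotMap (rq q) U' ((h₀ ^ k : Gq q) : Gq q ⧸ U'.comap (rq q)) =
        ((rq q (h₀ ^ k) : GQ) : GQ ⧸ U') := rfl
    rw [h1, hχmk, map_pow, map_pow, hArt.cyc _ _ hh₀, toAdd_pow]
    exact hk
  -- the local class module
  obtain ⟨u, hu⟩ := L_classModule (p := p) q U' hU'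
  -- the prime idele
  have ha0mem : primeA q ∈ inv U' (AQ q) := fun s _ => smul_primeA q s
  have hz0mem : jq q (primeA q) ∈ inv (⊤ : Subgroup GQ) AC := fun s _ => by
    rw [← jq_equivar q s, smul_primeA]
  have key := lg_abs2 p (p ^ 1) (pow_one p) (G' := GQ ⧸ U') (A' := inv U' (AQ q))
    (C' := inv U' AC) (invMap U' (jq q) (jq_equivar q)) (LG7_pi_equivar q U') χ' hχ'
    (fun H hH => (devOut_CC p hp2 U' hU' hμ' H hH).1) Λ' hΛ'N
    (⟨primeA q, ha0mem⟩ : inv U' (AQ q))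
    (by
      intro g
      induction g using QuotientGroup.induction_on with
      | H s => exact Subtype.ext (smul_primeA q s))
    (by
      intro z hz
      have h1 : Λ' z = Λ ⟨jq q (primeA q), hz0mem⟩ := hΛ'eq z _ (by rw [hz]; rfl)
      rw [h1, hΛP ⟨jq q (primeA q), hz0mem⟩ _ q tq hlq.symm rfl (sglq_primeA_mem q)
        (isPrimeId_primeA q) htq]
      exact hlam')
    (D' := Gq q ⧸ U'.comap (rq q)) (K' := inv (U'.comap (rq q)) (Additive (Om q)ˣ))
    (quotMap (rq q) U') (Wev1 (rq q) (Additive (Om q)ˣ) levAll U') (LG7_ev_compat q U')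
    (fun F hF h => shapiro_inj_lev (rq q) (Additive (Om q)ˣ) levAll U' hU' F hF h)
    ((h₀ ^ k : Gq q) : Gq q ⧸ U'.comap (rq q)) hχt
    (fun H f hf => local_h90_quot q U' hU' H f hf)
    (fun f g hf hg hpf hpg hg0 => ptors_cyclic_of_classModule p u hu f g hf hg hpf hpg hg0)
    (by
      intro y hy heq
      refine prime_not_norm p q l hlq.symm (h₀ ^ k)
        (Additive.toMul ((y : inv (U'.comap (rq q)) (Additive (Om q)ˣ)) : Additive (Om q)ˣ))
        (fun h hh => ?_) ?_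
      · have h1 : χ' (quotMap (rq q) U' ((h : Gq q) : Gq q ⧸ U'.comap (rq q))) = 0 := by
          have h2 : quotMap (rq q) U' ((h : Gq q) : Gq q ⧸ U'.comap (rq q)) =
              ((rq q h : GQ) : GQ ⧸ U') := rfl
          rw [h2, hχmk, MonoidHom.mem_ker.mp (hArt.Ucyc_le hh)]
          rfl
        have h3 := hy _ h1
        exact congrArg (fun z : inv (U'.comap (rq q)) (Additive (Om q)ˣ) =>
          Additive.toMul (z : Additive (Om q)ˣ)) h3
      · have h4 := congrArg (AddSubgroup.subtype (inv (U'.comap (rq q)) (Additive (Om q)ˣ))) heq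
        rw [map_sum, pow_one] at h4
        have h5 := congrArg Additive.toMul h4
        rw [toMul_sum] at h5
        exact h5)
    (inflLev hle f) (inflLev_isCocycle hle f hf)
    (by
      have h1 : p • inflLev hle f = inflLev hle (p • f) := by
        funext x
        exact (map_nsmul (invIncl hle) p _).symm
      rw [h1]
      exact inflLev_isCoboundary hle _ hpf)
    (inflLev_isCoboundary hle _ h0)
  exact lg_descend (rq q) (Additive (Om q)ˣ) levAll U U' hU hU' hle
    (fun K f hf => local_h90_quot q U' hU' K f hf) f hf key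

end

end Fermat.Agent.S55Lib
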