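import Fermat.Agent.S55.G2.TameMu
import Fermat.Agent.S55.G2.Defs

/-!
# S55, chapter G3, leaf (LG1b): Frobenius on roots of unity
-/

set_option autoImplicit false
set_option linter.unusedSectionVars false
set_option linter.unusedVariables false

namespace Fermat.Agent.S55Lib

noncomputable section

/-- two roots of unity of order prime to `l` which are congruent are equal -/
theorem LG1b_eq_of_congr (l : Nat.Primes) {N : ℕ} (hN : ¬ (l : ℕ) ∣ N) {a b : Om l}
    (ha : a ^ N = 1) (hb : b ^ N = 1) (h : ‖a - b‖ < 1) : a = b := by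
  have hN0 : N ≠ 0 := fun h0 => hN (h0 ▸ dvd_zero _)
  have hb1 : ‖b‖ = 1 := LT1_norm_eq_one_of_pow l hN0 hb
  have hb0 : b ≠ 0 := by
    intro h0
    rw [h0, norm_zero] at hb1
    exact zero_ne_one hb1
  have h1 : (a / b) ^ N = 1 := by rw [div_pow, ha, hb, div_one]
  have h2 : ‖a / b - 1‖ < 1 := by
    have : a / b - 1 = (a - b) / b := by field_simp
    rw [this, norm_div, hb1, div_one]
    exact h
  have h3 := LT1_eq_one l hN h1 h2
  rwa [div_eq_one_iff_eq hb0] at h3

/-- (LG1b) S55/G3/LgFrobMu.lean : Frobenius on roots of unity. -/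
theorem frob_root_of_unity (l : Nat.Primes) (g τ : GQ) (hτ : IsFrobPl l g τ) (N : ℕ)
    (hN : ¬ (l : ℕ) ∣ N) (z : Qbar) (hz : z ^ N = 1) : τ z = z ^ (l : ℕ) := by
  have hN0 : N ≠ 0 := fun h0 => hN (h0 ▸ dvd_zero _)
  have h1 : iq l (g z) ^ N = 1 := by rw [← map_pow, ← map_pow, hz, map_one, map_one]
  have h2 : iq l (g (τ z)) ^ N = 1 := by
    rw [← map_pow, ← map_pow, ← map_pow, hz, map_one, map_one, map_one]
  have h3 := hτ z (LT1_norm_eq_one_of_pow l hN0 h1).le
  have h4 : (iq l (g z) ^ (l : ℕ)) ^ N = 1 := by rw [← pow_mul, mul_comm, pow_mul, h1, one_pow]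
  have h5 := LG1b_eq_of_congr l hN h2 h4 h3
  rw [← map_pow, ← map_pow] at h5
  exact g.injective ((iq l).injective h5)

end

end Fermat.Agent.S55Lib
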