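import Fermat.Agent.S55.G3.LgDefs
import Fermat.Agent.S55.B.ShapiroInj
import Fermat.Agent.S55.B.ThmB2

/-! # S55 G3 (LGS): Shapiro injectivity in degree 2 at a finite level -/

set_option autoImplicit false
set_option linter.unusedSectionVars false
set_option linter.unusedVariables false

namespace Fermat.Agent.S55Lib

noncomputable section

open groupCohomology

/-- Shapiro injectivity in degree 2 for coinduction along an injective homomorphism -/
theorem LGS_coind {G D : Type} [Group G] [Group D] (ρ : D →* G) (hρ : Function.Injective ρ)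
    (K : Type) [AddCommGroup K] [DistribMulAction D K]
    (f : G × G → Coind ρ K) (hf : IsCocycle₂ f)
    (h : IsCoboundary₂ (fun dd : D × D => ((f (ρ dd.1, ρ dd.2) : Coind ρ K) : G → K) 1)) :
    IsCoboundary₂ f := by
  let _ := rangeAction ρ hρ K
  let ε := coindRangeEquiv ρ hρ K
  have hε : ∀ (g : G) x, ε ((MulEquiv.refl G) g • x) = g • ε x := fun g x => rfl
  have h1 : IsCocycle₂ (fun x : G × G => ε (f ((MulEquiv.refl G) x.1, (MulEquiv.refl G) x.2))) :=
    (transport_isCocycle₂ (MulEquiv.refl G) ε hε f).2 hf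
  rw [← transport_isCoboundary₂ (MulEquiv.refl G) ε hε f]
  refine S2_isCoboundary₂ ρ.range K _ h1 ?_
  have h2 := (transport_isCoboundary₂ (MonoidHom.ofInjective hρ).symm (AddEquiv.refl K)
    (fun g a => rfl) (fun dd : D × D => ((f (ρ dd.1, ρ dd.2) : Coind ρ K) : G → K) 1)).2 h
  have hfun : (fun dd : ρ.range × ρ.range =>
      ((ε (f ((dd.1 : G), (dd.2 : G))) : Coind ρ.range.subtype K) : G → K) 1) =
      (fun x : ρ.range × ρ.range => (AddEquiv.refl K)
        (((f (ρ ((MonoidHom.ofInjective hρ).symm x.1),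
          ρ ((MonoidHom.ofInjective hρ).symm x.2)) : Coind ρ K) : G → K) 1)) := by
    funext dd
    have e1 : ρ ((MonoidHom.ofInjective hρ).symm dd.1) = (dd.1 : G) :=
      congrArg Subtype.val ((MonoidHom.ofInjective hρ).apply_symm_apply dd.1)
    have e2 : ρ ((MonoidHom.ofInjective hρ).symm dd.2) = (dd.2 : G) :=
      congrArg Subtype.val ((MonoidHom.ofInjective hρ).apply_symm_apply dd.2)
    rw [e1, e2]
    rfl
  show IsCoboundary₂ (fun dd : ρ.range × ρ.range =>
      ((ε (f ((dd.1 : G), (dd.2 : G))) : Coind ρ.range.subtype K) : G → K) 1)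
  rw [hfun]
  exact h2

/-- (LGS) S55/G3/LgShapiro.lean : Shapiro injectivity in degree 2 at a finite level:
`WcoindEquiv` (W/CoindInv.lean), `coindRangeEquiv` (B/ThmB2.lean), `S2_isCoboundary₂`
(B/ShapiroInj.lean), `quotMap_injective`. -/
theorem shapiro_inj_lev {Γ H : Type} [Group Γ] [Group H] (r : H →* Γ) (B : Type) [AddCommGroup B]
    [DistribMulAction H B] (𝓤 : Lev Γ) (U : Subgroup Γ) [U.Normal] (hU : U ∈ 𝓤.mem)
    (F : (Γ ⧸ U) × (Γ ⧸ U) → inv U (SCoind r B 𝓤)) (hF : IsCocycle₂ F)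
    (h : IsCoboundary₂ (fun x : (H ⧸ U.comap r) × (H ⧸ U.comap r) =>
      Wev1 r B 𝓤 U (F (quotMap r U x.1, quotMap r U x.2)))) : IsCoboundary₂ F := by
  have hε : ∀ (g : Γ ⧸ U) x, WcoindEquiv r B 𝓤 U hU ((MulEquiv.refl (Γ ⧸ U)) g • x) =
      g • WcoindEquiv r B 𝓤 U hU x := fun g x => WcoindEquiv_smul r B 𝓤 U hU g x
  rw [← transport_isCoboundary₂ (MulEquiv.refl (Γ ⧸ U)) (WcoindEquiv r B 𝓤 U hU) hε F]
  refine LGS_coind (quotMap r U) (quotMap_injective r U) _ _
    ((transport_isCocycle₂ (MulEquiv.refl (Γ ⧸ U)) (WcoindEquiv r B 𝓤 U hU) hε F).2 hF) ?_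
  exact h

end

end Fermat.Agent.S55Lib
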