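import Fermat.Agent.S55.G.Ideles
import Mathlib

/-!
# S55, chapter G3, leaf (LG1a): an element of `Gal(ℚ̄/ℚ(ζ_p))` moving `ζ_{p²}` and `q^{1/p}`
-/

set_option autoImplicit false
set_option linter.unusedSectionVars false
set_option linter.unusedVariables false

namespace Fermat.Agent.S55Lib

noncomputable section

open Polynomial IntermediateField

variable (p : ℕ) [Fact p.Prime]

theorem LG1a_exists_moving (F : IntermediateField ℚ Qbar) (x : Qbar) (hx : x ∉ F) :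
    ∃ τ ∈ F.fixingSubgroup, τ x ≠ x := by
  by_contra hcon
  push Not at hcon
  apply hx
  have hF : IntermediateField.fixedField F.fixingSubgroup = F :=
    InfiniteGalois.fixedField_fixingSubgroup _
  rw [← hF, IntermediateField.mem_fixedField_iff]
  exact hcon

theorem LG1a_natDegree_le (F : IntermediateField ℚ Qbar) [FiniteDimensional ℚ F] (x : Qbar)
    (hx : x ∈ F) : (minpoly ℚ x).natDegree ≤ Module.finrank ℚ F := by
  have h1 : minpoly ℚ (⟨x, hx⟩ : F) = minpoly ℚ x := IntermediateField.minpoly_eq (⟨x, hx⟩ : F)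
  rw [← h1]
  exact minpoly.natDegree_le _

theorem LG1a_not_pow (q : Nat.Primes) (b : ℚ) : b ^ p ≠ (((q : ℕ) : ℕ) : ℚ) := by
  intro h
  have hpp : p.Prime := Fact.out
  have hb : b ≠ 0 := by
    rintro rfl
    rw [zero_pow hpp.ne_zero] at h
    exact (Nat.cast_ne_zero.2 q.2.ne_zero) h.symm
  have h1 := congrArg (padicValRat (q : ℕ)) h
  rw [padicValRat.pow b, padicValRat.self q.2.one_lt] at h1
  have h2 : (p : ℤ) ∣ 1 := ⟨_, h1.symm⟩
  have h3 := Int.natAbs_dvd_natAbs.2 h2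
  simp at h3
  exact hpp.one_lt.ne' h3

/-- (LG1a) S55/G3/LgTau.lean -/
theorem exists_tau0 (q : Nat.Primes) :
    ∃ τ₀ : GQ, (∀ z : Qbar, z ^ p = 1 → τ₀ z = z) ∧ (∃ z : Qbar, z ^ (p ^ 2) = 1 ∧ τ₀ z ≠ z) ∧
      ∀ β : Qbar, β ^ p = (((q : ℕ) : ℕ) : Qbar) → τ₀ β ≠ β := by
  have hpp : p.Prime := Fact.out
  have : NeZero p := ⟨hpp.ne_zero⟩
  have : NeZero (p ^ 2) := ⟨pow_ne_zero _ hpp.ne_zero⟩
  obtain ⟨ζ, hζ⟩ := HasEnoughRootsOfUnity.exists_primitiveRoot Qbar p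
  obtain ⟨Z, hZ⟩ := HasEnoughRootsOfUnity.exists_primitiveRoot Qbar (p ^ 2)
  obtain ⟨β, hβ⟩ : ∃ β : Qbar, β ^ p = (((q : ℕ) : ℕ) : Qbar) :=
    IsAlgClosed.exists_pow_nat_eq _ hpp.pos
  have hβ0 : β ≠ 0 := by
    rintro rfl
    rw [zero_pow hpp.ne_zero] at hβ
    exact (Nat.cast_ne_zero.2 q.2.ne_zero) hβ.symm
  set F : IntermediateField ℚ Qbar := ℚ⟮ζ⟯ with hF
  have hint : IsIntegral ℚ ζ := (hζ.isIntegral hpp.pos).tower_top
  have hfd : FiniteDimensional ℚ F := IntermediateField.adjoin.finiteDimensional hint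
  have hrank : Module.finrank ℚ F = p - 1 := by
    rw [hF, IntermediateField.adjoin.finrank hint, ← Polynomial.cyclotomic_eq_minpoly_rat hζ hpp.pos,
      Polynomial.natDegree_cyclotomic, Nat.totient_prime hpp]
  have hZF : Z ∉ F := by
    intro h
    have h1 := LG1a_natDegree_le F Z h
    rw [hrank, ← Polynomial.cyclotomic_eq_minpoly_rat hZ (pow_pos hpp.pos 2),
      Polynomial.natDegree_cyclotomic, Nat.totient_prime_pow hpp (by norm_num)] at h1
    have h2 : 0 < p - 1 := Nat.sub_pos_of_lt hpp.one_lt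
    have h3 : 2 * (p - 1) ≤ p ^ (2 - 1) * (p - 1) :=
      Nat.mul_le_mul_right _ (by simpa using hpp.two_le)
    omega
  have hβF : β ∉ F := by
    intro h
    have h1 := LG1a_natDegree_le F β h
    have hirr : Irreducible (X ^ p - C (((q : ℕ) : ℕ) : ℚ)) :=
      X_pow_sub_C_irreducible_of_prime hpp (LG1a_not_pow p q)
    have h2 : X ^ p - C (((q : ℕ) : ℕ) : ℚ) = minpoly ℚ β := by
      apply minpoly.eq_of_irreducible_of_monic hirr
      · simp [hβ]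
      · exact monic_X_pow_sub_C _ hpp.ne_zero
    rw [hrank, ← h2, natDegree_X_pow_sub_C] at h1
    have := hpp.pos
    omega
  obtain ⟨τ₁, hτ₁, hτ₁Z⟩ := LG1a_exists_moving F Z hZF
  obtain ⟨τ₂, hτ₂, hτ₂β⟩ := LG1a_exists_moving F β hβF
  -- an element of `H` moving both
  obtain ⟨τ, hτ, hτZ, hτβ⟩ : ∃ τ ∈ F.fixingSubgroup, τ Z ≠ Z ∧ τ β ≠ β := by
    by_cases h1 : τ₁ β = β
    · by_cases h2 : τ₂ Z = Z
      · refine ⟨τ₁ * τ₂, F.fixingSubgroup.mul_mem hτ₁ hτ₂, ?_, ?_⟩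
        · show τ₁ (τ₂ Z) ≠ Z
          rw [h2]
          exact hτ₁Z
        · show τ₁ (τ₂ β) ≠ β
          intro h3
          apply hτ₂β
          apply τ₁.injective
          rw [h3, h1]
      · exact ⟨τ₂, hτ₂, h2, hτ₂β⟩
    · exact ⟨τ₁, hτ₁, hτ₁Z, h1⟩
  have hfix : ∀ z : Qbar, z ^ p = 1 → τ z = z := by
    intro z hz
    obtain ⟨i, -, rfl⟩ := hζ.eq_pow_of_pow_eq_one hz
    have h1 : τ ζ = ζ :=
      (IntermediateField.mem_fixingSubgroup_iff F τ).1 hτ ζ (mem_adjoin_simple_self ℚ ζ)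
    rw [map_pow, h1]
  refine ⟨τ, hfix, ⟨Z, hZ.pow_eq_one, hτZ⟩, fun β' hβ' h => ?_⟩
  apply hτβ
  have hc : (β' / β) ^ p = 1 := by
    rw [div_pow, hβ, hβ']
    exact div_self (Nat.cast_ne_zero.2 q.2.ne_zero)
  have h1 := hfix _ hc
  rw [map_div₀, h] at h1
  have hβ'0 : β' ≠ 0 := by
    rintro rfl
    rw [zero_pow hpp.ne_zero] at hβ'
    exact (Nat.cast_ne_zero.2 q.2.ne_zero) hβ'.symm
  have hτβ0 : τ β ≠ 0 := (map_ne_zero τ).2 hβ0
  field_simp at h1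
  exact h1.symm

end

end Fermat.Agent.S55Lib
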