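import Fermat.Agent.S55.G3.LlTrans
import Fermat.Agent.S55.G2.TameInt
import Fermat.Agent.S55.L.EF

/-!
# S55, chapter G3, (LL3): `ℚ_l(ω)` is totally ramified with uniformizer `1 - ω`
-/

set_option autoImplicit false
set_option linter.unusedSectionVars false
set_option linter.unusedVariables false

namespace Fermat.Agent.S55Lib

noncomputable section

open Polynomial IntermediateField

section LL

variable (l : Nat.Primes)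

lemma LL3_finrank (ω : Om l) (hω : ω ^ (l : ℕ) = 1) (hω1 : ω ≠ 1) :
    Module.finrank ℚ_[(l : ℕ)] ℚ_[(l : ℕ)]⟮ω⟯ = (l : ℕ) - 1 := by
  apply le_antisymm _ (LL2_le_finrank l ω hω hω1)
  have hint : IsIntegral ℚ_[(l : ℕ)] ω := Algebra.IsIntegral.isIntegral ω
  rw [IntermediateField.adjoin.finrank hint, LL2_minpoly l ω hω hω1]
  apply Polynomial.natDegree_sum_le_of_forall_le
  intro i hi
  have := Finset.mem_range.1 hi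
  exact (Polynomial.natDegree_X_pow_le i).trans (by omega)

/-- the residue field of `ℚ_l(ω)` has `l` elements and `1 - ω` has the norm of a uniformizer -/
lemma LL3_key (ω : Om l) (hω : ω ^ (l : ℕ) = 1) (hω1 : ω ≠ 1) :
    QQ (l : ℕ) ℚ_[(l : ℕ)]⟮ω⟯ = (l : ℕ) ∧
      ∃ ϖ : ℚ_[(l : ℕ)]⟮ω⟯, IsUnif (l : ℕ) ϖ ∧ nm (l : ℕ) ϖ = ‖1 - ω‖ := by
  have hint : IsIntegral ℚ_[(l : ℕ)] ω := Algebra.IsIntegral.isIntegral ω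
  have hfd : FiniteDimensional ℚ_[(l : ℕ)] ℚ_[(l : ℕ)]⟮ω⟯ := adjoin.finiteDimensional hint
  have hl2 : 2 ≤ (l : ℕ) := l.2.two_le
  let x : ℚ_[(l : ℕ)]⟮ω⟯ := ⟨1 - ω, sub_mem (one_mem _) (mem_adjoin_simple_self _ ω)⟩
  have hx0 : x ≠ 0 := by
    intro h0
    have : (1 : Om l) - ω = 0 := congrArg Subtype.val h0
    exact hω1 (sub_eq_zero.1 this).symm
  have hnm : nm (l : ℕ) x = ‖1 - ω‖ := LT3_nm_K l _ x
  have h1 := norm_one_sub_zeta_l l ω hω hω1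
  obtain ⟨ϖ, hϖ⟩ := exists_isUnif (l : ℕ) (F := ℚ_[(l : ℕ)]⟮ω⟯)
  obtain ⟨e, he0, he⟩ := N6_exists_pow (l : ℕ) hϖ
  have hx1 : nm (l : ℕ) x ≤ 1 := by
    rw [hnm]
    have h2 : ‖ω‖ = 1 := LT1_norm_eq_one_of_pow l l.2.ne_zero hω
    have := LT_sub_le (1 : Om l) ω
    rwa [h2, norm_one, max_self] at this
  obtain ⟨a, ha⟩ := hϖ.exists_pow_of_le hx0 hx1
  have hϖ0 : 0 < nm (l : ℕ) ϖ := (nm_pos (l : ℕ)).2 hϖ.ne_zero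
  have hea : e = a * ((l : ℕ) - 1) := by
    have h2 : nm (l : ℕ) ϖ ^ e = nm (l : ℕ) ϖ ^ (a * ((l : ℕ) - 1)) := by
      rw [he, pow_mul, ← ha, hnm, h1]
    exact pow_right_injective₀ hϖ0 hϖ.1.ne h2
  obtain ⟨f, hf0, hf⟩ := exists_QQ_eq (l : ℕ) (F := ℚ_[(l : ℕ)]⟮ω⟯)
  have h3 := QQ_pow_eq (l : ℕ) hϖ he
  rw [hf, ← pow_mul, LL3_finrank l ω hω hω1] at h3
  have h4 : f * e = (l : ℕ) - 1 := Nat.pow_right_injective hl2 h3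
  rw [hea, ← mul_assoc] at h4
  have h5 : f * a = 1 := by
    have h6 : 0 < (l : ℕ) - 1 := by omega
    exact Nat.eq_of_mul_eq_mul_right h6 (by rw [h4, one_mul])
  have hf1 : f = 1 := Nat.eq_one_of_mul_eq_one_right h5
  have ha1 : a = 1 := Nat.eq_one_of_mul_eq_one_left h5
  refine ⟨by rw [hf, hf1, pow_one], ϖ, hϖ, ?_⟩
  rw [← hnm, ha, ha1, pow_one]

/-- (LL3) S55/G3/LlDecomp.lean : `ℚ_l(ω)` is totally ramified with uniformizer `1 - ω`. -/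
theorem exists_decomp_l (ω : Om l) (hω : ω ^ (l : ℕ) = 1) (hω1 : ω ≠ 1) (z : Om l)
    (hz : z ∈ IntermediateField.adjoin ℚ_[(l : ℕ)] {ω}) (hz0 : z ≠ 0) :
    ∃ (k : ℤ) (j : ℕ), ‖z / (1 - ω) ^ k - (j : Om l)‖ < 1 ∧ ‖(j : Om l)‖ = 1 := by
  have hint : IsIntegral ℚ_[(l : ℕ)] ω := Algebra.IsIntegral.isIntegral ω
  have hfd : FiniteDimensional ℚ_[(l : ℕ)] ℚ_[(l : ℕ)]⟮ω⟯ := adjoin.finiteDimensional hint
  obtain ⟨hQ, ϖ, hϖ, hϖn⟩ := LL3_key l ω hω hω1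
  have hπ0 : (1 : Om l) - ω ≠ 0 := fun h => hω1 (sub_eq_zero.1 h).symm
  have hπK : (1 : Om l) - ω ∈ ℚ_[(l : ℕ)]⟮ω⟯ := sub_mem (one_mem _) (mem_adjoin_simple_self _ ω)
  obtain ⟨k, hk⟩ := hϖ.exists_zpow (x := (⟨z, hz⟩ : ℚ_[(l : ℕ)]⟮ω⟯))
    (fun h0 => hz0 (congrArg Subtype.val h0))
  rw [LT3_nm_K, hϖn] at hk
  have hk' : ‖z‖ = ‖1 - ω‖ ^ k := hk
  have hu1 : ‖z / (1 - ω) ^ k‖ = 1 := by
    rw [norm_div, norm_zpow, hk', div_self]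
    exact zpow_ne_zero _ (norm_ne_zero_iff.2 hπ0)
  have huK : z / (1 - ω) ^ k ∈ ℚ_[(l : ℕ)]⟮ω⟯ := div_mem hz (zpow_mem hπK k)
  have hfin : Finite (kk (l : ℕ) ℚ_[(l : ℕ)]⟮ω⟯) := finite_kk (l : ℕ)
  have := Fintype.ofFinite (kk (l : ℕ) ℚ_[(l : ℕ)]⟮ω⟯)
  have hfrob : ‖(z / (1 - ω) ^ k) ^ (l : ℕ) - z / (1 - ω) ^ k‖ < 1 := by
    have hu' : nm (l : ℕ) (⟨z / (1 - ω) ^ k, huK⟩ : ℚ_[(l : ℕ)]⟮ω⟯) ≤ 1 := by
      rw [LT3_nm_K]; exact hu1.le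
    have h1 : (red (l : ℕ) ℚ_[(l : ℕ)]⟮ω⟯ ⟨⟨z / (1 - ω) ^ k, huK⟩, hu'⟩) ^ (l : ℕ)
        = red (l : ℕ) ℚ_[(l : ℕ)]⟮ω⟯ ⟨⟨z / (1 - ω) ^ k, huK⟩, hu'⟩ := by
      have h2 := FiniteField.pow_card (red (l : ℕ) ℚ_[(l : ℕ)]⟮ω⟯ ⟨⟨z / (1 - ω) ^ k, huK⟩, hu'⟩)
      rwa [← Nat.card_eq_fintype_card, show Nat.card (kk (l : ℕ) ℚ_[(l : ℕ)]⟮ω⟯) = (l : ℕ) from hQ]
        at h2
    rw [← map_pow, red_eq_red, LT3_nm_K] at h1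
    exact h1
  obtain ⟨j, hj⟩ := exists_nat_of_frob_fixed l _ hu1.le hfrob
  exact ⟨k, j, hj, LT_norm_eq_one (LT_symm hj) hu1⟩

end LL

end

end Fermat.Agent.S55Lib
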