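import Fermat.Agent.S55.G3.ArtDefs
import Fermat.Agent.S55.G2.TameMu
import Fermat.Agent.S55.L.Norm

/-!
# S55, chapter G3, (LL1): the norm of `1 - ω`, `ω` a primitive `l`-th root of unity in `Ω_l`
-/

set_option autoImplicit false
set_option linter.unusedSectionVars false
set_option linter.unusedVariables false

namespace Fermat.Agent.S55Lib

noncomputable section

section LL

variable (l : Nat.Primes)

lemma LL1_norm_l : ‖(((l : ℕ) : ℕ) : Om l)‖ = (((l : ℕ) : ℝ))⁻¹ := nm_q (l : ℕ) (F := Om l)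

variable {l}

lemma LL1_prim {ω : Om l} (hω : ω ^ (l : ℕ) = 1) (hω1 : ω ≠ 1) : IsPrimitiveRoot ω (l : ℕ) := by
  have := IsPrimitiveRoot.orderOf ω
  rwa [orderOf_eq_prime hω hω1] at this

lemma LL1_le {ω : Om l} (h1 : ‖ω‖ = 1) (t : ℕ) : ‖1 - ω ^ t‖ ≤ ‖1 - ω‖ := by
  rw [norm_sub_rev, norm_sub_rev 1 ω, ← mul_geom_sum ω t, norm_mul]
  refine mul_le_of_le_one_right (norm_nonneg _) ?_
  exact LT_sum_le _ _ zero_le_one (fun j _ => by rw [norm_pow, h1, one_pow])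

lemma LL1_eq {ω : Om l} (hω : ω ^ (l : ℕ) = 1) (t : ℕ) (ht : ¬ (l : ℕ) ∣ t) :
    ‖1 - ω ^ t‖ = ‖1 - ω‖ := by
  have h1 : ‖ω‖ = 1 := LT1_norm_eq_one_of_pow l l.2.ne_zero hω
  apply le_antisymm (LL1_le h1 t)
  have hcop : Nat.Coprime t (l : ℕ) := ((Nat.Prime.coprime_iff_not_dvd l.2).2 ht).symm
  obtain ⟨m, -, hm⟩ := Nat.exists_mul_mod_eq_one_of_coprime hcop l.2.one_lt
  have h2 : (ω ^ t) ^ m = ω := by
    rw [← pow_mul, pow_eq_pow_mod _ hω, hm, pow_one]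
  have h3 := LL1_le (ω := ω ^ t) (by rw [norm_pow, h1, one_pow]) m
  rwa [h2] at h3

variable (l)

/-- (LL1) S55/G3/LlPi.lean -/
theorem norm_one_sub_zeta_l (ω : Om l) (hω : ω ^ (l : ℕ) = 1) (hω1 : ω ≠ 1) :
    ‖1 - ω‖ ^ ((l : ℕ) - 1) = (((l : ℕ) : ℝ))⁻¹ := by
  obtain ⟨n, hn⟩ : ∃ n, (l : ℕ) = n + 1 := ⟨(l : ℕ) - 1, by have := l.2.pos; omega⟩
  have hprim : IsPrimitiveRoot ω (n + 1) := hn ▸ LL1_prim hω hω1
  have h1 := hprim.prod_one_sub_pow_eq_order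
  have h2 := congrArg norm h1
  rw [norm_prod] at h2
  have h3 : ∀ k ∈ Finset.range n, ‖1 - ω ^ (k + 1)‖ = ‖1 - ω‖ := by
    intro k hk
    apply LL1_eq hω
    intro hd
    have := Nat.le_of_dvd (Nat.succ_pos k) hd
    have := Finset.mem_range.1 hk
    omega
  rw [Finset.prod_congr rfl h3, Finset.prod_const, Finset.card_range] at h2
  have h4 : ((n : Om l) + 1) = (((l : ℕ) : ℕ) : Om l) := by
    have : (((l : ℕ) : ℕ) : Om l) = ((n + 1 : ℕ) : Om l) := congrArg _ hn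
    rw [this]; push_cast; rfl
  rw [h4, LL1_norm_l] at h2
  have h5 : (l : ℕ) - 1 = n := by omega
  rw [← h2, h5]

end LL

end

end Fermat.Agent.S55Lib
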