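import Fermat.Agent.S55.G2.TRFix
import Fermat.Agent.S55.G2.TRMu
import Fermat.Agent.S55.P.Defs

/-!
# S55, chapter G3, (TS0): the dictionary `p`-layers of `G_ℚ/U` ↔ `IsLayer`
-/

set_option autoImplicit false
set_option linter.unusedSectionVars false
set_option linter.unusedVariables false

namespace Fermat.Agent.S55Lib

noncomputable section

open groupCohomology ExtCitation

variable {p : ℕ} [Fact p.Prime] (S : Finset Nat.Primes)

/-- (TS0) S55/G3/TsLayer.lean : the dictionary `p`-layers of `G_ℚ/U` ↔ `IsLayer` (extracted from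
(TR3)). -/
theorem exists_isLayer (U : Subgroup GQ) [U.Normal] (hU : U ∈ levAll.mem) (hμ : FixesMu p U)
    (H H' : Subgroup (GQ ⧸ U)) (hH : IsPGroup p H) (hle : H' ≤ H)
    (hn : (H'.subgroupOf H).Normal) (hidx : H'.relIndex H = p) (s : GQ ⧸ U) (hs : s ∈ H)
    (hs' : s ∉ H') :
    ∃ (F L : IntermediateField ℚ Qbar) (σ : GQ), IsLayer p F L σ ∧ HasMu p F ∧
      (QuotientGroup.mk σ : GQ ⧸ U) = s ∧
      F.fixingSubgroup = H.comap (QuotientGroup.mk' U) ∧
      L.fixingSubgroup = H'.comap (QuotientGroup.mk' U) := by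
  obtain ⟨M, hM, hst, -, rfl⟩ := hU
  have hker : ∀ K : Subgroup (GQ ⧸ M.fixingSubgroup),
      M.fixingSubgroup ≤ K.comap (QuotientGroup.mk' M.fixingSubgroup) := by
    intro K t ht
    rw [Subgroup.mem_comap]
    have : QuotientGroup.mk' M.fixingSubgroup t = 1 := (QuotientGroup.eq_one_iff t).2 ht
    rw [this]
    exact K.one_mem
  obtain ⟨F, hFfin, -, hF⟩ := exists_field_of_subgroup M _ (hker H)
  obtain ⟨L, hLfin, -, hL⟩ := exists_field_of_subgroup M _ (hker H')
  obtain ⟨σ, rfl⟩ := QuotientGroup.mk_surjective s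
  have hμM : HasMu p M := fun z hz => mem_of_fixed_Q M z (fun t ht => hμ t ht z hz)
  have hLF : L.fixingSubgroup ≤ F.fixingSubgroup := by
    rw [hF, hL]
    exact Subgroup.comap_mono hle
  refine ⟨F, L, σ, ⟨hFfin, hLfin, ?_, ?_, ?_, ?_, ?_⟩, hasMu_of_isPGroup p M hμM H hH F hF, rfl,
    hF, hL⟩
  · intro x hx
    apply mem_of_fixed_Q L x
    intro t ht
    exact (IntermediateField.mem_fixingSubgroup_iff F t).1 (hLF ht) x hx
  · intro t ht x hx
    apply mem_of_fixed_Q L
    intro r hr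
    have h1 : t⁻¹ * r * t ∈ L.fixingSubgroup := by
      rw [hL, Subgroup.mem_comap] at hr ⊢
      rw [hF, Subgroup.mem_comap] at ht
      have h2 := hn.conj_mem ⟨_, hle hr⟩ (Subgroup.mem_subgroupOf.2 hr) ⟨_, H.inv_mem ht⟩
      have h3 := Subgroup.mem_subgroupOf.1 h2
      simpa using h3
    have h4 := (IntermediateField.mem_fixingSubgroup_iff L _).1 h1 x hx
    have h5 : t⁻¹ (r (t x)) = x := h4
    have h6 := congrArg t h5
    rw [show t (t⁻¹ (r (t x))) = r (t x) from t.apply_symm_apply _] at h6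
    exact h6
  · rw [hF, hL, Subgroup.relIndex_comap,
      Subgroup.map_comap_eq_self_of_surjective (QuotientGroup.mk'_surjective _), hidx]
  · rw [hF]; exact hs
  · rw [hL]; exact hs'

end

end Fermat.Agent.S55Lib
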