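import Fermat.Agent.S55.G.Ideles
import Fermat.Agent.S55.P.Places

/-!
# S55, chapter G3, (UR): the Prelude's `IsUnramifiedOutside` implies `UnramAt`
-/

set_option autoImplicit false
set_option linter.unusedSectionVars false
set_option linter.unusedVariables false

namespace Fermat.Agent.S55Lib

noncomputable section

open groupCohomology ExtCitation
open scoped Pointwise

variable {p : ℕ} [Fact p.Prime] (S : Finset Nat.Primes)

theorem UR_mem_nonunits (q : Nat.Primes) {x : Qbar} (hx : ‖iq q x‖ < 1) :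
    x ∈ (padicPlace (q : ℕ)).nonunits := by
  rw [PL_mem_nonunits_iff]
  by_cases h0 : x = 0
  · exact Or.inl h0
  right
  have h1 : iq q x ≠ 0 := by simpa using h0
  rw [PL_mem_padicPlace, map_inv₀, norm_inv, not_le]
  exact (one_lt_inv₀ (norm_pos_iff.2 h1)).2 hx

/-- the local inertia group maps to the inertia group of the standard place -/
theorem UR_rq_mem_inertia (q : Nat.Primes) {h : Gq q} (hh : h ∈ inertiaq q) :
    rq q h ∈ (padicPlace (q : ℕ)).inertiaSubgroupIn ℚ := by
  rw [PL_mem_inertia_iff _ q.2 (PL_padicPlace_liesOver q)]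
  intro b hb
  apply UR_mem_nonunits
  rw [map_sub, iq_rq]
  exact hh _ (norm_iq_le_one_of_isIntegral q hb)

/-- (UR) S55/G3/TsUnram.lean : the Prelude's `IsUnramifiedOutside` implies `UnramAt`.
`h ∈ inertiaq q` ⇒ `g⁻¹ r(h) g` lies in the inertia group of the valuation ring
`{x | ‖iq q (g x)‖ ≤ 1}` (helper11's `PL_mem_inertia_iff`, S55/P/Places.lean). -/
theorem unramAt_of_unramified (L : IntermediateField ℚ Qbar) (hL : L.IsUnramifiedOutside S)
    (q : Nat.Primes) (hq : q ∉ S) (F : IntermediateField ℚ Qbar) : UnramAt q F L := by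
  intro g h hh _
  have h1 := PL_conj_inertia g⁻¹ q.2 (PL_padicPlace_liesOver q) (UR_rq_mem_inertia q hh)
  rw [inv_inv] at h1
  exact hL.2 q hq _ (PL_liesOver_smul g⁻¹ (PL_padicPlace_liesOver q)) h1

end

end Fermat.Agent.S55Lib
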