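import Fermat.Agent.S55.G3.TsLayer
import Fermat.Agent.S55.G3.TsUnram
import Fermat.Agent.S55.G3.TsDefs
import Fermat.Agent.S55.G3.ClassMod
import Fermat.Agent.S55.G1b.UnitNorm
import Fermat.Agent.S55.G1b.UnitH90

/-!
# S55, chapter G3, (TS1): the unit ideles outside `S` are cohomologically trivial in `p`-layers
-/

set_option autoImplicit false
set_option linter.unusedSectionVars false
set_option linter.unusedVariables false

namespace Fermat.Agent.S55Lib

noncomputable section

open groupCohomology ExtCitation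

variable {p : ℕ} [Fact p.Prime] (S : Finset Nat.Primes)

/-- the underlying idele -/
def TS1_val (U : Subgroup GQ) (c : inv U (Additive (UId S))) : JJ :=
  ((Additive.toMul (c : Additive (UId S)) : UId S) : JJ)

theorem TS1_val_injective (U : Subgroup GQ) : Function.Injective (TS1_val S U) := by
  intro a b h
  apply Subtype.ext
  exact congrArg Additive.ofMul (Subtype.ext h)

theorem TS1_val_mem (U : Subgroup GQ) (c : inv U (Additive (UId S))) : TS1_val S U c ∈ UId S :=
  (Additive.toMul (c : Additive (UId S)) : UId S).2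

theorem TS1_val_smul (U : Subgroup GQ) [U.Normal] (σ : GQ) (c : inv U (Additive (UId S))) :
    TS1_val S U ((σ : GQ ⧸ U) • c) = σ • TS1_val S U c := rfl

theorem TS1_val_add (U : Subgroup GQ) (c d : inv U (Additive (UId S))) :
    TS1_val S U (c + d) = TS1_val S U c * TS1_val S U d := rfl

theorem TS1_val_sub (U : Subgroup GQ) (c d : inv U (Additive (UId S))) :
    TS1_val S U (c - d) = TS1_val S U c / TS1_val S U d := rfl

theorem TS1_val_zero (U : Subgroup GQ) : TS1_val S U 0 = 1 := rfl

theorem TS1_val_sum (U : Subgroup GQ) [U.Normal] (σ : GQ) (c : inv U (Additive (UId S))) (n : ℕ) :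
    TS1_val S U (∑ i ∈ Finset.range n, (σ : GQ ⧸ U) ^ i • c) =
      ∏ i ∈ Finset.range n, σ ^ i • TS1_val S U c := by
  induction n with
  | zero => rfl
  | succ n ih =>
    rw [Finset.sum_range_succ, Finset.prod_range_succ, TS1_val_add, ih, ← QuotientGroup.mk_pow,
      TS1_val_smul]

/-- invariants under `K ≤ G_ℚ/U` = ideles of the fixed field -/
theorem TS1_mem_inv_iff (U : Subgroup GQ) [U.Normal] (K : Subgroup (GQ ⧸ U))
    (L : IntermediateField ℚ Qbar) (hL : L.fixingSubgroup = K.comap (QuotientGroup.mk' U))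
    (c : inv U (Additive (UId S))) :
    c ∈ inv K (inv U (Additive (UId S))) ↔ TS1_val S U c ∈ JF L := by
  constructor
  · intro h t ht
    rw [hL] at ht
    have h1 := h _ ht
    rw [← TS1_val_smul]
    exact congrArg (TS1_val S U) h1
  · intro h k hk
    obtain ⟨t, rfl⟩ := QuotientGroup.mk_surjective k
    have ht : t ∈ L.fixingSubgroup := by rw [hL]; exact hk
    apply TS1_val_injective
    rw [TS1_val_smul]
    exact h t ht

theorem TS1_le (U : Subgroup GQ) [U.Normal] (K : Subgroup (GQ ⧸ U))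
    (L : IntermediateField ℚ Qbar) (hL : L.fixingSubgroup = K.comap (QuotientGroup.mk' U)) :
    U ≤ L.fixingSubgroup := by
  intro t ht
  rw [hL, Subgroup.mem_comap]
  have : QuotientGroup.mk' U t = 1 := (QuotientGroup.eq_one_iff t).2 ht
  rw [this]
  exact K.one_mem

theorem TS1_unram (U : Subgroup GQ) (hU : U ∈ (levS S).mem) (L : IntermediateField ℚ Qbar)
    (hUL : U ≤ L.fixingSubgroup) : L.IsUnramifiedOutside S := by
  obtain ⟨M, hM, hst, hMur, rfl⟩ := hU
  refine IntermediateField.IsUnramifiedOutside.of_le ?_ hMur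
  intro x hx
  apply mem_of_fixed_Q M x
  intro t ht
  exact (IntermediateField.mem_fixingSubgroup_iff L t).1 (hUL ht) x hx

/-- an idele of `L` in `U^S` as an element of the module -/
theorem TS1_exists (U : Subgroup GQ) [U.Normal] (K : Subgroup (GQ ⧸ U))
    (L : IntermediateField ℚ Qbar) (hL : L.fixingSubgroup = K.comap (QuotientGroup.mk' U))
    (z : JJ) (hz : z ∈ JF L ⊓ UId S) :
    ∃ d ∈ inv K (inv U (Additive (UId S))), TS1_val S U d = z := by
  have hUL : U ≤ L.fixingSubgroup := TS1_le U K L hL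
  have h1 : (Additive.ofMul (⟨z, hz.2⟩ : UId S)) ∈ inv U (Additive (UId S)) := by
    intro t ht
    exact congrArg Additive.ofMul (Subtype.ext (hz.1 t (hUL ht)))
  refine ⟨⟨_, h1⟩, ?_, rfl⟩
  rw [TS1_mem_inv_iff S U K L hL]
  exact hz.1

/-- (TS1) S55/G3/TsUnits.lean : the unit ideles outside `S` are cohomologically trivial in the
`p`-layers of a field unramified outside `S`: (TS0) + (UR) + `unit_ideles_norm`,
`unit_ideles_h90` (G1b). -/
theorem hlayer0_UId (U : Subgroup GQ) [U.Normal] (hU : U ∈ (levS S).mem) (hμ : FixesMu p U) :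
    HLayer0 p (GQ ⧸ U) (inv U (Additive (UId S))) := by
  unfold HLayer0
  intro H H' hH hle hn hidx s hs hs'
  have hU' : U ∈ levAll.mem := levS_le_levAll S hU
  have h0 := @exists_isLayer p _ U _ hU' hμ H H' hH hle hn hidx s hs hs'
  obtain ⟨F, L, σ, hlay, -, rfl, hF, hL⟩ := h0
  have hUL : U ≤ L.fixingSubgroup := TS1_le U H' L hL
  have hLur : L.IsUnramifiedOutside S := TS1_unram S U hU L hUL
  have hur : ∀ q ∉ S, UnramAt q F L := fun q hq => unramAt_of_unramified S L hLur q hq F
  constructor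
  · intro c hc hN
    have hcL : TS1_val S U c ∈ JF L ⊓ UId S :=
      ⟨(TS1_mem_inv_iff S U H' L hL c).1 hc, TS1_val_mem S U c⟩
    have hN' : ∏ i ∈ Finset.range p, σ ^ i • TS1_val S U c = 1 := by
      rw [← TS1_val_sum, hN]
      rfl
    have h1 := unit_ideles_h90 p F L σ hlay S hur (TS1_val S U c) hcL hN'
    obtain ⟨z, hz, hcz⟩ := h1
    obtain ⟨d, hd, rfl⟩ := TS1_exists S U H' L hL z hz
    refine ⟨d, hd, ?_⟩
    apply TS1_val_injective
    rw [TS1_val_sub, TS1_val_smul]
    exact hcz
  · intro c hc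
    have hcF : TS1_val S U c ∈ JF F ⊓ UId S :=
      ⟨(TS1_mem_inv_iff S U H F hF c).1 hc, TS1_val_mem S U c⟩
    have h1 := unit_ideles_norm p F L σ hlay S hur (TS1_val S U c) hcF
    obtain ⟨w, hw, hcw⟩ := h1
    obtain ⟨d, hd, rfl⟩ := TS1_exists S U H' L hL w hw
    refine ⟨d, hd, ?_⟩
    apply TS1_val_injective
    rw [TS1_val_sum]
    exact hcw

end

end Fermat.Agent.S55Lib
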